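import Mathlib

/-!
# Abstract descent counting (piece D of S15)

Pure group theory used for the proof that the Eisenstein quotient has finitely many rational
points.

* `relIndex_X_le`: `[X_B : X_A] ≤ [B : A] * [Z_{A,B} : Y_A]`.
* `relIndex_X_bot_le`: dévissage along a chain of stable subgroups.
* `relIndex_nY_le`: the resulting bound of `[n Y_V : n M]`.
* `two_pow_le`: the growth of the index of `r^m L` in `f L + r^m L` if `f L ⊄ r L`.
* `exists_not_mem_smul_torsion`: the final Nakayama argument.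
-/

set_option autoImplicit false

namespace Fermat.Agent.Mazur.Descent

section Count

variable {G J : Type*} [Group G] [AddCommGroup J] [DistribMulAction G J]

/-- Elements `y` with `σ y - y ∈ B` for all `σ`. -/
def Y (G : Type*) {J : Type*} [Group G] [AddCommGroup J] [DistribMulAction G J]
    (B : AddSubgroup J) : AddSubgroup J where
  carrier := {y | ∀ σ : G, σ • y - y ∈ B}
  zero_mem' := fun σ => by simp
  add_mem' := fun {a b} ha hb σ => by
    have : σ • (a + b) - (a + b) = (σ • a - a) + (σ • b - b) := by rw [smul_add]; abel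
    rw [this]; exact B.add_mem (ha σ) (hb σ)
  neg_mem' := fun {a} ha σ => by
    have : σ • (-a) - (-a) = -(σ • a - a) := by rw [smul_neg]; abel
    rw [this]; exact B.neg_mem (ha σ)

theorem mem_Y {B : AddSubgroup J} {y : J} : y ∈ Y G B ↔ ∀ σ : G, σ • y - y ∈ B := Iff.rfl

/-- Elements `y` with `σ y - y ∈ B` for all `σ` and `σ y - y ∈ A` for `σ ∈ I`. -/
def Z (I : Subgroup G) (A B : AddSubgroup J) : AddSubgroup J where
  carrier := {y | (∀ σ : G, σ • y - y ∈ B) ∧ ∀ σ ∈ I, σ • y - y ∈ A}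
  zero_mem' := ⟨fun σ => by simp, fun σ _ => by simp⟩
  add_mem' := fun {a b} ha hb => by
    have : ∀ σ : G, σ • (a + b) - (a + b) = (σ • a - a) + (σ • b - b) := fun σ => by
      rw [smul_add]; abel
    exact ⟨fun σ => by rw [this]; exact B.add_mem (ha.1 σ) (hb.1 σ),
      fun σ hσ => by rw [this]; exact A.add_mem (ha.2 σ hσ) (hb.2 σ hσ)⟩
  neg_mem' := fun {a} ha => by
    have : ∀ σ : G, σ • (-a) - (-a) = -(σ • a - a) := fun σ => by rw [smul_neg]; abel
    exact ⟨fun σ => by rw [this]; exact B.neg_mem (ha.1 σ),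
      fun σ hσ => by rw [this]; exact A.neg_mem (ha.2 σ hσ)⟩

theorem mem_Z {I : Subgroup G} {A B : AddSubgroup J} {y : J} :
    y ∈ Z I A B ↔ (∀ σ : G, σ • y - y ∈ B) ∧ ∀ σ ∈ I, σ • y - y ∈ A := Iff.rfl

/-- Pairs `(y, z)` with `y ∈ Y_B`, `z - y ∈ B` and `z` fixed by `I`. -/
def X (I : Subgroup G) (B : AddSubgroup J) : AddSubgroup (J × J) where
  carrier := {p | (∀ σ : G, σ • p.1 - p.1 ∈ B) ∧ p.2 - p.1 ∈ B ∧ ∀ σ ∈ I, σ • p.2 = p.2}
  zero_mem' := ⟨fun σ => by simp, by simp, fun σ _ => by simp⟩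
  add_mem' := fun {a b} ha hb => by
    refine ⟨fun σ => ?_, ?_, fun σ hσ => ?_⟩
    · have : σ • (a + b).1 - (a + b).1 = (σ • a.1 - a.1) + (σ • b.1 - b.1) := by
        rw [Prod.fst_add, smul_add]; abel
      rw [this]; exact B.add_mem (ha.1 σ) (hb.1 σ)
    · have : (a + b).2 - (a + b).1 = (a.2 - a.1) + (b.2 - b.1) := by
        rw [Prod.fst_add, Prod.snd_add]; abel
      rw [this]; exact B.add_mem ha.2.1 hb.2.1
    · rw [Prod.snd_add, smul_add, ha.2.2 σ hσ, hb.2.2 σ hσ]
  neg_mem' := fun {a} ha => by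
    refine ⟨fun σ => ?_, ?_, fun σ hσ => ?_⟩
    · have : σ • (-a).1 - (-a).1 = -(σ • a.1 - a.1) := by rw [Prod.fst_neg, smul_neg]; abel
      rw [this]; exact B.neg_mem (ha.1 σ)
    · have : (-a).2 - (-a).1 = -(a.2 - a.1) := by rw [Prod.fst_neg, Prod.snd_neg]; abel
      rw [this]; exact B.neg_mem ha.2.1
    · rw [Prod.snd_neg, smul_neg, ha.2.2 σ hσ]

theorem mem_X {I : Subgroup G} {B : AddSubgroup J} {p : J × J} :
    p ∈ X I B ↔ (∀ σ : G, σ • p.1 - p.1 ∈ B) ∧ p.2 - p.1 ∈ B ∧ ∀ σ ∈ I, σ • p.2 = p.2 := Iff.rfl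

theorem X_mono {I : Subgroup G} {A B : AddSubgroup J} (h : A ≤ B) : X I A ≤ X I B :=
  fun _ hp => ⟨fun σ => h (hp.1 σ), h hp.2.1, hp.2.2⟩

theorem Y_mono {A B : AddSubgroup J} (h : A ≤ B) : Y G A ≤ Y G B :=
  fun _ hy σ => h (hy σ)

/-- `(y, z) ↦ z - y`. -/
def dif (J : Type*) [AddCommGroup J] : J × J →+ J := AddMonoidHom.snd J J - AddMonoidHom.fst J J

theorem dif_apply (p : J × J) : dif J p = p.2 - p.1 := rfl

variable (I : Subgroup G)

/-- The basic dévissage step. -/
theorem relIndex_X_le {A B : AddSubgroup J} (hAB : A ≤ B)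
    (hA : ∀ σ : G, ∀ a ∈ A, σ • a ∈ A) (hB : A.relIndex B ≠ 0)
    (hZ : (Y G A).relIndex (Z I A B) ≠ 0) :
    (X I A).relIndex (X I B) ≠ 0 ∧
      (X I A).relIndex (X I B) ≤ A.relIndex B * (Y G A).relIndex (Z I A B) := by
  set K : AddSubgroup (J × J) := X I B ⊓ A.comap (dif J) with hK
  have h1 : K.relIndex (X I B) = A.relIndex ((X I B).map (dif J)) := by
    rw [hK, inf_comm, AddSubgroup.inf_relIndex_right, AddSubgroup.relIndex_comap]
  have h2 : (X I B).map (dif J) ≤ B := by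
    rintro _ ⟨p, hp, rfl⟩
    exact hp.2.1
  have h3 : X I A = (Y G A).comap (AddMonoidHom.fst J J) ⊓ K := by
    ext p
    constructor
    · intro hp
      exact ⟨fun σ => hp.1 σ, X_mono hAB hp, hp.2.1⟩
    · rintro ⟨h, hp, hpA⟩
      exact ⟨fun σ => h σ, hpA, hp.2.2⟩
  have h4 : (X I A).relIndex K = (Y G A).relIndex (K.map (AddMonoidHom.fst J J)) := by
    rw [h3, AddSubgroup.inf_relIndex_right, AddSubgroup.relIndex_comap]
  have h5 : K.map (AddMonoidHom.fst J J) ≤ Z I A B := by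
    rintro _ ⟨p, ⟨hp, hpA⟩, rfl⟩
    refine ⟨fun σ => hp.1 σ, fun σ hσ => ?_⟩
    have e : σ • p.1 - p.1 = (p.2 - p.1) - σ • (p.2 - p.1) := by
      rw [smul_sub, hp.2.2 σ hσ]; abel
    change σ • p.1 - p.1 ∈ A
    rw [e]
    exact A.sub_mem hpA (hA σ _ hpA)
  have h6 : X I A ≤ K := by rw [h3]; exact inf_le_right
  have h7 : K ≤ X I B := inf_le_left
  have h8 := AddSubgroup.relIndex_mul_relIndex _ _ _ h6 h7
  have h9 : A.relIndex ((X I B).map (dif J)) ≠ 0 := fun h =>
    hB (AddSubgroup.relIndex_eq_zero_of_le_right h2 h)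
  have h10 : (Y G A).relIndex (K.map (AddMonoidHom.fst J J)) ≠ 0 := fun h =>
    hZ (AddSubgroup.relIndex_eq_zero_of_le_right h5 h)
  rw [← h8, h4, h1]
  refine ⟨mul_ne_zero h10 h9, ?_⟩
  rw [mul_comm (A.relIndex B)]
  exact Nat.mul_le_mul (AddSubgroup.relIndex_le_of_le_right h5 hZ)
    (AddSubgroup.relIndex_le_of_le_right h2 hB)

theorem card_mul_relIndex {A B : AddSubgroup J} (h : A ≤ B) :
    Nat.card A * A.relIndex B = Nat.card B := by
  have := AddSubgroup.relIndex_mul_relIndex ⊥ A B bot_le h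
  rwa [AddSubgroup.relIndex_bot_left, AddSubgroup.relIndex_bot_left] at this

/-- **Dévissage.** `S` is a class of stable subgroups. The hypothesis is the bound of
`[Z_{A,B} : Y_A]` for the simple steps `A < B` with `A`, `B` in `S`. -/
theorem relIndex_X_bot_le (S : AddSubgroup J → Prop) (hbot : S ⊥)
    (hstab : ∀ A, S A → ∀ σ : G, ∀ a ∈ A, σ • a ∈ A) (V Vc : AddSubgroup J)
    [Finite V]
    (hstep : ∀ A B : AddSubgroup J, S A → S B → A < B → B ≤ V →
      (∀ C, S C → A < C → C ≤ B → C = B) →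
      (Y G A).relIndex (Z I A B) ≠ 0 ∧
      (Y G A).relIndex (Z I A B) * Nat.card ↥(A ⊓ Vc) ≤ Nat.card ↥(B ⊓ Vc))
    (B : AddSubgroup J) (hB : S B) (hBV : B ≤ V) :
    (X I (⊥ : AddSubgroup J)).relIndex (X I B) ≠ 0 ∧
      (X I (⊥ : AddSubgroup J)).relIndex (X I B) ≤ Nat.card B * Nat.card ↥(B ⊓ Vc) := by
  classical
  have hfin : ∀ C : AddSubgroup J, C ≤ V → Finite C := fun C hC =>
    Finite.of_injective _ (AddSubgroup.inclusion_injective hC)
  induction hn : Nat.card B using Nat.strong_induction_on generalizing B with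
  | _ n ih =>
    by_cases hB0 : B = ⊥
    · subst hB0
      rw [AddSubgroup.relIndex_self]
      refine ⟨one_ne_zero, ?_⟩
      have hf : Finite ↥((⊥ : AddSubgroup J) ⊓ Vc) := hfin _ (inf_le_left.trans bot_le)
      rw [← hn]
      exact Nat.succ_le_of_lt (Nat.mul_pos Nat.card_pos Nat.card_pos)
    · -- choose a maximal proper `S`-subgroup
      have : Finite V := inferInstance
      have hfinB := hfin B hBV
      have hset : {A : AddSubgroup J | S A ∧ A < B}.Finite := by
        refine Set.Finite.subset (s := {A : AddSubgroup J | A ≤ B}) ?_ fun A hA => hA.2.le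
        have hB' : Finite (Set ↥B) := inferInstance
        refine Set.Finite.of_finite_image (f := fun A : AddSubgroup J =>
          ((fun x : ↥B => (x : J)) ⁻¹' (A : Set J) : Set ↥B)) (Set.toFinite _) ?_
        intro A hA A' hA' h
        ext x
        constructor
        · intro hx
          have : (⟨x, hA hx⟩ : ↥B) ∈ ((fun x : ↥B => (x : J)) ⁻¹' (A : Set J) : Set ↥B) := hx
          rw [show ((fun x : ↥B => (x : J)) ⁻¹' (A : Set J) : Set ↥B) =
            ((fun x : ↥B => (x : J)) ⁻¹' (A' : Set J) : Set ↥B) from h] at this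
          exact this
        · intro hx
          have : (⟨x, hA' hx⟩ : ↥B) ∈ ((fun x : ↥B => (x : J)) ⁻¹' (A' : Set J) : Set ↥B) := hx
          rw [show ((fun x : ↥B => (x : J)) ⁻¹' (A' : Set J) : Set ↥B) =
            ((fun x : ↥B => (x : J)) ⁻¹' (A : Set J) : Set ↥B) from h.symm] at this
          exact this
      have hne : {A : AddSubgroup J | S A ∧ A < B}.Nonempty :=
        ⟨⊥, hbot, bot_lt_iff_ne_bot.mpr hB0⟩
      obtain ⟨A, hAmax⟩ := hset.exists_maximal hne
      obtain ⟨hA, hAB⟩ := hAmax.prop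
      have hmax : ∀ C, S C → A < C → C ≤ B → C = B := by
        intro C hC hAC hCB
        by_contra hne
        exact absurd (hAmax.le_of_ge (y := C) ⟨hC, lt_of_le_of_ne hCB hne⟩ hAC.le) (not_le_of_gt hAC)
      have hAV : A ≤ V := hAB.le.trans hBV
      have hfinA := hfin A hAV
      have hcard := card_mul_relIndex hAB.le
      have hcardlt : Nat.card A < n := by
        rw [← hn, ← hcard]
        have h1 : A.relIndex B ≠ 0 := fun h => by
          rw [h, mul_zero] at hcard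
          exact absurd hcard.symm Nat.card_pos.ne'
        have h2 : A.relIndex B ≠ 1 := fun h => by
          rw [AddSubgroup.relIndex_eq_one] at h
          exact absurd hAB (not_lt_of_ge h)
        have h3 : 0 < Nat.card A := Nat.card_pos
        have h4 : 2 ≤ A.relIndex B := by omega
        nlinarith
      obtain ⟨i1, i2⟩ := ih _ hcardlt A hA hAV rfl
      obtain ⟨s1, s2⟩ := hstep A B hA hB hAB hBV hmax
      have hAB0 : A.relIndex B ≠ 0 := fun h => by
        rw [h, mul_zero] at hcard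
        exact absurd hcard.symm Nat.card_pos.ne'
      obtain ⟨x1, x2⟩ := relIndex_X_le I hAB.le (hstab A hA) hAB0 s1
      have hmul := AddSubgroup.relIndex_mul_relIndex _ _ _ (X_mono (I := I) (bot_le (a := A)))
        (X_mono (I := I) hAB.le)
      rw [← hmul]
      refine ⟨mul_ne_zero i1 x1, ?_⟩
      calc (X I (⊥ : AddSubgroup J)).relIndex (X I A) * (X I A).relIndex (X I B)
          ≤ (Nat.card A * Nat.card ↥(A ⊓ Vc)) *
              (A.relIndex B * (Y G A).relIndex (Z I A B)) := Nat.mul_le_mul i2 x2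
        _ = (Nat.card A * A.relIndex B) *
              ((Y G A).relIndex (Z I A B) * Nat.card ↥(A ⊓ Vc)) := by ring
        _ ≤ n * Nat.card ↥(B ⊓ Vc) := by
            rw [hcard, hn]
            exact Nat.mul_le_mul le_rfl s2

/-- The elements of `V` fixed by `I`. -/
def VI (V : AddSubgroup J) : AddSubgroup J where
  carrier := {v | v ∈ V ∧ ∀ σ ∈ I, σ • v = v}
  zero_mem' := ⟨V.zero_mem, fun σ _ => smul_zero σ⟩
  add_mem' := fun {a b} ha hb => ⟨V.add_mem ha.1 hb.1, fun σ hσ => by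
    rw [smul_add, ha.2 σ hσ, hb.2 σ hσ]⟩
  neg_mem' := fun {a} ha => ⟨V.neg_mem ha.1, fun σ hσ => by rw [smul_neg, ha.2 σ hσ]⟩

theorem mem_VI {V : AddSubgroup J} {v : J} : v ∈ VI I V ↔ v ∈ V ∧ ∀ σ ∈ I, σ • v = v := Iff.rfl

/-- The `n`-torsion of the group of invariants. -/
def Mtors (G : Type*) (J : Type*) [Group G] [AddCommGroup J] [DistribMulAction G J] (n : ℕ) :
    AddSubgroup J where
  carrier := {x | n • x = 0 ∧ ∀ σ : G, σ • x = x}
  zero_mem' := ⟨smul_zero n, fun σ => smul_zero σ⟩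
  add_mem' := fun {a b} ha hb => ⟨by rw [smul_add, ha.1, hb.1, add_zero], fun σ => by
    rw [smul_add, ha.2 σ, hb.2 σ]⟩
  neg_mem' := fun {a} ha => ⟨by rw [smul_neg, ha.1, neg_zero], fun σ => by rw [smul_neg, ha.2 σ]⟩

theorem mem_Y_bot {y : J} : y ∈ Y G (⊥ : AddSubgroup J) ↔ ∀ σ : G, σ • y = y := by
  rw [mem_Y]
  exact forall_congr' fun σ => by rw [AddSubgroup.mem_bot, sub_eq_zero]

/-- The projection of `X_V`: elements `y ∈ Y_V` such that `y + v` is fixed by `I` for some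
`v ∈ V`. -/
def Y' (V : AddSubgroup J) : AddSubgroup J := (X I V).map (AddMonoidHom.fst J J)

theorem mem_Y' {V : AddSubgroup J} {y : J} :
    y ∈ Y' I V ↔ y ∈ Y G V ∧ ∃ v ∈ V, ∀ σ ∈ I, σ • (y + v) = y + v := by
  constructor
  · rintro ⟨p, hp, rfl⟩
    refine ⟨fun σ => hp.1 σ, p.2 - p.1, hp.2.1, fun σ hσ => ?_⟩
    change σ • (p.1 + (p.2 - p.1)) = p.1 + (p.2 - p.1)
    rw [add_sub_cancel]
    exact hp.2.2 σ hσ
  · rintro ⟨hy, v, hv, h⟩
    exact ⟨(y, y + v), ⟨hy, by simpa using hv, h⟩, rfl⟩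

theorem Y'_le {V : AddSubgroup J} : Y' I V ≤ Y G V := fun _ hy => ((mem_Y' I).mp hy).1

/-- **The counting inequality.** -/
theorem relIndex_nY_le (n : ℕ) (V Vc : AddSubgroup J) [Finite V]
    (hnV : ∀ v ∈ V, n • v = 0) (hVG : ∀ σ : G, ∀ v ∈ V, σ • v ∈ V)
    (hX : (X I (⊥ : AddSubgroup J)).relIndex (X I V) ≠ 0 ∧
      (X I (⊥ : AddSubgroup J)).relIndex (X I V) ≤ Nat.card V * Nat.card ↥(V ⊓ Vc))
    (hM : Finite (Mtors G J n)) (w τ : ℕ)
    (hw : Nat.card V ≤ Nat.card (VI I V) * w)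
    (hY : (Y' I V).relIndex (Y G V) ≠ 0 ∧ (Y' I V).relIndex (Y G V) * w ≤ τ)
    (hlag : τ * Nat.card ↥(V ⊓ Vc) ≤ Nat.card V) :
    ((Y G (⊥ : AddSubgroup J)).map (nsmulAddMonoidHom n)).relIndex
        ((Y G V).map (nsmulAddMonoidHom n)) ≠ 0 ∧
      ((Y G (⊥ : AddSubgroup J)).map (nsmulAddMonoidHom n)).relIndex
        ((Y G V).map (nsmulAddMonoidHom n)) ≤ Nat.card (Mtors G J n) := by
  classical
  set g : J →+ J := nsmulAddMonoidHom n with hg
  set G2 : J × J →+ J := g.comp (AddMonoidHom.fst J J) with hG2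
  have hgx : ∀ x, g x = n • x := fun x => rfl
  set X0 := X I (⊥ : AddSubgroup J) with hX0
  set XV := X I V with hXV
  have hX0V : X0 ≤ XV := X_mono bot_le
  have e0 : X0.map G2 = (Y G (⊥ : AddSubgroup J)).map g := by
    ext a
    constructor
    · rintro ⟨p, hp, rfl⟩
      exact ⟨p.1, fun σ => hp.1 σ, rfl⟩
    · rintro ⟨x, hx, rfl⟩
      refine ⟨(x, x), ⟨fun σ => hx σ, by simp, fun σ _ => ?_⟩, rfl⟩
      exact (mem_Y_bot.mp hx) σ
  have eV : XV.map G2 = (Y' I V).map g := by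
    rw [hG2, ← AddSubgroup.map_map]
    rfl
  set Ker := XV ⊓ G2.ker with hKer
  have hK1 : (X0.map G2).comap G2 ⊓ XV = Ker ⊔ X0 := by
    ext p
    constructor
    · rintro ⟨⟨q, hq, hqp⟩, hp⟩
      have : p = (p - q) + q := by abel
      rw [this]
      refine AddSubgroup.add_mem_sup ⟨XV.sub_mem hp (hX0V hq), ?_⟩ hq
      change G2 (p - q) = 0
      rw [map_sub, hqp, sub_self]
    · intro hp
      obtain ⟨a, ha, b, hb, rfl⟩ := AddSubgroup.mem_sup.mp hp
      refine ⟨⟨b, hb, ?_⟩, XV.add_mem ha.1 (hX0V hb)⟩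
      rw [map_add, AddMonoidHom.mem_ker.mp ha.2, zero_add]
  have i1 : (Ker ⊔ X0).relIndex XV = ((Y G (⊥ : AddSubgroup J)).map g).relIndex
      ((Y' I V).map g) := by
    rw [← hK1, AddSubgroup.inf_relIndex_right, AddSubgroup.relIndex_comap, e0, eV]
  have i2 : X0.relIndex (Ker ⊔ X0) = X0.relIndex Ker := AddSubgroup.relIndex_sup_right _ _
  have i3 : X0.relIndex XV = X0.relIndex Ker *
      ((Y G (⊥ : AddSubgroup J)).map g).relIndex ((Y' I V).map g) := by
    rw [← i1, ← i2]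
    refine (AddSubgroup.relIndex_mul_relIndex _ _ _ le_sup_right ?_).symm
    rw [← hK1]; exact inf_le_right
  have n1 : X0.relIndex Ker ≠ 0 := fun h => hX.1 (by rw [i3, h, zero_mul])
  have n2 : ((Y G (⊥ : AddSubgroup J)).map g).relIndex ((Y' I V).map g) ≠ 0 := fun h =>
    hX.1 (by rw [i3, h, mul_zero])
  -- the kernel on `X0`
  have hinj : Function.Injective (fun p : ↥(X0 ⊓ Ker) => (⟨p.1.1, by
      obtain ⟨h1, h2⟩ := p.2
      refine ⟨?_, fun σ => ?_⟩
      · exact AddMonoidHom.mem_ker.mp h2.2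
      · have := h1.1 σ
        rwa [AddSubgroup.mem_bot, sub_eq_zero] at this⟩ : Mtors G J n)) := by
    intro p q hpq
    have h1 : p.1.1 = q.1.1 := congrArg Subtype.val hpq
    have hp2 := p.2.1.2.1
    have hq2 := q.2.1.2.1
    rw [AddSubgroup.mem_bot, sub_eq_zero] at hp2 hq2
    exact Subtype.ext (Prod.ext h1 (by rw [hp2, hq2, h1]))
  have hfin0 : Finite ↥(X0 ⊓ Ker) := Finite.of_injective _ hinj
  have hc0 : Nat.card ↥(X0 ⊓ Ker) ≤ Nat.card (Mtors G J n) :=
    Nat.card_le_card_of_injective _ hinj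
  have hcK : Nat.card ↥(X0 ⊓ Ker) * X0.relIndex Ker = Nat.card Ker := by
    have := AddSubgroup.relIndex_mul_relIndex ⊥ (X0 ⊓ Ker) Ker bot_le inf_le_right
    rwa [AddSubgroup.relIndex_bot_left, AddSubgroup.relIndex_bot_left,
      AddSubgroup.inf_relIndex_right] at this
  have hKfin : Finite Ker := by
    refine Nat.finite_of_card_ne_zero ?_
    rw [← hcK]
    exact mul_ne_zero Nat.card_pos.ne' n1
  have hVfin : Finite (VI I V) := Finite.of_injective (fun x : VI I V => (⟨x.1, x.2.1⟩ : V))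
    fun x y h => Subtype.ext (congrArg (fun z : V => (z : J)) h)
  have hc1 : Nat.card V * Nat.card (VI I V) ≤ Nat.card Ker := by
    rw [← Nat.card_prod]
    refine Nat.card_le_card_of_injective (fun p : V × VI I V => (⟨(p.1.1, p.2.1), ?_, ?_⟩ : Ker)) ?_
    · refine ⟨fun σ => V.sub_mem (hVG σ _ p.1.2) p.1.2, V.sub_mem p.2.2.1 p.1.2, p.2.2.2⟩
    · change G2 (p.1.1, p.2.1) = 0
      exact hnV _ p.1.2
    · rintro ⟨⟨a, ha⟩, ⟨b, hb⟩⟩ ⟨⟨a', ha'⟩, ⟨b', hb'⟩⟩ h
      have h' := congrArg Subtype.val h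
      simp only [Prod.mk.injEq] at h'
      obtain ⟨rfl, rfl⟩ := h'
      rfl
  have hVpos : 0 < Nat.card V := Nat.card_pos
  have hVIpos : 0 < Nat.card (VI I V) := Nat.card_pos
  set a := ((Y G (⊥ : AddSubgroup J)).map g).relIndex ((Y' I V).map g) with ha
  set m := Nat.card (Mtors G J n) with hm
  set v := Nat.card V with hv
  set vi := Nat.card (VI I V) with hvi
  set vc := Nat.card ↥(V ⊓ Vc) with hvc
  -- `a * vi ≤ vc * m`
  have k1 : a * vi ≤ vc * m := by
    have h1 : v * vi ≤ m * X0.relIndex Ker := hc1.trans (by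
      rw [← hcK]; exact Nat.mul_le_mul hc0 le_rfl)
    have h2 : X0.relIndex Ker * a ≤ v * vc := i3 ▸ hX.2
    have h3 : v * (a * vi) ≤ v * (vc * m) := by
      calc v * (a * vi) = (v * vi) * a := by ring
        _ ≤ (m * X0.relIndex Ker) * a := Nat.mul_le_mul h1 le_rfl
        _ = m * (X0.relIndex Ker * a) := by ring
        _ ≤ m * (v * vc) := Nat.mul_le_mul le_rfl h2
        _ = v * (vc * m) := by ring
    exact Nat.le_of_mul_le_mul_left h3 hVpos
  have hle1 : (Y G (⊥ : AddSubgroup J)).map g ≤ (Y' I V).map g := by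
    rw [← e0, ← eV]
    exact AddSubgroup.map_mono hX0V
  have hle2 : (Y' I V).map g ≤ (Y G V).map g := AddSubgroup.map_mono (Y'_le I)
  have hmul := AddSubgroup.relIndex_mul_relIndex _ _ _ hle1 hle2
  have hb : ((Y' I V).map g).relIndex ((Y G V).map g) ∣ (Y' I V).relIndex (Y G V) := by
    rw [AddSubgroup.relIndex_map_map]
    rw [show (Y G V ⊔ g.ker) = g.ker ⊔ Y G V from sup_comm _ _]
    have h1 : (Y' I V ⊔ g.ker).relIndex (g.ker ⊔ Y G V) =
        (Y' I V ⊔ g.ker).relIndex (Y G V) := by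
      have hsup : g.ker ⊔ Y G V = Y G V ⊔ (Y' I V ⊔ g.ker) := by
        rw [← sup_assoc, sup_eq_left.mpr (Y'_le I), sup_comm]
      rw [hsup, AddSubgroup.relIndex_sup_right]
    rw [h1]
    exact AddSubgroup.relIndex_dvd_of_le_left _ le_sup_left
  set b := ((Y' I V).map g).relIndex ((Y G V).map g) with hbdef
  have hb0 : b ≠ 0 := fun h => by
    rw [h, zero_dvd_iff] at hb
    exact hY.1 hb
  have hble : b ≤ (Y' I V).relIndex (Y G V) := Nat.le_of_dvd (Nat.pos_of_ne_zero hY.1) hb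
  rw [← hmul]
  refine ⟨mul_ne_zero n2 hb0, ?_⟩
  have key : v * (a * b) ≤ v * m := by
    calc v * (a * b) ≤ (vi * w) * (a * b) := Nat.mul_le_mul hw le_rfl
      _ = (b * w) * (a * vi) := by ring
      _ ≤ τ * (vc * m) := Nat.mul_le_mul ((Nat.mul_le_mul hble le_rfl).trans hY.2) k1
      _ = (τ * vc) * m := by ring
      _ ≤ v * m := Nat.mul_le_mul hlag le_rfl
  exact Nat.le_of_mul_le_mul_left key hVpos

end Count

section Growth

theorem relIndex_map_dvd {A₁ A₂ : Type*} [AddCommGroup A₁] [AddCommGroup A₂] (g : A₁ →+ A₂)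
    {H K : AddSubgroup A₁} (hHK : H ≤ K) :
    (H.map g).relIndex (K.map g) ∣ H.relIndex K := by
  rw [AddSubgroup.relIndex_map_map]
  have h1 : (H ⊔ g.ker).relIndex (K ⊔ g.ker) = (H ⊔ g.ker).relIndex K := by
    have hsup : K ⊔ g.ker = K ⊔ (H ⊔ g.ker) := by
      rw [← sup_assoc, sup_eq_left.mpr hHK]
    rw [hsup, AddSubgroup.relIndex_sup_right]
  rw [h1]
  exact AddSubgroup.relIndex_dvd_of_le_left _ le_sup_left

/-- Growth of the index. -/
theorem two_pow_le {L : Type*} [AddCommGroup L] (f : L →+ L) (r m : ℕ)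
    (htf : ∀ x : L, r • x = 0 → x = 0) (hf : ¬ ∀ x, ∃ y, f x = r • y)
    (h0 : ((nsmulAddMonoidHom (r ^ m) : L →+ L).range).relIndex
      ((nsmulAddMonoidHom (r ^ m) : L →+ L).range ⊔ f.range) ≠ 0) :
    2 ^ m ≤ ((nsmulAddMonoidHom (r ^ m) : L →+ L).range).relIndex
      ((nsmulAddMonoidHom (r ^ m) : L →+ L).range ⊔ f.range) := by
  set B := (nsmulAddMonoidHom (r ^ m) : L →+ L).range with hB
  set S : ℕ → AddSubgroup L := fun i => B ⊔ (f.range).map (nsmulAddMonoidHom (r ^ i)) with hS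
  have hmap0 : (f.range).map (nsmulAddMonoidHom (r ^ 0)) = f.range := by
    ext x
    constructor
    · rintro ⟨y, hy, rfl⟩
      change r ^ 0 • y ∈ _
      rwa [pow_zero, one_smul]
    · intro hx
      exact ⟨x, hx, by change r ^ 0 • x = x; rw [pow_zero, one_smul]⟩
  have hS0 : S 0 = B ⊔ f.range := by
    change B ⊔ (f.range).map (nsmulAddMonoidHom (r ^ 0)) = _
    rw [hmap0]
  have hanti : ∀ i, S (i + 1) ≤ S i := by
    intro i
    refine sup_le le_sup_left ?_
    rintro _ ⟨y, hy, rfl⟩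
    refine AddSubgroup.mem_sup_right ⟨r • y, AddSubgroup.nsmul_mem _ hy r, ?_⟩
    change r ^ i • r • y = r ^ (i + 1) • y
    rw [smul_smul, pow_succ]
  have hle0 : ∀ i, S i ≤ S 0 := by
    intro i
    induction i with
    | zero => exact le_rfl
    | succ i ih => exact (hanti i).trans ih
  have htf' : ∀ k (x : L), r ^ k • x = 0 → x = 0 := by
    intro k
    induction k with
    | zero => intro x hx; rwa [pow_zero, one_smul] at hx
    | succ k ih =>
      intro x hx
      rw [pow_succ, mul_smul] at hx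
      exact htf x (ih _ hx)
  have hne : ∀ i, i < m → ¬ S i ≤ S (i + 1) := by
    intro i hi hle
    apply hf
    have key : ∀ k, ∀ x, ∃ a b : L, r ^ i • f x = r ^ m • a + r ^ k • r ^ i • f b := by
      intro k
      induction k with
      | zero => intro x; exact ⟨0, x, by rw [smul_zero, zero_add, pow_zero, one_smul]⟩
      | succ k ih =>
        intro x
        obtain ⟨a, b, hab⟩ := ih x
        have h1 : r ^ i • f b ∈ S (i + 1) := hle (AddSubgroup.mem_sup_right ⟨f b, ⟨b, rfl⟩, rfl⟩)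
        obtain ⟨u, ⟨a', rfl⟩, v, ⟨w, ⟨b', rfl⟩, rfl⟩, huv⟩ := AddSubgroup.mem_sup.mp h1
        refine ⟨a + r ^ k • a', b', ?_⟩
        change r ^ m • a' + r ^ (i + 1) • f b' = r ^ i • f b at huv
        rw [hab, ← huv]
        simp only [smul_add, smul_smul]
        rw [add_assoc]
        congr 1
        congr 1
        · congr 1; ring
        · congr 1; ring
    intro x
    obtain ⟨a, b, hab⟩ := key m x
    have h2 : r ^ i • (f x - r ^ (m - i) • (a + r ^ i • f b)) = 0 := by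
      rw [smul_sub, hab, smul_smul (r ^ i) (r ^ (m - i)), ← pow_add, Nat.add_sub_cancel' hi.le,
        smul_add, sub_self]
    have h3 := htf' i _ h2
    rw [sub_eq_zero] at h3
    obtain ⟨j, hj⟩ : ∃ j, m - i = j + 1 := ⟨m - i - 1, by omega⟩
    refine ⟨r ^ j • (a + r ^ i • f b), ?_⟩
    rw [h3, hj, pow_succ', mul_smul]
  have hfin : ∀ i, B.relIndex (S i) ≠ 0 := fun i h =>
    h0 (hS0 ▸ AddSubgroup.relIndex_eq_zero_of_le_right (hle0 i) h)
  have main : ∀ k, k ≤ m → 2 ^ k ≤ B.relIndex (S (m - k)) := by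
    intro k
    induction k with
    | zero => intro _; rw [pow_zero]; exact Nat.pos_of_ne_zero (hfin _)
    | succ k ih =>
      intro hk
      have h1 := ih (by omega)
      set i := m - (k + 1) with hi
      have e : m - k = i + 1 := by omega
      rw [e] at h1
      have h2 := AddSubgroup.relIndex_mul_relIndex B (S (i + 1)) (S i) le_sup_left (hanti i)
      have h3 : (S (i + 1)).relIndex (S i) ≠ 0 := fun h => hfin i (by rw [← h2, h, mul_zero])
      have h4 : (S (i + 1)).relIndex (S i) ≠ 1 := fun h =>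
        hne i (by omega) (AddSubgroup.relIndex_eq_one.mp h)
      rw [← h2, pow_succ]
      exact Nat.mul_le_mul h1 (by omega)
  have := main m le_rfl
  rwa [Nat.sub_self, hS0] at this

variable {R M : Type*} [CommRing R] [AddCommGroup M] [Module R M]

/-- The torsion subgroup, as an `R`-submodule. -/
def torsSub (R M : Type*) [CommRing R] [AddCommGroup M] [Module R M] : Submodule R M where
  carrier := {x | ∃ n : ℕ, 0 < n ∧ n • x = 0}
  zero_mem' := ⟨1, one_pos, smul_zero _⟩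
  add_mem' := by
    rintro a b ⟨n, hn, ha⟩ ⟨k, hk, hb⟩
    refine ⟨n * k, Nat.mul_pos hn hk, ?_⟩
    rw [smul_add, mul_comm n k, mul_smul, ha, smul_zero, mul_comm k n, mul_smul, hb, smul_zero,
      add_zero]
  smul_mem' := by
    rintro c x ⟨n, hn, hx⟩
    exact ⟨n, hn, by rw [smul_comm, hx, smul_zero]⟩

theorem mem_torsSub {x : M} : x ∈ torsSub R M ↔ ∃ n : ℕ, 0 < n ∧ n • x = 0 := Iff.rfl

theorem torsSub_quotient_tf {r : ℕ} (hr : 0 < r) (x : M ⧸ torsSub R M) (hx : r • x = 0) :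
    x = 0 := by
  obtain ⟨y, rfl⟩ := Submodule.Quotient.mk_surjective _ x
  have h1 : (Submodule.Quotient.mk (r • y) : M ⧸ torsSub R M) = 0 := hx
  rw [Submodule.Quotient.mk_eq_zero] at h1
  obtain ⟨n, hn, h2⟩ := h1
  rw [Submodule.Quotient.mk_eq_zero]
  exact ⟨n * r, Nat.mul_pos hn hr, by rw [mul_smul, h2]⟩

/-- Multiplication by `t : R` as an additive map. -/
def mulT (M : Type*) [AddCommGroup M] [Module R M] (t : R) : M →+ M :=
  DistribSMul.toAddMonoidHom M t

theorem mulT_apply (t : R) (x : M) : mulT M t x = t • x := rfl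

/-- The final Nakayama argument. -/
theorem exists_not_mem_smul_torsion (hfg : AddGroup.FG M) (P : Ideal R) [hP : P.IsMaximal] (r : ℕ)
    (hr0 : 0 < r) (hr : (r : R) ∈ P) (C : ℕ)
    (H : ∀ m : ℕ, ∃ t : R, t ∉ P ∧
      ((nsmulAddMonoidHom (r ^ m) : M →+ M).range).relIndex
        ((nsmulAddMonoidHom (r ^ m) : M →+ M).range ⊔ (mulT M t).range) ≠ 0 ∧
      ((nsmulAddMonoidHom (r ^ m) : M →+ M).range).relIndex
        ((nsmulAddMonoidHom (r ^ m) : M →+ M).range ⊔ (mulT M t).range) ≤ C) :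
    ∃ e : R, e ∉ P ∧ ∀ x : M, ∃ n : ℕ, 0 < n ∧ n • (e • x) = 0 := by
  set L := M ⧸ torsSub R M with hL
  let q : M →+ L := (torsSub R M).mkQ.toAddMonoidHom
  have hq : Function.Surjective q := (torsSub R M).mkQ_surjective
  have hfgR : Module.Finite R L := by
    obtain ⟨s, hs⟩ := hfg.out
    have : Module.Finite R M := by
      refine ⟨⟨s, ?_⟩⟩
      rw [eq_top_iff]
      intro x _
      have hx : x ∈ AddSubgroup.closure (s : Set M) := by rw [hs]; trivial
      exact (AddSubgroup.closure_le (K := (Submodule.span R (s : Set M)).toAddSubgroup)).mpr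
        Submodule.subset_span hx
    infer_instance
  obtain ⟨t, htP, h0, hC⟩ := H C
  -- images in `L`
  have hB : ((nsmulAddMonoidHom (r ^ C) : M →+ M).range).map q =
      (nsmulAddMonoidHom (r ^ C) : L →+ L).range := by
    ext x
    constructor
    · rintro ⟨_, ⟨y, rfl⟩, rfl⟩
      exact ⟨q y, (map_nsmul q _ _).symm⟩
    · rintro ⟨y, rfl⟩
      obtain ⟨z, rfl⟩ := hq y
      exact ⟨_, ⟨z, rfl⟩, map_nsmul q _ _⟩
  have hT : ((mulT M t).range).map q = (mulT L t).range := by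
    ext x
    constructor
    · rintro ⟨_, ⟨y, rfl⟩, rfl⟩
      exact ⟨q y, rfl⟩
    · rintro ⟨y, rfl⟩
      obtain ⟨z, rfl⟩ := hq y
      exact ⟨_, ⟨z, rfl⟩, rfl⟩
  have hdvd := relIndex_map_dvd q (le_sup_left :
    (nsmulAddMonoidHom (r ^ C) : M →+ M).range ≤
      (nsmulAddMonoidHom (r ^ C) : M →+ M).range ⊔ (mulT M t).range)
  rw [AddSubgroup.map_sup, hB, hT] at hdvd
  have h0' : ((nsmulAddMonoidHom (r ^ C) : L →+ L).range).relIndex
      ((nsmulAddMonoidHom (r ^ C) : L →+ L).range ⊔ (mulT L t).range) ≠ 0 := fun h => by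
    rw [h, zero_dvd_iff] at hdvd
    exact h0 hdvd
  have hC' := (Nat.le_of_dvd (Nat.pos_of_ne_zero h0) hdvd).trans hC
  have hall : ∀ x : L, ∃ y, mulT L t x = r • y := by
    by_contra hcon
    have := two_pow_le (mulT L t) r C (fun x hx => torsSub_quotient_tf hr0 x hx) hcon h0'
    exact absurd (this.trans hC') (not_le_of_gt Nat.lt_two_pow_self)
  -- `L = P L`
  have hPL : (⊤ : Submodule R L) ≤ P • (⊤ : Submodule R L) := by
    intro x _
    obtain ⟨y, a, ha, h⟩ := hP.exists_inv htP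
    obtain ⟨z, hz⟩ := hall x
    have hx : x = y • (t • x) + a • x := by
      rw [smul_smul, ← add_smul, h, one_smul]
    rw [hx]
    refine Submodule.add_mem _ (Submodule.smul_mem _ _ ?_) (Submodule.smul_mem_smul ha trivial)
    rw [← mulT_apply, hz, ← Nat.cast_smul_eq_nsmul R]
    exact Submodule.smul_mem_smul hr trivial
  obtain ⟨e, he, hel⟩ := Submodule.exists_sub_one_mem_and_smul_eq_zero_of_fg_of_le_smul P
    (⊤ : Submodule R L) Module.Finite.fg_top hPL
  refine ⟨e, fun heP => ?_, fun x => ?_⟩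
  · apply hP.ne_top
    rw [Ideal.eq_top_iff_one]
    have : (1 : R) = e - (e - 1) := by ring
    rw [this]
    exact P.sub_mem heP he
  · have h1 := hel (Submodule.Quotient.mk x) trivial
    rw [← Submodule.Quotient.mk_smul, Submodule.Quotient.mk_eq_zero] at h1
    exact h1

end Growth

section Final

variable {G J R : Type*} [Group G] [AddCommGroup J] [DistribMulAction G J] [CommRing R]
  [Module R J] [SMulCommClass G R J]

/-- The invariants, as an `R`-submodule. -/
def fixedSub (G R J : Type*) [Group G] [AddCommGroup J] [DistribMulAction G J] [CommRing R]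
    [Module R J] [SMulCommClass G R J] : Submodule R J where
  carrier := {x | ∀ σ : G, σ • x = x}
  zero_mem' := fun σ => smul_zero σ
  add_mem' := fun {a b} ha hb σ => by rw [smul_add, ha σ, hb σ]
  smul_mem' := fun c x hx σ => by rw [smul_comm, hx σ]

theorem mem_fixedSub {x : J} : x ∈ fixedSub G R J ↔ ∀ σ : G, σ • x = x := Iff.rfl

theorem finite_torsion_of_fg {M : Type*} [AddCommGroup M] (hfg : AddGroup.FG M) :
    Finite {x : M // ∃ n : ℕ, 0 < n ∧ n • x = 0} := by
  have hfin : Module.Finite ℤ M := Module.Finite.iff_addGroup_fg.mpr hfg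
  have : Finite (torsSub ℤ M) := by
    have h1 : Module.Finite ℤ (torsSub ℤ M) := inferInstance
    refine Module.finite_of_fg_torsion _ ?_
    rintro ⟨x, n, hn, hx⟩
    refine ⟨⟨(n : ℤ), mem_nonZeroDivisors_of_ne_zero (by exact_mod_cast hn.ne')⟩, ?_⟩
    apply Subtype.ext
    change (n : ℤ) • x = 0
    rw [natCast_zsmul]
    exact hx
  exact this

/-- **Descent theorem.** -/
theorem descent (P : Ideal R) [hP : P.IsMaximal] (r : ℕ) (hr0 : 0 < r) (hr : (r : R) ∈ P)
    (hfg : AddGroup.FG (FixedPoints.addSubgroup G J))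
    (hdiv : ∀ x : J, ∃ y : J, r • y = x)
    (H : ∀ m : ℕ, ∃ t : R, t ∉ P ∧ ∃ V : AddSubgroup J,
      (∀ x : J, r ^ m • x = 0 → t • x ∈ V) ∧
      (Finite (Mtors G J (r ^ m)) →
      ((Y G (⊥ : AddSubgroup J)).map (nsmulAddMonoidHom (r ^ m))).relIndex
        ((Y G V).map (nsmulAddMonoidHom (r ^ m))) ≠ 0 ∧
      ((Y G (⊥ : AddSubgroup J)).map (nsmulAddMonoidHom (r ^ m))).relIndex
        ((Y G V).map (nsmulAddMonoidHom (r ^ m))) ≤ Nat.card (Mtors G J (r ^ m)))) :
    ∃ e : R, e ∉ P ∧ ∀ x : J, (∀ σ : G, σ • x = x) → ∃ n : ℕ, 0 < n ∧ n • (e • x) = 0 := by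
  classical
  set M := fixedSub G R J with hM
  have hfg' : AddGroup.FG M := hfg
  have htors := finite_torsion_of_fg hfg'
  have hdiv' : ∀ m (x : J), ∃ y : J, r ^ m • y = x := by
    intro m
    induction m with
    | zero => intro x; exact ⟨x, by rw [pow_zero, one_smul]⟩
    | succ m ih =>
      intro x
      obtain ⟨y, hy⟩ := ih x
      obtain ⟨z, hz⟩ := hdiv y
      exact ⟨z, by rw [pow_succ, mul_smul, hz, hy]⟩
  have hinj : ∀ m, Function.Injective (fun x : Mtors G J (r ^ m) =>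
      (⟨⟨x.1, x.2.2⟩, r ^ m, pow_pos hr0 m, Subtype.ext x.2.1⟩ :
        {x : M // ∃ n : ℕ, 0 < n ∧ n • x = 0})) := by
    intro m x y h
    exact Subtype.ext (congrArg (fun z : {x : M // ∃ n : ℕ, 0 < n ∧ n • x = 0} => (z.1 : J)) h)
  have hfinm : ∀ m, Finite (Mtors G J (r ^ m)) := fun m => Finite.of_injective _ (hinj m)
  obtain ⟨e, he, heM⟩ := exists_not_mem_smul_torsion (R := R) (M := M) hfg' P r hr0 hr
    (Nat.card {x : M // ∃ n : ℕ, 0 < n ∧ n • x = 0}) (fun m => by
      obtain ⟨t, htP, V, hV, hVV⟩ := H m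
      obtain ⟨h1, h2⟩ := hVV (hfinm m)
      refine ⟨t, htP, ?_⟩
      have h3 : Nat.card (Mtors G J (r ^ m)) ≤
          Nat.card {x : M // ∃ n : ℕ, 0 < n ∧ n • x = 0} :=
        Nat.card_le_card_of_injective _ (hinj m)
      -- compare with subgroups of `J`
      set i : M →+ J := M.subtype.toAddMonoidHom with hi
      have hi_inj : Function.Injective i := Subtype.val_injective
      have e1 : ((nsmulAddMonoidHom (r ^ m) : M →+ M).range).map i =
          (Y G (⊥ : AddSubgroup J)).map (nsmulAddMonoidHom (r ^ m)) := by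
        ext x
        constructor
        · rintro ⟨_, ⟨y, rfl⟩, rfl⟩
          exact ⟨y.1, mem_Y_bot.mpr y.2, rfl⟩
        · rintro ⟨y, hy, rfl⟩
          exact ⟨_, ⟨⟨y, mem_Y_bot.mp hy⟩, rfl⟩, rfl⟩
      have e2 : ((nsmulAddMonoidHom (r ^ m) : M →+ M).range ⊔ (mulT M t).range).map i ≤
          (Y G V).map (nsmulAddMonoidHom (r ^ m)) := by
        rw [AddSubgroup.map_sup, e1]
        refine sup_le (AddSubgroup.map_mono (Y_mono bot_le)) ?_
        rintro _ ⟨_, ⟨x, rfl⟩, rfl⟩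
        obtain ⟨y, hy⟩ := hdiv' m x.1
        refine ⟨t • y, fun σ => ?_, ?_⟩
        · have e3 : σ • t • y - t • y = t • (σ • y - y) := by rw [smul_sub, smul_comm]
          rw [e3]
          apply hV
          have e4 : r ^ m • (σ • y) = σ • (r ^ m • y) := (smul_comm _ _ _)
          rw [smul_sub, e4, hy, x.2 σ, sub_self]
        · change r ^ m • t • y = t • x.1
          rw [smul_comm, hy]
      have e3 := AddSubgroup.relIndex_map_map_of_injective
        ((nsmulAddMonoidHom (r ^ m) : M →+ M).range)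
        ((nsmulAddMonoidHom (r ^ m) : M →+ M).range ⊔ (mulT M t).range) hi_inj
      rw [← e3, e1]
      refine ⟨fun h => h1 (AddSubgroup.relIndex_eq_zero_of_le_right e2 h), ?_⟩
      exact (AddSubgroup.relIndex_le_of_le_right e2 h1).trans (h2.trans h3))
  refine ⟨e, he, fun x hx => ?_⟩
  obtain ⟨n, hn, h⟩ := heM ⟨x, hx⟩
  exact ⟨n, hn, congrArg Subtype.val h⟩

end Final

end Fermat.Agent.Mazur.Descent
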