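import Mathlib
import Fermat.Agent.QbarInst
import Fermat.Agent.FrobExists
import Fermat.Agent.LOC.Minkowski
import Fermat.Agent.DR.InertiaValue
import Fermat.Agent.RT.PStep.Basic
import Fermat.Agent.TWP.Place
import Fermat.Agent.Lib.Cyclotomic
import Fermat.Agent.Descent.Size
import Fermat.Agent.Mazur.Descent

/-!
# MAZ [K]: the global Kummer / Minkowski step

* `hom_trivial` (K1): a homomorphism `G_ℚ → M` trivial on one inertia group above each prime is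
  trivial.
* `cocycle_trivial` (K2): a cocycle with values in `μ_r`, trivial on one inertia group above each
  prime `≠ r`, and with Kummer class of valuation divisible by `r` at `r`, is `σ ↦ σζ/ζ` with
  `ζ` in a set with at most `r` elements.
* `relIndex_of_const`, `relIndex_of_mu` (K3): the index of `Y_A` in `Z_{A,B}`.
-/

set_option autoImplicit false

open Pointwise
open Fermat.Agent.FrobExists

namespace Fermat.Agent.Mazur.Global

local notation "Qb" => AlgebraicClosure ℚ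
local notation "GQ" => (AlgebraicClosure ℚ ≃ₐ[ℚ] AlgebraicClosure ℚ)

/-- Inertia groups above the same prime are conjugate. -/
theorem exists_conj {P P' : ValuationSubring Qb} {q : ℕ} (hq : q.Prime)
    (hP : P.LiesOverPrime q) (hP' : P'.LiesOverPrime q) :
    ∃ g : GQ, ∀ σ ∈ P'.inertiaSubgroupIn ℚ, g⁻¹ * σ * g ∈ P.inertiaSubgroupIn ℚ := by
  obtain ⟨g, rfl⟩ := exists_smul_eq P P' hq hP hP'
  refine ⟨g, fun σ hσ => ?_⟩
  have h := TWP.Place.mem_inertia_conj g⁻¹ hσ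
  rwa [inv_smul_smul, inv_inv] at h

/-- **(K1)** A homomorphism `G_ℚ → M` with open kernel and trivial on one inertia group above each
prime is trivial. -/
theorem hom_trivial {M : Type*} [AddGroup M] (ψ : GQ → M)
    (hadd : ∀ σ τ, ψ (σ * τ) = ψ σ + ψ τ) (E : IntermediateField ℚ Qb) [FiniteDimensional ℚ E]
    (hE : ∀ σ : GQ, (∀ x ∈ E, σ x = x) → ψ σ = 0)
    (hI : ∀ q : ℕ, q.Prime → ∃ P : ValuationSubring Qb, P.LiesOverPrime q ∧
      ∀ σ ∈ P.inertiaSubgroupIn ℚ, ψ σ = 0) (σ : GQ) : ψ σ = 0 := by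
  have h1 : ψ 1 = 0 := by
    have := hadd 1 1
    rw [mul_one] at this
    exact left_eq_add.mp this
  let χ : GQ →* Multiplicative M :=
    { toFun := fun σ => Multiplicative.ofAdd (ψ σ)
      map_one' := by rw [h1]; rfl
      map_mul' := fun σ τ => by rw [hadd]; rfl }
  have hker : ∀ σ, χ σ = 1 ↔ ψ σ = 0 := fun σ => Iff.rfl
  have hopen : IsOpen (χ.ker : Set GQ) := by
    refine Subgroup.isOpen_mono (H₁ := E.fixingSubgroup) ?_ E.fixingSubgroup_isOpen
    intro τ hτ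
    rw [MonoidHom.mem_ker, hker]
    exact hE τ fun x hx => (IntermediateField.mem_fixingSubgroup_iff E τ).mp hτ x hx
  have := LOC.Minkowski.eq_one_of_inertia χ hopen (fun q hq A hA τ hτ => by
    obtain ⟨P, hP, hPI⟩ := hI q hq
    obtain ⟨g, hg⟩ := exists_conj hq hP hA
    have h2 : χ (g⁻¹ * τ * g) = 1 := (hker _).mpr (hPI _ (hg τ hτ))
    rw [map_mul, map_mul, map_inv] at h2
    have h3 : χ τ = χ g * ((χ g)⁻¹ * χ τ * χ g) * (χ g)⁻¹ := by group
    rw [h3, h2, mul_one, mul_inv_cancel]) σ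
  exact (hker σ).mp this

section rat

variable {A : ValuationSubring Qb} {q : ℕ}

theorem v_int_one (hA : A.LiesOverPrime q) {n : ℤ} (hn : IsCoprime (q : ℤ) n) :
    A.valuation (n : Qb) = 1 := by
  have hnA : (n : Qb) ∈ A := intCast_mem A n
  have hle : A.valuation (n : Qb) ≤ 1 := (A.valuation_le_one_iff _).mpr hnA
  refine le_antisymm hle (not_lt.mp fun hlt => ?_)
  obtain ⟨a, b, hab⟩ := hn
  have h1 : (n : Qb) ∈ A.nonunits := hlt
  have h2 : (q : Qb) ∈ A.nonunits := hA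
  have h3 : ((a : Qb) * (q : Qb) + (b : Qb) * (n : Qb)) = 1 := by
    have := congrArg (fun z : ℤ => (z : Qb)) hab
    push_cast at this
    exact this
  have h4 : A.valuation (1 : Qb) < 1 := by
    rw [← h3]
    refine lt_of_le_of_lt (A.valuation.map_add _ _) (max_lt ?_ ?_)
    · exact mul_mem_nonunits A (intCast_mem A a) h2
    · exact mul_mem_nonunits A (intCast_mem A b) h1
  rw [map_one] at h4
  exact lt_irrefl _ h4

theorem v_int {n : ℤ} (hq : q.Prime) (hA : A.LiesOverPrime q) (hn : n ≠ 0) :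
    A.valuation (n : Qb) = A.valuation (q : Qb) ^ padicValInt q n := by
  have hfact : Fact q.Prime := ⟨hq⟩
  obtain ⟨u, hu⟩ := padicValInt_dvd (p := q) n
  have hu' : ¬ (q : ℤ) ∣ u := by
    rintro ⟨w, rfl⟩
    have h1 : (q : ℤ) ^ (padicValInt q n + 1) ∣ n := ⟨w, by rw [pow_succ, mul_assoc]; exact hu⟩
    rw [padicValInt_dvd_iff] at h1
    rcases h1 with h1 | h1
    · exact hn h1
    · omega
  conv_lhs => rw [hu]
  push_cast
  rw [map_mul, map_pow, v_int_one hA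
    ((Nat.prime_iff_prime_int.mp hq).coprime_iff_not_dvd.mpr hu'), mul_one]

theorem v_rat (hq : q.Prime) (hA : A.LiesOverPrime q) {x : ℚ}
    (hx : x ≠ 0) : A.valuation (x : Qb) = A.valuation (q : Qb) ^ padicValRat q x := by
  have hfact : Fact q.Prime := ⟨hq⟩
  have hq0 : A.valuation (q : Qb) ≠ 0 :=
    (Valuation.ne_zero_iff _).mpr (by exact_mod_cast hq.ne_zero)
  have hd : ((x.den : ℤ)) ≠ 0 := by exact_mod_cast x.den_ne_zero
  have h1 : (x : Qb) = ((x.num : ℤ) : Qb) / (((x.den : ℤ)) : Qb) := by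
    conv_lhs => rw [← Rat.num_div_den x]
    push_cast; rfl
  rw [h1, map_div₀, v_int hq hA (Rat.num_ne_zero.mpr hx), v_int hq hA hd, padicValRat_def,
    zpow_sub₀ hq0, zpow_natCast, zpow_natCast]
  rfl

theorem v_q_zpow_inj (hq : q.Prime) (hA : A.LiesOverPrime q) {k : ℤ}
    (h : A.valuation (q : Qb) ^ k = 1) : k = 0 := by
  have hq0 : A.valuation (q : Qb) ≠ 0 :=
    (Valuation.ne_zero_iff _).mpr (by exact_mod_cast hq.ne_zero)
  have hlt : A.valuation (q : Qb) < 1 := hA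
  by_contra hk
  rcases lt_or_gt_of_ne hk with h1 | h1
  · have h2 := zpow_lt_one₀ (zero_lt_iff.mpr hq0) hlt (n := -k) (by omega)
    rw [zpow_neg, h, inv_one] at h2
    exact lt_irrefl _ h2
  · have h2 := zpow_lt_one₀ (zero_lt_iff.mpr hq0) hlt (n := k) h1
    rw [h] at h2
    exact lt_irrefl _ h2

/-- If `δ` is fixed by inertia above `q` and `δ^r = b` is rational, then `r ∣ v_q(b)`. -/
theorem dvd_padicValRat (hq : q.Prime) (hA : A.LiesOverPrime q) {δ : Qb} (hδ : δ ≠ 0) {r : ℕ}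
    {b : ℚ} (hb : b ≠ 0) (h : δ ^ r = (b : Qb)) (hfix : ∀ σ ∈ A.inertiaSubgroupIn ℚ, σ δ = δ) :
    (r : ℤ) ∣ padicValRat q b := by
  obtain ⟨k, hk⟩ := DR.InertiaValue.exists_zpow_of_inertia_fixed A hq hA hδ hfix
  have hq0 : A.valuation (q : Qb) ≠ 0 :=
    (Valuation.ne_zero_iff _).mpr (by exact_mod_cast hq.ne_zero)
  have h1 := congrArg (· ^ r) hk
  simp only [one_pow] at h1
  rw [← map_pow, mul_pow, h, map_mul, v_rat hq hA hb, ← zpow_natCast, ← zpow_mul, map_zpow₀,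
    ← zpow_add₀ hq0] at h1
  have h2 := v_q_zpow_inj hq hA h1
  exact ⟨-k, by linarith⟩

end rat

theorem exists_nat_root {r n : ℕ} (hn : n ≠ 0)
    (h : ∀ q : ℕ, q.Prime → r ∣ n.factorization q) : ∃ m : ℕ, n = m ^ r := by
  refine ⟨n.factorization.prod fun p k => p ^ (k / r), ?_⟩
  rw [Finsupp.prod, ← Finset.prod_pow]
  conv_lhs => rw [← Nat.prod_factorization_pow_eq_self hn]
  refine Finset.prod_congr rfl fun p hp => ?_
  rw [← pow_mul, Nat.div_mul_cancel (h p (Nat.prime_of_mem_primeFactors hp))]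

/-- A rational number all whose valuations are divisible by `r` is `±` an `r`-th power. -/
theorem exists_rat_root {r : ℕ} (hr : r ≠ 0) {b : ℚ} (hb : b ≠ 0)
    (h : ∀ q : ℕ, q.Prime → (r : ℤ) ∣ padicValRat q b) : ∃ c : ℚ, c ≠ 0 ∧ (b = c ^ r ∨ b = -c ^ r) := by
  have hnum : b.num.natAbs ≠ 0 := Int.natAbs_ne_zero.mpr (Rat.num_ne_zero.mpr hb)
  have hden : b.den ≠ 0 := b.den_nz
  have hco : Nat.Coprime b.num.natAbs b.den := b.reduced
  have key : ∀ q : ℕ, q.Prime → r ∣ b.num.natAbs.factorization q ∧ r ∣ b.den.factorization q := by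
    intro q hq
    have hf : Fact q.Prime := ⟨hq⟩
    have h1 := h q hq
    rw [padicValRat, padicValInt] at h1
    rw [Nat.factorization_def _ hq, Nat.factorization_def _ hq]
    by_cases h2 : q ∣ b.den
    · have h3 : ¬ q ∣ b.num.natAbs := fun h4 =>
        hq.one_lt.ne' (Nat.dvd_one.mp (hco ▸ Nat.dvd_gcd h4 h2))
      have h5 : padicValNat q b.num.natAbs = 0 := padicValNat.eq_zero_of_not_dvd h3
      rw [h5] at h1 ⊢
      refine ⟨dvd_zero _, ?_⟩
      rw [Nat.cast_zero, zero_sub, dvd_neg] at h1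
      exact_mod_cast h1
    · have h5 : padicValNat q b.den = 0 := padicValNat.eq_zero_of_not_dvd h2
      rw [h5] at h1 ⊢
      refine ⟨?_, dvd_zero _⟩
      rw [Nat.cast_zero, sub_zero] at h1
      exact_mod_cast h1
  obtain ⟨m, hm⟩ := exists_nat_root hnum fun q hq => (key q hq).1
  obtain ⟨n, hn⟩ := exists_nat_root hden fun q hq => (key q hq).2
  have hm0 : m ≠ 0 := by rintro rfl; rw [zero_pow hr] at hm; exact hnum hm
  have hn0 : n ≠ 0 := by rintro rfl; rw [zero_pow hr] at hn; exact hden hn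
  refine ⟨(m : ℚ) / n, div_ne_zero (by exact_mod_cast hm0) (by exact_mod_cast hn0), ?_⟩
  have hb' : b = (b.num : ℚ) / b.den := (Rat.num_div_den b).symm
  rcases Int.natAbs_eq b.num with h1 | h1
  · left
    rw [div_pow, ← Nat.cast_pow, ← Nat.cast_pow, ← hm, ← hn]
    refine hb'.trans ?_
    congr 1
    exact congrArg (fun z : ℤ => (z : ℚ)) h1
  · right
    rw [div_pow, ← Nat.cast_pow, ← Nat.cast_pow, ← hm, ← hn, ← neg_div]
    refine hb'.trans ?_
    congr 1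
    have := congrArg (fun z : ℤ => (z : ℚ)) h1
    simpa using this

section K2

/-- `r` representatives: `μ_r` for `r` odd, `{1, i}` for `r = 2`. -/
theorem exists_reps {r : ℕ} (hr : r.Prime) : ∃ S : Finset Qb, S.card ≤ r ∧ (∀ ζ ∈ S, ζ ≠ 0) ∧
    ∀ ζ : Qb, (ζ ^ r = 1 ∨ ζ ^ r = -1) → ∃ ξ ∈ S, ζ = ξ ∨ ζ = -ξ := by
  classical
  rcases hr.eq_two_or_odd' with rfl | hodd
  · obtain ⟨i, hi⟩ := IsAlgClosed.exists_pow_nat_eq (-1 : Qb) (n := 2) (by norm_num)
    have hi0 : i ≠ 0 := by rintro rfl; norm_num at hi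
    refine ⟨{1, i}, (Finset.card_le_two), ?_, ?_⟩
    · intro ζ hζ
      rw [Finset.mem_insert, Finset.mem_singleton] at hζ
      rcases hζ with rfl | rfl
      · exact one_ne_zero
      · exact hi0
    · intro ζ hζ
      rcases hζ with h | h
      · exact ⟨1, by simp, sq_eq_sq_iff_eq_or_eq_neg.mp (by rw [h, one_pow])⟩
      · exact ⟨i, by simp, sq_eq_sq_iff_eq_or_eq_neg.mp (h.trans hi.symm)⟩
  · have : NeZero r := ⟨hr.ne_zero⟩
    refine ⟨Polynomial.nthRootsFinset r (1 : Qb), ?_, ?_, ?_⟩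
    · rw [Polynomial.nthRootsFinset]
      exact (Multiset.toFinset_card_le _).trans (Polynomial.card_nthRoots r (1 : Qb))
    · intro ζ hζ h0
      rw [Polynomial.mem_nthRootsFinset hr.pos, h0, zero_pow hr.ne_zero] at hζ
      exact zero_ne_one hζ
    · intro ζ hζ
      rcases hζ with h | h
      · exact ⟨ζ, (Polynomial.mem_nthRootsFinset hr.pos _).mpr h, Or.inl rfl⟩
      · exact ⟨-ζ, (Polynomial.mem_nthRootsFinset hr.pos _).mpr (by rw [hodd.neg_pow, h, neg_neg]),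
          Or.inr (neg_neg ζ).symm⟩

variable {r : ℕ}

/-- **(K2)**, first part: the Kummer generator. -/
theorem exists_kummer (hr : r.Prime) (ψ : GQ → Qb) (hcoc : ∀ σ τ, ψ (σ * τ) = ψ σ * σ (ψ τ))
    (hroot : ∀ σ, ψ σ ^ r = 1) (E : IntermediateField ℚ Qb) [FiniteDimensional ℚ E]
    (hE : ∀ σ : GQ, (∀ x ∈ E, σ x = x) → ψ σ = 1)
    (hI : ∀ q : ℕ, q.Prime → q ≠ r → ∃ P : ValuationSubring Qb, P.LiesOverPrime q ∧
      ∀ σ ∈ P.inertiaSubgroupIn ℚ, ψ σ = 1) :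
    ∃ δ : Qb, δ ≠ 0 ∧ (∀ σ, σ δ = ψ σ * δ) ∧ ∃ b : ℚ, b ≠ 0 ∧ δ ^ r = (b : Qb) ∧
      ∀ q : ℕ, q.Prime → q ≠ r → (r : ℤ) ∣ padicValRat q b := by
  have h0 : ∀ σ, ψ σ ≠ 0 := fun σ h => by
    have := hroot σ
    rw [h, zero_pow hr.ne_zero] at this
    exact zero_ne_one this
  obtain ⟨δ, hδ, hδσ⟩ := RT.PStep.hilbert90 ⊤ ψ (fun σ _ => h0 σ) (fun σ _ τ _ => hcoc σ τ) E
    (fun σ _ h => hE σ h)
  have hfix : ∀ σ : GQ, σ (δ ^ r) = δ ^ r := fun σ => by
    rw [map_pow, hδσ σ trivial, mul_pow, hroot, one_mul]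
  obtain ⟨b, hb⟩ : ∃ b : ℚ, (b : Qb) = δ ^ r := by
    have h1 : δ ^ r ∈ (⊥ : IntermediateField ℚ Qb) := by
      rw [← InfiniteGalois.fixedField_bot (k := ℚ) (K := Qb), IntermediateField.mem_fixedField_iff]
      exact fun σ _ => hfix σ
    obtain ⟨b, hb⟩ := IntermediateField.mem_bot.mp h1
    exact ⟨b, by rw [← hb]; rfl⟩
  have hb0 : b ≠ 0 := by
    rintro rfl
    rw [Rat.cast_zero] at hb
    exact pow_ne_zero r hδ hb.symm
  refine ⟨δ, hδ, fun σ => hδσ σ trivial, b, hb0, hb.symm, fun q hq hqr => ?_⟩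
  obtain ⟨P, hP, hPI⟩ := hI q hq hqr
  exact dvd_padicValRat hq hP hδ hb0 hb.symm fun σ hσ => by
    rw [hδσ σ trivial, hPI σ hσ, one_mul]

/-- **(K2)**, second part. -/
theorem exists_zeta (hr : r.Prime) (ψ : GQ → Qb) (hcoc : ∀ σ τ, ψ (σ * τ) = ψ σ * σ (ψ τ))
    (hroot : ∀ σ, ψ σ ^ r = 1) (E : IntermediateField ℚ Qb) [FiniteDimensional ℚ E]
    (hE : ∀ σ : GQ, (∀ x ∈ E, σ x = x) → ψ σ = 1)
    (hI : ∀ q : ℕ, q.Prime → q ≠ r → ∃ P : ValuationSubring Qb, P.LiesOverPrime q ∧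
      ∀ σ ∈ P.inertiaSubgroupIn ℚ, ψ σ = 1)
    (hval : ∀ (δ : Qb) (b : ℚ), δ ≠ 0 → b ≠ 0 → (∀ σ, σ δ = ψ σ * δ) → δ ^ r = (b : Qb) →
      (r : ℤ) ∣ padicValRat r b) :
    ∃ ζ : Qb, (ζ ^ r = 1 ∨ ζ ^ r = -1) ∧ ∀ σ, σ ζ = ψ σ * ζ := by
  obtain ⟨δ, hδ, hδσ, b, hb0, hb, hbq⟩ := exists_kummer hr ψ hcoc hroot E hE hI
  obtain ⟨c, hc0, hc⟩ := exists_rat_root hr.ne_zero hb0 fun q hq => by
    by_cases hqr : q = r
    · subst hqr
      exact hval δ b hδ hb0 hδσ hb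
    · exact hbq q hq hqr
  have hc0' : (c : Qb) ≠ 0 := by exact_mod_cast hc0
  refine ⟨δ / c, ?_, fun σ => ?_⟩
  · rcases hc with hc | hc
    · left
      rw [div_pow, hb, hc, Rat.cast_pow, div_self (pow_ne_zero r hc0')]
    · right
      rw [div_pow, hb, hc, Rat.cast_neg, Rat.cast_pow, neg_div, div_self (pow_ne_zero r hc0')]
  · rw [map_div₀, hδσ, map_ratCast, mul_div_assoc]

end K2

section K3

open _root_.Fermat.Agent.Mazur.Descent

variable {J : Type*} [AddCommGroup J] [DistribMulAction GQ J] {A B : AddSubgroup J}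
  {I : Subgroup GQ} {r : ℕ}

theorem sub_cocycle (σ τ : GQ) (y : J) :
    (σ * τ) • y - y = (σ • y - y) + σ • (τ • y - y) := by
  rw [mul_smul, smul_sub]; abel

/-- **(K3)** for `B/A` with trivial Galois action. -/
theorem Z_le_of_const (hsm : ∀ y : J, ∃ E : IntermediateField ℚ Qb, FiniteDimensional ℚ E ∧
      ∀ σ : GQ, (∀ x ∈ E, σ x = x) → σ • y = y)
    (hconst : ∀ b ∈ B, ∀ σ : GQ, σ • b - b ∈ A)
    (hI : ∀ q : ℕ, q.Prime → ∃ P : ValuationSubring Qb, P.LiesOverPrime q ∧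
      ∀ y ∈ Z I A B, ∀ σ ∈ P.inertiaSubgroupIn ℚ, σ • y - y ∈ A) :
    Z I A B ≤ Y GQ A := by
  intro y hy
  obtain ⟨E, hfin, hE⟩ := hsm y
  have key := hom_trivial (fun σ : GQ => (QuotientAddGroup.mk (σ • y - y) : J ⧸ A))
    (fun σ τ => by
      rw [sub_cocycle, QuotientAddGroup.mk_add]
      congr 1
      rw [eq_comm, QuotientAddGroup.eq]
      have h1 := hconst _ (hy.1 τ) σ
      rwa [sub_eq_neg_add] at h1) E (fun σ hσ => by
      rw [hE σ hσ, sub_self, QuotientAddGroup.mk_zero]) (fun q hq => by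
      obtain ⟨P, hP, hPI⟩ := hI q hq
      exact ⟨P, hP, fun σ hσ => (QuotientAddGroup.eq_zero_iff _).mpr (hPI y hy σ hσ)⟩)
  intro σ
  exact (QuotientAddGroup.eq_zero_iff _).mp (key σ)

theorem relIndex_of_const (hsm : ∀ y : J, ∃ E : IntermediateField ℚ Qb, FiniteDimensional ℚ E ∧
      ∀ σ : GQ, (∀ x ∈ E, σ x = x) → σ • y = y)
    (hconst : ∀ b ∈ B, ∀ σ : GQ, σ • b - b ∈ A)
    (hI : ∀ q : ℕ, q.Prime → ∃ P : ValuationSubring Qb, P.LiesOverPrime q ∧
      ∀ y ∈ Z I A B, ∀ σ ∈ P.inertiaSubgroupIn ℚ, σ • y - y ∈ A) :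
    (Y GQ A).relIndex (Z I A B) = 1 :=
  AddSubgroup.relIndex_eq_one.mpr (Z_le_of_const hsm hconst hI)

/-- **(K3)** for `B/A ≅ μ_r` through `β`. -/
theorem relIndex_of_mu (hr : r.Prime)
    (hsm : ∀ y : J, ∃ E : IntermediateField ℚ Qb, FiniteDimensional ℚ E ∧
      ∀ σ : GQ, (∀ x ∈ E, σ x = x) → σ • y = y)
    (hBG : ∀ σ : GQ, ∀ b ∈ B, σ • b ∈ B)
    (β : J → Qb) (hβadd : ∀ x ∈ B, ∀ y ∈ B, β (x + y) = β x * β y)
    (hβroot : ∀ x ∈ B, β x ^ r = 1) (hβσ : ∀ x ∈ B, ∀ σ : GQ, β (σ • x) = σ (β x))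
    (hβker : ∀ x ∈ B, β x = 1 ↔ x ∈ A)
    (hI : ∀ q : ℕ, q.Prime → q ≠ r → ∃ P : ValuationSubring Qb, P.LiesOverPrime q ∧
      ∀ y ∈ Z I A B, ∀ σ ∈ P.inertiaSubgroupIn ℚ, σ • y - y ∈ A)
    (hval : ∀ y ∈ Z I A B, ∀ (δ : Qb) (b : ℚ), δ ≠ 0 → b ≠ 0 →
      (∀ σ : GQ, σ δ = β (σ • y - y) * δ) → δ ^ r = (b : Qb) → (r : ℤ) ∣ padicValRat r b) :
    (Y GQ A).relIndex (Z I A B) ≠ 0 ∧ (Y GQ A).relIndex (Z I A B) ≤ r := by
  classical
  obtain ⟨S, hS, hS0, hSrep⟩ := exists_reps hr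
  have key : ∀ y ∈ Z I A B, ∃ ξ ∈ S, ∀ σ : GQ, σ ξ = β (σ • y - y) * ξ := by
    intro y hy
    obtain ⟨E, hfin, hE⟩ := hsm y
    obtain ⟨ζ, hζ, hζσ⟩ := exists_zeta hr (fun σ : GQ => β (σ • y - y))
      (fun σ τ => by
        show β ((σ * τ) • y - y) = β (σ • y - y) * σ (β (τ • y - y))
        rw [sub_cocycle, hβadd _ (hy.1 σ) _ (hBG σ _ (hy.1 τ)), hβσ _ (hy.1 τ)])
      (fun σ => hβroot _ (hy.1 σ)) E (fun σ hσ => by
        show β (σ • y - y) = 1
        rw [hE σ hσ, sub_self]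
        exact (hβker 0 B.zero_mem).mpr A.zero_mem) (fun q hq hqr => by
        obtain ⟨P, hP, hPI⟩ := hI q hq hqr
        exact ⟨P, hP, fun σ hσ => (hβker _ (hy.1 σ)).mpr (hPI y hy σ hσ)⟩) (hval y hy)
    obtain ⟨ξ, hξ, h⟩ := hSrep ζ hζ
    refine ⟨ξ, hξ, fun σ => ?_⟩
    rcases h with rfl | rfl
    · exact hζσ σ
    · have := hζσ σ
      rw [map_neg, mul_neg, neg_inj] at this
      exact this
  choose! ξ hξS hξ using key
  -- equal representatives give equal classes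
  have hinj : ∀ y ∈ Z I A B, ∀ z ∈ Z I A B, ξ y = ξ z → y - z ∈ Y GQ A := by
    intro y hy z hz h σ
    have h1 := hξ y hy σ
    rw [h, hξ z hz σ] at h1
    have h2 : β (σ • z - z) = β (σ • y - y) := mul_right_cancel₀ (hS0 _ (hξS z hz)) h1
    have h3 : σ • (y - z) - (y - z) = (σ • y - y) - (σ • z - z) := by rw [smul_sub]; abel
    have hmem : (σ • y - y) - (σ • z - z) ∈ B := B.sub_mem (hy.1 σ) (hz.1 σ)
    rw [h3, ← hβker _ hmem]
    have h4 := hβadd _ hmem _ (hz.1 σ)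
    rw [sub_add_cancel, h2] at h4
    have h5 : β (σ • y - y) ≠ 0 := fun h0 => by
      have := hβroot _ (hy.1 σ)
      rw [h0, zero_pow hr.ne_zero] at this
      exact zero_ne_one this
    exact (mul_right_cancel₀ h5 (by rw [one_mul]; exact h4)).symm
  let Q := ↥(Z I A B) ⧸ (Y GQ A).addSubgroupOf (Z I A B)
  let f : Q → S := fun a => ⟨ξ (Quotient.out a).1, hξS _ (Quotient.out a).2⟩
  have hf : Function.Injective f := by
    intro a b hab
    have h1 : ξ (Quotient.out a).1 = ξ (Quotient.out b).1 := congrArg Subtype.val hab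
    have h2 := hinj _ (Quotient.out b).2 _ (Quotient.out a).2 h1.symm
    rw [← Quotient.out_eq a, ← Quotient.out_eq b]
    refine QuotientAddGroup.eq.mpr ?_
    rw [AddSubgroup.mem_addSubgroupOf]
    have h3 : ((-(Quotient.out a) + Quotient.out b : ↥(Z I A B)) : J) =
      (Quotient.out b).1 - (Quotient.out a).1 := by
      rw [AddSubgroup.coe_add, AddSubgroup.coe_neg]; abel
    rw [h3]
    exact h2
  have hfin : Finite Q := Finite.of_injective f hf
  have hcard : Nat.card Q ≤ r := by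
    have h1 := Nat.card_le_card_of_injective f hf
    rw [Nat.card_eq_fintype_card (α := S), Fintype.card_coe] at h1
    exact h1.trans hS
  have hidx : (Y GQ A).relIndex (Z I A B) = Nat.card Q := rfl
  rw [hidx]
  exact ⟨Nat.card_pos.ne', hcard⟩

end K3

end Fermat.Agent.Mazur.Global
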