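import Mathlib
import Fermat.Agent.RT.PStep.Kummer
import Fermat.Agent.TWP.Place

/-!
# Tame inertia (piece Nn of S15)

`A` a place of `ℚ̄` over the prime `q`, `I` its inertia group, `r ≠ q` a prime.
Every locally constant homomorphism `ψ : I → C` to a finite abelian `r`-group is controlled by the
Kummer character of `q ^ (1 / r^k)`.

* `apply_eq_nsmul`: if `κ(τ') = κ(τ)^n` then `ψ τ' = n • ψ τ`.
* `exists_isTame`, `exists_nsmul`: there is `τ₀` such that each `ψ τ` is a multiple of `ψ τ₀`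
  (independent of `ψ`).
* `apply_conj`: `ψ (φ τ φ⁻¹) = q • ψ τ` for a Frobenius `φ`.
-/

set_option autoImplicit false

open Pointwise
open Fermat.Agent.RT.PStep

namespace Fermat.Agent.Mazur.Tame

local notation "Qbar" => AlgebraicClosure ℚ
local notation "GQ" => (AlgebraicClosure ℚ ≃ₐ[ℚ] AlgebraicClosure ℚ)

variable {A : ValuationSubring Qbar} {q r : ℕ}

theorem valuation_nat_eq_one' (hA : A.LiesOverPrime q) {n : ℕ} (h : n.Coprime q) :
    A.valuation (n : Qbar) = 1 := by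
  have hle : ∀ m : ℤ, A.valuation (m : Qbar) ≤ 1 := fun m => by
    rw [A.valuation_le_one_iff]
    exact intCast_mem A m
  obtain ⟨a, b, hab⟩ := Nat.isCoprime_iff_coprime.mpr h
  have h1 : (a : Qbar) * (n : Qbar) + (b : Qbar) * (q : Qbar) = 1 := by exact_mod_cast congrArg (fun z : ℤ => (z : Qbar)) hab
  have hq : A.valuation ((b : Qbar) * (q : Qbar)) < 1 := by
    rw [map_mul]
    exact mul_lt_one_of_nonneg_of_lt_one_right (hle b) zero_le (v_p_lt_one hA)
  refine le_antisymm (by exact_mod_cast hle n) ?_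
  by_contra hlt
  push Not at hlt
  have h2 : A.valuation ((a : Qbar) * (n : Qbar)) < 1 := by
    rw [map_mul]
    exact mul_lt_one_of_nonneg_of_lt_one_right (hle a) zero_le hlt
  have h3 := A.valuation.map_add_lt h2 hq
  rw [h1, map_one] at h3
  exact lt_irrefl _ h3

/-- roots of unity of order prime to the residue characteristic are determined by their
reduction. -/
theorem eq_one_of_pow_eq_one {n : ℕ} (hn : A.valuation (n : Qbar) = 1) {ζ : Qbar}
    (hζ : ζ ^ n = 1) (h1 : A.valuation (ζ - 1) < 1) : ζ = 1 := by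
  by_contra hne
  have hn0 : n ≠ 0 := by
    rintro rfl
    rw [Nat.cast_zero, map_zero] at hn
    exact zero_ne_one hn
  have hsum : ∑ i ∈ Finset.range n, ζ ^ i = 0 := by
    have h2 := geom_sum_mul ζ n
    rw [hζ, sub_self] at h2
    rcases mul_eq_zero.mp h2 with h | h
    · exact h
    · exact absurd (sub_eq_zero.mp h) hne
  have h2 : ∑ i ∈ Finset.range n, (ζ ^ i - 1) = -(n : Qbar) := by
    rw [Finset.sum_sub_distrib, hsum]
    simp
  have hv : A.valuation ζ = 1 := v_eq_one_of_pow hn0 hζ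
  have h3 : ∀ i ∈ Finset.range n, A.valuation (ζ ^ i - 1) < 1 := by
    intro i _
    have h4 : ζ ^ i - 1 = (∑ j ∈ Finset.range i, ζ ^ j) * (ζ - 1) := (geom_sum_mul ζ i).symm
    rw [h4, map_mul]
    refine mul_lt_one_of_nonneg_of_lt_one_right ?_ zero_le h1
    refine A.valuation.map_sum_le fun j _ => ?_
    rw [map_pow, hv, one_pow]
  have h5 := A.valuation.map_sum_lt one_ne_zero h3
  rw [h2, Valuation.map_neg, hn] at h5
  exact lt_irrefl _ h5

theorem valuation_sub_lt_one {σ : GQ} (hσ : σ ∈ A.inertiaSubgroupIn ℚ) {x : Qbar} (hx : x ∈ A) :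
    A.valuation (σ x - x) < 1 := by
  have h := FlatOrd.InertiaLift.sub_mem_nonunits_of_mem_inertia A hσ hx
  rwa [ValuationSubring.mem_nonunits_iff] at h

/-- A root, of order prime to `q`, of a unit fixed by inertia is fixed by inertia. -/
theorem fix_of_pow {n : ℕ} (hn : A.valuation (n : Qbar) = 1) {w : Qbar} (hw : A.valuation w = 1)
    (h : Fix A (w ^ n)) : Fix A w := by
  intro σ hσ
  have hw0 : w ≠ 0 := by
    rintro rfl
    rw [map_zero] at hw
    exact zero_ne_one hw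
  have h1 : (σ w / w) ^ n = 1 := by
    rw [div_pow, ← map_pow, h σ hσ, div_self (pow_ne_zero _ hw0)]
  have h2 : A.valuation (σ w / w - 1) < 1 := by
    have h3 : σ w / w - 1 = (σ w - w) / w := by rw [sub_div, div_self hw0]
    rw [h3, map_div₀, hw, div_one]
    exact valuation_sub_lt_one hσ (mem_of_valuation_eq_one hw).1
  have h3 := eq_one_of_pow_eq_one hn h1 h2
  rwa [div_eq_one_iff_eq hw0] at h3

theorem fix_root {n : ℕ} (hn : A.valuation (n : Qbar) = 1) {ζ : Qbar} (h : ζ ^ n = 1) :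
    Fix A ζ := by
  have hn0 : n ≠ 0 := by
    rintro rfl
    rw [Nat.cast_zero, map_zero] at hn
    exact zero_ne_one hn
  exact fix_of_pow hn (v_eq_one_of_pow hn0 h) (by rw [h]; exact fix_one)

section kummer

variable (hq : q.Prime) (hA : A.LiesOverPrime q) {n : ℕ} (hn : n.Coprime q)
include hq hA hn

/-- **Structure of Kummer generators**: `β = x ^ a * w` with `w` fixed by inertia. -/
theorem exists_kummer_eq {x : Qbar} (hx : x ^ n = q) {β : Qbar} (hβ0 : β ≠ 0)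
    (hβ : Fix A (β ^ n)) : ∃ (a : ℤ) (w : Qbar), w ≠ 0 ∧ Fix A w ∧ β = x ^ a * w := by
  have hvn := valuation_nat_eq_one' hA hn
  have hn0 : n ≠ 0 := by
    rintro rfl
    rw [Nat.cast_zero, map_zero] at hvn
    exact zero_ne_one hvn
  have hq0 : (q : Qbar) ≠ 0 := by exact_mod_cast hq.ne_zero
  have hx0 : x ≠ 0 := by
    rintro rfl
    rw [zero_pow hn0] at hx
    exact hq0 hx.symm
  obtain ⟨a, u, hu0, hu, hu', hufix, hβu⟩ := exists_zpow_mul hq hA (pow_ne_zero _ hβ0) hβ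
  have hw0 : β * x ^ (-a) ≠ 0 := mul_ne_zero hβ0 (zpow_ne_zero _ hx0)
  have hwn : (β * x ^ (-a)) ^ n = u := by
    rw [mul_pow, hβu, ← zpow_natCast (x ^ (-a)), ← zpow_mul, mul_comm (-a), zpow_mul, zpow_natCast,
      hx, mul_right_comm, ← zpow_add₀ hq0, add_neg_cancel, zpow_zero, one_mul]
  refine ⟨a, β * x ^ (-a), hw0, fix_of_pow hvn ?_ (by rw [hwn]; exact hufix), ?_⟩
  · have h1 : A.valuation (β * x ^ (-a)) ^ n = 1 := by
      rw [← map_pow, hwn]
      exact valuation_eq_one hu0 hu hu'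
    rcases lt_trichotomy (A.valuation (β * x ^ (-a))) 1 with h2 | h2 | h2
    · exact absurd h1 (pow_lt_one₀ zero_le h2 hn0).ne
    · exact h2
    · exact absurd h1 (one_lt_pow₀ h2 hn0).ne'
  · rw [mul_left_comm, ← zpow_add₀ hx0, add_neg_cancel, zpow_zero, mul_one]

end kummer

/-- Homomorphisms of finite level from the inertia group, with values in a group killed
by `n`. -/
structure IsTameHom (A : ValuationSubring Qbar) (n : ℕ) {C : Type*} [AddCommGroup C]
    (ψ : GQ → C) : Prop where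
  hom : ∀ σ ∈ A.inertiaSubgroupIn ℚ, ∀ τ ∈ A.inertiaSubgroupIn ℚ, ψ (σ * τ) = ψ σ + ψ τ
  level : ∃ E : IntermediateField ℚ Qbar, FiniteDimensional ℚ E ∧
    ∀ σ ∈ A.inertiaSubgroupIn ℚ, (∀ x ∈ E, σ x = x) → ψ σ = 0
  kill : ∀ σ ∈ A.inertiaSubgroupIn ℚ, n • ψ σ = 0

section main

variable (hq : q.Prime) (hA : A.LiesOverPrime q) {n : ℕ} (hn : n.Coprime q)
  {C : Type} [AddCommGroup C] [Finite C] {ψ : GQ → C}
include hq hA hn

/-- Kummer generator of a character of `ψ`. -/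
theorem IsTameHom.exists_exponent (h : IsTameHom A n ψ) {x : Qbar} (hx : x ^ n = q)
    (χ : AddChar C Qbar) : ∃ a : ℤ, ∀ σ ∈ A.inertiaSubgroupIn ℚ, χ (ψ σ) = (σ x / x) ^ a := by
  have hvn := valuation_nat_eq_one' hA hn
  have hn0 : n ≠ 0 := by
    rintro rfl
    rw [Nat.cast_zero, map_zero] at hvn
    exact zero_ne_one hvn
  have hx0 : x ≠ 0 := by
    rintro rfl
    rw [zero_pow hn0] at hx
    exact hq.ne_zero (by exact_mod_cast hx.symm)
  have hroot : ∀ σ ∈ A.inertiaSubgroupIn ℚ, χ (ψ σ) ^ n = 1 := fun σ hσ => by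
    rw [← AddChar.map_nsmul_eq_pow, h.kill σ hσ, χ.map_zero_eq_one]
  obtain ⟨E, hE, hE'⟩ := h.level
  obtain ⟨β, hβ0, hβ⟩ := hilbert90 (A.inertiaSubgroupIn ℚ) (fun g => χ (ψ g))
    (fun g _ => addChar_ne_zero χ _)
    (fun g hg k hk => by
      show χ (ψ (g * k)) = χ (ψ g) * g (χ (ψ k))
      rw [h.hom g hg k hk, χ.map_add_eq_mul, fix_root hvn (hroot k hk) g hg])
    E
    (fun g hg hgE => by
      show χ (ψ g) = 1
      rw [hE' g hg hgE, χ.map_zero_eq_one])
  obtain ⟨a, w, hw0, hw, hβw⟩ := exists_kummer_eq hq hA hn hx hβ0 (fun g hg => by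
    rw [map_pow, hβ g hg, mul_pow, hroot g hg, one_mul])
  refine ⟨a, fun σ hσ => ?_⟩
  have h1 := hβ σ hσ
  rw [hβw, map_mul, map_zpow₀, hw σ hσ] at h1
  have h2 : (σ x) ^ a = χ (ψ σ) * x ^ a := by
    apply mul_right_cancel₀ hw0
    rw [h1]
    ring
  rw [div_zpow, h2, mul_div_cancel_right₀ _ (zpow_ne_zero _ hx0)]

/-- If `κ(τ') = κ(τ) ^ m` for the Kummer character `κ` of `q ^ (1/n)` then `ψ τ' = m • ψ τ`. -/
theorem IsTameHom.apply_eq_nsmul (h : IsTameHom A n ψ) {x : Qbar} (hx : x ^ n = q) {τ τ' : GQ}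
    (hτ : τ ∈ A.inertiaSubgroupIn ℚ) (hτ' : τ' ∈ A.inertiaSubgroupIn ℚ) {m : ℕ}
    (hm : τ' x / x = (τ x / x) ^ m) : ψ τ' = m • ψ τ := by
  by_contra hne
  obtain ⟨χ, hχ⟩ := exists_addChar (sub_ne_zero.mpr hne)
  apply hχ
  obtain ⟨a, ha⟩ := h.exists_exponent hq hA hn hx χ
  have h1 : χ (ψ τ') = χ (m • ψ τ) := by
    rw [AddChar.map_nsmul_eq_pow, ha τ hτ, ha τ' hτ', hm, ← zpow_natCast, ← zpow_natCast,
      ← zpow_mul, ← zpow_mul, mul_comm]
  have h2 : χ (ψ τ' - m • ψ τ) * χ (m • ψ τ) = χ (m • ψ τ) := by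
    rw [← χ.map_add_eq_mul, sub_add_cancel, h1]
  exact mul_right_cancel₀ (addChar_ne_zero χ _) (by rw [one_mul]; exact h2)

/-- **Frobenius acts on tame inertia by raising to the power `q`.** -/
theorem IsTameHom.apply_conj (h : IsTameHom A n ψ) {φ τ : GQ} (hφ : A.IsFrobeniusAt φ q)
    (hτ : τ ∈ A.inertiaSubgroupIn ℚ) :
    φ * τ * φ⁻¹ ∈ A.inertiaSubgroupIn ℚ ∧ ψ (φ * τ * φ⁻¹) = q • ψ τ := by
  have hvn := valuation_nat_eq_one' hA hn
  have hn0 : n ≠ 0 := by
    rintro rfl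
    rw [Nat.cast_zero, map_zero] at hvn
    exact zero_ne_one hvn
  obtain ⟨hφA, hφx⟩ := (TWP.Place.isFrobeniusAt_iff A φ q).mp hφ
  have hmem : φ * τ * φ⁻¹ ∈ A.inertiaSubgroupIn ℚ := by
    have h1 := TWP.Place.mem_inertia_conj φ hτ
    rwa [hφA] at h1
  refine ⟨hmem, ?_⟩
  obtain ⟨x, hx⟩ := IsAlgClosed.exists_pow_nat_eq (q : Qbar) (Nat.pos_of_ne_zero hn0)
  have hx0 : x ≠ 0 := by
    rintro rfl
    rw [zero_pow hn0] at hx
    exact hq.ne_zero (by exact_mod_cast hx.symm)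
  refine h.apply_eq_nsmul hq hA hn hx hτ hmem ?_
  have hdiv : ∀ σ : GQ, (σ x / x) ^ n = 1 := fun σ => by
    rw [div_pow, ← map_pow, hx, map_natCast, div_self (by exact_mod_cast hq.ne_zero)]
  -- `φ⁻¹ x = ζ x`
  set ζ := φ⁻¹ x / x with hζ
  have hζx : φ⁻¹ x = ζ * x := by rw [hζ, div_mul_cancel₀ _ hx0]
  have hζfix : τ ζ = ζ := fix_root hvn (hdiv φ⁻¹) τ hτ
  set c := τ x / x with hc
  have hcx : τ x = c * x := by rw [hc, div_mul_cancel₀ _ hx0]
  have hφc : φ c = c ^ q := by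
    have hcn : c ^ n = 1 := hdiv τ
    have hcv : A.valuation c = 1 := v_eq_one_of_pow hn0 hcn
    have hc0 : c ≠ 0 := by
      intro h0
      rw [h0, map_zero] at hcv
      exact zero_ne_one hcv
    have h1 : (φ c / c ^ q) ^ n = 1 := by
      rw [div_pow, ← map_pow, hcn, map_one, ← pow_mul, mul_comm, pow_mul, hcn, one_pow, div_one]
    have h2 : A.valuation (φ c / c ^ q - 1) < 1 := by
      have h3 : φ c / c ^ q - 1 = (φ c - c ^ q) / c ^ q := by
        rw [sub_div, div_self (pow_ne_zero _ hc0)]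
      rw [h3, map_div₀, map_pow, hcv, one_pow, div_one]
      have h4 := hφx c (mem_of_valuation_eq_one hcv).1
      rwa [ValuationSubring.mem_nonunits_iff] at h4
    have h3 := eq_one_of_pow_eq_one hvn h1 h2
    rwa [div_eq_one_iff_eq (pow_ne_zero _ hc0)] at h3
  have h1 : (φ * τ * φ⁻¹) x = c ^ q * x := by
    rw [AlgEquiv.mul_apply, AlgEquiv.mul_apply, hζx, _root_.map_mul, hζfix, hcx, ← mul_assoc,
      mul_comm ζ c, mul_assoc, ← hζx, _root_.map_mul, hφc]
    congr 1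
    exact φ.apply_symm_apply x
  rw [h1, mul_div_cancel_right₀ _ hx0]

end main

/-- an inertia element moving `q ^ (1 / r)`. -/
structure IsTame (A : ValuationSubring Qbar) (q r : ℕ) (τ : GQ) : Prop where
  mem : τ ∈ A.inertiaSubgroupIn ℚ
  move : ∀ x : Qbar, x ^ r = q → τ x ≠ x

theorem exists_isTame (hq : q.Prime) (hA : A.LiesOverPrime q) (hr : r.Prime) (hrq : r ≠ q) :
    ∃ τ, IsTame A q r τ := by
  have hcop : r.Coprime q := (Nat.coprime_primes hr hq).mpr hrq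
  have hvr := valuation_nat_eq_one' hA hcop
  have hq0 : (q : Qbar) ≠ 0 := by exact_mod_cast hq.ne_zero
  obtain ⟨x, hx⟩ := IsAlgClosed.exists_pow_nat_eq (q : Qbar) hr.pos
  have hx0 : x ≠ 0 := by
    rintro rfl
    rw [zero_pow hr.ne_zero] at hx
    exact hq0 hx.symm
  obtain ⟨τ, hτ, hτx⟩ : ∃ τ ∈ A.inertiaSubgroupIn ℚ, τ x ≠ x := by
    by_contra! hcon
    obtain ⟨k, u, hu0, hu, hu', -, hxk⟩ := exists_zpow_mul hq hA hx0 hcon
    have huv := valuation_eq_one hu0 hu hu'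
    have h1 : A.valuation (q : Qbar) ^ (k * r) = A.valuation (q : Qbar) ^ (1 : ℤ) := by
      have h2 := congrArg A.valuation hx
      rw [hxk, map_pow, map_mul, huv, mul_one, map_zpow₀, ← zpow_natCast, ← zpow_mul] at h2
      rw [h2, zpow_one]
    have hv0 : A.valuation (q : Qbar) ≠ 0 := by rwa [Ne, map_eq_zero]
    have h3 := zpow_right_injective₀ (zero_lt_iff.mpr hv0) (v_p_lt_one hA).ne h1
    have h4 : (r : ℤ) ∣ 1 := ⟨k, by rw [← h3]; ring⟩
    exact hr.one_lt.ne' (by exact_mod_cast Int.eq_one_of_dvd_one (by positivity) h4)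
  refine ⟨τ, hτ, fun y hy hfix => hτx ?_⟩
  have hy0 : y ≠ 0 := by
    rintro rfl
    rw [zero_pow hr.ne_zero] at hy
    exact hq0 hy.symm
  have h1 : (x / y) ^ r = 1 := by rw [div_pow, hx, hy, div_self hq0]
  have h2 := fix_root hvr h1 τ hτ
  rw [map_div₀, hfix] at h2
  exact (div_left_inj' hy0).mp h2

/-- **Tame inertia is procyclic.** -/
theorem IsTame.exists_exponent {τ₀ : GQ} (h : IsTame A q r τ₀) (hq : q.Prime)
    (hr : r.Prime) (k : ℕ) {x : Qbar} (hx : x ^ r ^ k = q) (τ : GQ) :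
    ∃ m : ℕ, τ x / x = (τ₀ x / x) ^ m := by
  have hq0 : (q : Qbar) ≠ 0 := by exact_mod_cast hq.ne_zero
  have hx0 : x ≠ 0 := by
    rintro rfl
    rw [zero_pow (pow_ne_zero _ hr.ne_zero)] at hx
    exact hq0 hx.symm
  have hdiv : ∀ σ : GQ, (σ x / x) ^ r ^ k = 1 := fun σ => by
    rw [div_pow, ← map_pow, hx, map_natCast, div_self hq0]
  rcases k with _ | k
  · refine ⟨0, ?_⟩
    have := hdiv τ
    rw [pow_zero, pow_one] at this
    rw [this, pow_zero]
  · have h1 : ¬ (τ₀ x / x) ^ r ^ k = 1 := by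
      intro h1
      have h2 : (x ^ r ^ k) ^ r = q := by rw [← pow_mul, ← pow_succ, hx]
      apply h.move _ h2
      rw [map_pow]
      rw [div_pow, div_eq_one_iff_eq (pow_ne_zero _ hx0)] at h1
      exact h1
    have : Fact r.Prime := ⟨hr⟩
    have hord := orderOf_eq_prime_pow h1 (hdiv τ₀)
    have hprim : IsPrimitiveRoot (τ₀ x / x) (r ^ (k + 1)) := by
      rw [← hord]
      exact IsPrimitiveRoot.orderOf _
    have : NeZero (r ^ (k + 1)) := ⟨pow_ne_zero _ hr.ne_zero⟩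
    obtain ⟨m, -, hm⟩ := hprim.eq_pow_of_pow_eq_one (hdiv τ)
    exact ⟨m, hm.symm⟩

/-- **The tame generator.** For `τ` in the inertia group there is `m`, depending only on the
exponent `r ^ k`, such that `ψ τ = m • ψ τ₀` for all `ψ`. -/
theorem IsTame.exists_nsmul {τ₀ : GQ} (h : IsTame A q r τ₀) (hq : q.Prime)
    (hA : A.LiesOverPrime q) (hr : r.Prime) (hrq : r ≠ q) (k : ℕ) {τ : GQ}
    (hτ : τ ∈ A.inertiaSubgroupIn ℚ) : ∃ m : ℕ, ∀ (C : Type) [AddCommGroup C] [Finite C]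
      (ψ : GQ → C), IsTameHom A (r ^ k) ψ → ψ τ = m • ψ τ₀ := by
  have hcop : (r ^ k).Coprime q := ((Nat.coprime_primes hr hq).mpr hrq).pow_left k
  obtain ⟨x, hx⟩ := IsAlgClosed.exists_pow_nat_eq (q : Qbar) (pow_pos hr.pos k)
  obtain ⟨m, hm⟩ := h.exists_exponent hq hr k hx τ
  exact ⟨m, fun C _ _ ψ hψ => hψ.apply_eq_nsmul hq hA hcop hx h.mem hτ hm⟩

end Fermat.Agent.Mazur.Tame
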