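import Mathlib
import Fermat.Agent.Mazur.Tame
import Fermat.Agent.Mazur.Descent
import Fermat.Agent.Tate.Basic

/-!
# Tame inertia and Tate modules (piece Nn of S15)

`J` an abelian group with a smooth action of `G_ℚ`, `r`-divisible with finite `r`-torsion, `Tor` a
saturated submodule of the `r`-adic Tate module such that inertia at `q ≠ r` acts trivially on
`Tor` and on the quotient, and the square of Frobenius acts trivially on the quotient.

* `delta_mem`: `τ ŷ - ŷ ∈ Tor` for `τ` in the inertia group and `ŷ` a compatible system of division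
  points of an element of `J^G`.
* `nside`: the two index bounds used in `Descent.relIndex_nY_le`.
-/

set_option autoImplicit false

open Pointwise IsLocalRing PadicInt
open Fermat.Agent.RT.PStep Fermat.Agent.Tate Fermat.Agent.Mazur.Descent

namespace Fermat.Agent.Mazur.Tame

local notation "Qbar" => AlgebraicClosure ℚ
local notation "GQ" => (AlgebraicClosure ℚ ≃ₐ[ℚ] AlgebraicClosure ℚ)

variable {A : ValuationSubring Qbar} {q r : ℕ} [hr : Fact r.Prime]
  {J : Type} [AddCommGroup J] [DistribMulAction GQ J]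

omit hr [DistribMulAction GQ J] in
theorem finite_torsion_pow (hfin : Finite {x : J // r • x = 0}) (k : ℕ) :
    Finite {x : J // r ^ k • x = 0} := by
  classical
  induction k with
  | zero =>
    have h0 : ∀ x : {x : J // r ^ 0 • x = 0}, x.1 = 0 := fun x => by
      obtain ⟨y, hy⟩ := x
      change y = 0
      rwa [pow_zero, one_smul] at hy
    exact Finite.of_injective (fun _ : {x : J // r ^ 0 • x = 0} => ())
      (fun a b _ => Subtype.ext ((h0 a).trans (h0 b).symm))
  | succ k ih =>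
    let f : {x : J // r ^ (k + 1) • x = 0} → {x : J // r ^ k • x = 0} :=
      fun x => ⟨r • x.1, by rw [← mul_smul, ← pow_succ]; exact x.2⟩
    let c : {x : J // r ^ (k + 1) • x = 0} → {x : J // r ^ (k + 1) • x = 0} := fun x =>
      Function.surjInv (f := Set.rangeFactorization f) Set.rangeFactorization_surjective
        ⟨f x, x, rfl⟩
    have hc : ∀ x, f (c x) = f x := fun x =>
      congrArg Subtype.val (Function.surjInv_eq
        (f := Set.rangeFactorization f) Set.rangeFactorization_surjective ⟨f x, x, rfl⟩)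
    have hcc : ∀ x x', f x = f x' → c x = c x' := fun x x' h => by
      have h1 : (⟨f x, x, rfl⟩ : Set.range f) = ⟨f x', x', rfl⟩ := Subtype.ext h
      exact congrArg (Function.surjInv (f := Set.rangeFactorization f)
        Set.rangeFactorization_surjective) h1
    refine Finite.of_injective (β := {x : J // r ^ k • x = 0} × {x : J // r • x = 0})
      (fun x => (f x, ⟨x.1 - (c x).1, ?_⟩)) ?_
    · have e1 : r • (c x).1 = r • x.1 := congrArg Subtype.val (hc x)
      rw [smul_sub, e1, sub_self]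
    · intro x x' h
      have h1 : f x = f x' := congrArg Prod.fst h
      have h2 : x.1 - (c x).1 = x'.1 - (c x').1 := congrArg (fun z => z.2.1) h
      rw [hcc x x' h1] at h2
      exact Subtype.ext (sub_left_injective h2)

variable (r J) in
/-- The action on the Tate module. -/
noncomputable def tact : GQ →* Module.End ℤ_[r] (TateModule r J) :=
  (mapEnd r J).comp (DistribMulAction.toAddMonoidEnd GQ J)

@[simp] theorem ev_tact (σ : GQ) (t : TateModule r J) (n : ℕ) :
    ev n (tact r J σ t) = σ • ev n t := rfl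

/-- `σ ŷ - ŷ`. -/
noncomputable def delta (y : ℕ → J) (hy : ∀ n, r • y (n + 1) = y n) (hy0 : ∀ σ : GQ, σ • y 0 = y 0)
    (σ : GQ) : TateModule r J :=
  mkT (fun n => σ • y n - y n) (by rw [hy0, sub_self]) fun n => by
    rw [smul_sub, smul_comm, hy]

variable {y : ℕ → J} (hy : ∀ n, r • y (n + 1) = y n) (hy0 : ∀ σ : GQ, σ • y 0 = y 0)

omit hr in
@[simp] theorem ev_delta (σ : GQ) (n : ℕ) : ev n (delta y hy hy0 σ) = σ • y n - y n := rfl

theorem delta_mul (σ τ : GQ) : delta y hy hy0 (σ * τ) =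
    tact r J σ (delta y hy hy0 τ) + delta y hy hy0 σ := ext fun n => by
  rw [map_add, ev_tact, ev_delta, ev_delta, ev_delta, smul_sub, mul_smul]
  abel

/-- The hypotheses on the toric part of the Tate module. -/
structure IsTor (A : ValuationSubring Qbar) (φ : GQ) (Tor : Submodule ℤ_[r] (TateModule r J)) :
    Prop where
  fix : ∀ τ ∈ A.inertiaSubgroupIn ℚ, ∀ t ∈ Tor, tact r J τ t = t
  quo : ∀ τ ∈ A.inertiaSubgroupIn ℚ, ∀ t, tact r J τ t - t ∈ Tor
  stable : ∀ t ∈ Tor, tact r J φ t ∈ Tor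
  frob : ∀ t, tact r J φ (tact r J φ t) - t ∈ Tor
  sat : ∀ n : ℕ, n ≠ 0 → ∀ t, n • t ∈ Tor → t ∈ Tor

section

variable {φ : GQ} {Tor : Submodule ℤ_[r] (TateModule r J)}

omit [DistribMulAction GQ J] in
theorem mem_of_forall_pow (hfin : Finite {x : J // r • x = 0}) {t : TateModule r J}
    (h : ∀ k : ℕ, ∃ z, t - (r : ℤ_[r]) ^ k • z ∈ Tor) : t ∈ Tor := by
  have := finite_of_finite hfin
  rw [← Submodule.Quotient.mk_eq_zero]
  have h1 := Ideal.iInf_pow_smul_eq_bot_of_isLocalRing (M := TateModule r J ⧸ Tor)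
    (maximalIdeal ℤ_[r]) (Ideal.IsPrime.ne_top inferInstance)
  rw [← Submodule.mem_bot ℤ_[r], ← h1, Submodule.mem_iInf]
  intro k
  obtain ⟨z, hz⟩ := h k
  have h2 : (Submodule.Quotient.mk t : TateModule r J ⧸ Tor) =
      (r : ℤ_[r]) ^ k • Submodule.Quotient.mk z := by
    rw [← Submodule.Quotient.mk_smul, Submodule.Quotient.eq]
    exact hz
  rw [h2]
  refine Submodule.smul_mem_smul (Ideal.pow_mem_pow ?_ k) trivial
  rw [PadicInt.maximalIdeal_eq_span_p]
  exact Ideal.mem_span_singleton_self _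

/-- **Weights.** -/
theorem delta_mem (hq : q.Prime) (hA : A.LiesOverPrime q) (hrq : r ≠ q)
    (hφ : A.IsFrobeniusAt φ q) (hfin : Finite {x : J // r • x = 0})
    (hsm : ∀ x : J, ∃ E : IntermediateField ℚ Qbar, FiniteDimensional ℚ E ∧
      ∀ σ : GQ, (∀ z ∈ E, σ z = z) → σ • x = x)
    (hT : IsTor A φ Tor) {τ : GQ} (hτ : τ ∈ A.inertiaSubgroupIn ℚ) :
    delta y hy hy0 τ ∈ Tor := by
  have hTfin := finite_of_finite hfin
  set δ := delta y hy hy0 τ with hδ
  -- first relation
  have h1 : tact r J φ δ - q • δ ∈ Tor := by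
    refine mem_of_forall_pow hfin fun k => ?_
    let S : Submodule ℤ_[r] (TateModule r J) := Tor ⊔ ((r : ℤ_[r]) ^ k) • ⊤
    let C := TateModule r J ⧸ S
    have hS : ∀ t, t ∈ S ↔ ∃ z, t - (r : ℤ_[r]) ^ k • z ∈ Tor := by
      intro t
      constructor
      · intro ht
        obtain ⟨a, ha, b, hb, rfl⟩ := Submodule.mem_sup.mp ht
        obtain ⟨z, -, rfl⟩ := (Submodule.mem_smul_pointwise_iff_exists _ _ _).mp hb
        exact ⟨z, by rwa [add_sub_cancel_right]⟩
      · rintro ⟨z, hz⟩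
        have : t = (t - (r : ℤ_[r]) ^ k • z) + (r : ℤ_[r]) ^ k • z := by abel
        rw [this]
        exact Submodule.add_mem_sup hz (Submodule.smul_mem_pointwise_smul _ _ _ trivial)
    have hCfin : Finite C := by
      -- `T / r ^ k` is finite
      have hle : (maximalIdeal ℤ_[r] ^ k) • (⊤ : Submodule ℤ_[r] (TateModule r J)) ≤ S := by
        rw [PadicInt.maximalIdeal_eq_span_p, Ideal.span_singleton_pow,
          Submodule.ideal_span_singleton_smul]
        exact le_sup_right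
      have hQ : Finite (TateModule r J ⧸
          (maximalIdeal ℤ_[r] ^ k) • (⊤ : Submodule ℤ_[r] (TateModule r J))) := by
        have hk : Finite {x : J // r ^ k • x = 0} := finite_torsion_pow hfin k
        let g : TateModule r J →+ J := ev k
        let g' : (TateModule r J ⧸
          (maximalIdeal ℤ_[r] ^ k) • (⊤ : Submodule ℤ_[r] (TateModule r J))) →+ J :=
          QuotientAddGroup.lift _ g fun x hx => (mem_maximalIdeal_pow_smul_top_iff x k).mp hx
        refine Finite.of_injective (β := {x : J // r ^ k • x = 0}) (fun c => ⟨g' c, ?_⟩) ?_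
        · obtain ⟨x, rfl⟩ := Submodule.Quotient.mk_surjective _ c
          exact pow_smul_ev x k
        · intro a b hab
          have h2 : g' (a - b) = 0 := by
            rw [map_sub, sub_eq_zero]
            exact congrArg Subtype.val hab
          rw [← sub_eq_zero]
          obtain ⟨x, hx⟩ := Submodule.Quotient.mk_surjective _ (a - b)
          rw [← hx] at h2 ⊢
          exact (Submodule.Quotient.mk_eq_zero _).mpr
            ((mem_maximalIdeal_pow_smul_top_iff x k).mpr h2)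
      exact Finite.of_surjective (Submodule.factor hle) (Submodule.factor_surjective hle)
    let ψ : GQ → C := fun σ => Submodule.Quotient.mk (delta y hy hy0 σ)
    have hψ : IsTameHom A (r ^ k) ψ := by
      refine ⟨fun σ hσ ρ hρ => ?_, ?_, fun σ hσ => ?_⟩
      · show (Submodule.Quotient.mk (delta y hy hy0 (σ * ρ)) : C) =
          Submodule.Quotient.mk (delta y hy hy0 σ) + Submodule.Quotient.mk (delta y hy hy0 ρ)
        rw [delta_mul, ← Submodule.Quotient.mk_add, Submodule.Quotient.eq]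
        have e1 : tact r J σ (delta y hy hy0 ρ) + delta y hy hy0 σ -
            (delta y hy hy0 σ + delta y hy hy0 ρ) =
            tact r J σ (delta y hy hy0 ρ) - delta y hy hy0 ρ := by abel
        rw [e1]
        exact le_sup_left (a := Tor) (hT.quo σ hσ _)
      · obtain ⟨E, hE, hE'⟩ := hsm (y k)
        refine ⟨E, hE, fun σ _ hσE => ?_⟩
        refine (Submodule.Quotient.mk_eq_zero _).mpr ?_
        have e1 : ev k (delta y hy hy0 σ) = 0 := by
          rw [ev_delta, hE' σ hσE, sub_self]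
        obtain ⟨z, hz⟩ := (ev_eq_zero_iff _ _).mp e1
        exact (hS _).mpr ⟨z, by rw [hz, sub_self]; exact Tor.zero_mem⟩
      · show r ^ k • (Submodule.Quotient.mk (delta y hy hy0 σ) : C) = 0
        rw [← Submodule.Quotient.mk_smul, Submodule.Quotient.mk_eq_zero]
        refine (hS _).mpr ⟨delta y hy hy0 σ, ?_⟩
        have e1 : (r : ℤ_[r]) ^ k • delta y hy hy0 σ = r ^ k • delta y hy hy0 σ := by
          rw [← Nat.cast_pow, Nat.cast_smul_eq_nsmul]
        rw [e1, sub_self]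
        exact Tor.zero_mem
    have hcop : (r ^ k).Coprime q := ((Nat.coprime_primes hr.out hq).mpr hrq).pow_left k
    obtain ⟨-, h2⟩ := hψ.apply_conj hq hA hcop hφ hτ
    have h3 : delta y hy hy0 (φ * τ * φ⁻¹) - q • δ ∈ S := by
      rw [← Submodule.Quotient.eq]
      rw [Submodule.Quotient.mk_smul]
      exact h2
    have h4 : delta y hy hy0 (φ * τ * φ⁻¹) - tact r J φ δ ∈ Tor := by
      have e1 : delta y hy hy0 (φ * τ * φ⁻¹) - tact r J φ δ =
          tact r J φ (tact r J τ (delta y hy hy0 φ⁻¹) - delta y hy hy0 φ⁻¹) := by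
        refine ext fun n => ?_
        rw [hδ]
        simp only [map_sub, ev_tact, ev_delta, smul_sub, mul_smul, smul_inv_smul]
        abel
      rw [e1]
      exact hT.stable _ (hT.quo τ hτ _)
    have h5 : tact r J φ δ - q • δ ∈ S := by
      have e1 : tact r J φ δ - q • δ = (delta y hy hy0 (φ * τ * φ⁻¹) - q • δ) -
          (delta y hy hy0 (φ * τ * φ⁻¹) - tact r J φ δ) := by abel
      rw [e1]
      exact S.sub_mem h3 (le_sup_left (a := Tor) h4)
    exact (hS _).mp h5
  -- conclusion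
  have h2 : tact r J φ (tact r J φ δ) - q • tact r J φ δ ∈ Tor := by
    have := hT.stable _ h1
    rwa [map_sub, map_nsmul] at this
  have h3 := hT.frob δ
  have hq1 : 1 ≤ q ^ 2 := Nat.one_le_pow _ _ hq.pos
  have h4 : (q ^ 2 - 1) • δ ∈ Tor := by
    have e1 : (q ^ 2 - 1) • δ = q ^ 2 • δ - δ := by
      rw [eq_sub_iff_add_eq]
      nth_rewrite 2 [← one_smul ℕ δ]
      rw [← add_smul, Nat.sub_add_cancel hq1]
    have e2 : q ^ 2 • δ - δ = (tact r J φ (tact r J φ δ) - δ) -
        (tact r J φ (tact r J φ δ) - q • tact r J φ δ) - q • (tact r J φ δ - q • δ) := by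
      rw [smul_sub, ← mul_smul, ← sq]
      abel
    rw [e1, e2]
    exact Tor.sub_mem (Tor.sub_mem h3 h2) (Tor.smul_of_tower_mem q h1)
  refine hT.sat (q ^ 2 - 1) ?_ δ h4
  have : 2 ^ 2 ≤ q ^ 2 := Nat.pow_le_pow_left hq.two_le 2
  omega

/-- a compatible sequence of division points through a given element -/
theorem exists_seq {J : Type} [AddCommGroup J] {r : ℕ} (hdiv : ∀ x : J, ∃ z : J, r • z = x)
    (m : ℕ) (x : J) : ∃ y : ℕ → J, (∀ n, r • y (n + 1) = y n) ∧ y m = x ∧ y 0 = r ^ m • x := by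
  choose f hf using hdiv
  let z : ℕ → J := fun k => Nat.rec x (fun _ u => f u) k
  have hz : ∀ k, r • z (k + 1) = z k := fun k => hf (z k)
  refine ⟨fun n => r ^ (m - n) • z (n - m), fun n => ?_, ?_, ?_⟩
  · show r • r ^ (m - (n + 1)) • z (n + 1 - m) = r ^ (m - n) • z (n - m)
    rcases Nat.lt_or_ge n m with h | h
    · have e1 : n + 1 - m = 0 := by omega
      have e2 : n - m = 0 := by omega
      have e3 : m - n = (m - (n + 1)) + 1 := by omega
      rw [e1, e2, e3, pow_succ', mul_smul]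
    · have e1 : m - (n + 1) = 0 := by omega
      have e2 : m - n = 0 := by omega
      have e3 : n + 1 - m = (n - m) + 1 := by omega
      rw [e1, e2, e3, pow_zero, one_smul, one_smul, hz]
  · show r ^ (m - m) • z (m - m) = x
    rw [Nat.sub_self, pow_zero, one_smul]
    rfl
  · show r ^ (m - 0) • z (0 - m) = r ^ m • x
    rw [Nat.sub_zero, Nat.zero_sub]
    rfl

/-- the toric part of `V` -/
noncomputable def torPart (Tor : Submodule ℤ_[r] (TateModule r J)) (m : ℕ) (V : AddSubgroup J) :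
    AddSubgroup J := V ⊓ Tor.toAddSubgroup.map (ev m)

/-- `τ y - y` is in the toric part. -/
theorem sub_mem_torPart (hq : q.Prime) (hA : A.LiesOverPrime q) (hrq : r ≠ q)
    (hφ : A.IsFrobeniusAt φ q) (hfin : Finite {x : J // r • x = 0})
    (hsm : ∀ x : J, ∃ E : IntermediateField ℚ Qbar, FiniteDimensional ℚ E ∧
      ∀ σ : GQ, (∀ z ∈ E, σ z = z) → σ • x = x)
    (hdiv : ∀ x : J, ∃ z : J, r • z = x)
    (hT : IsTor A φ Tor) {m : ℕ} {V : AddSubgroup J} (hV : ∀ v ∈ V, r ^ m • v = 0)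
    {x : J} (hx : x ∈ Y GQ V) {τ : GQ} (hτ : τ ∈ A.inertiaSubgroupIn ℚ) :
    τ • x - x ∈ torPart Tor m V := by
  refine ⟨hx τ, ?_⟩
  obtain ⟨y, hy, hym, hy0⟩ := exists_seq hdiv m x
  have hy0' : ∀ σ : GQ, σ • y 0 = y 0 := fun σ => by
    rw [hy0, smul_comm, ← sub_eq_zero, ← smul_sub, hV _ (hx σ)]
  refine ⟨delta y hy hy0' τ, delta_mem hy hy0' hq hA hrq hφ hfin hsm hT hτ, ?_⟩
  rw [ev_delta, hym]

/-- **The index bounds at `q`.** -/
theorem nside (hq : q.Prime) (hA : A.LiesOverPrime q) (hrq : r ≠ q)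
    (hφ : A.IsFrobeniusAt φ q) (hfin : Finite {x : J // r • x = 0})
    (hsm : ∀ x : J, ∃ E : IntermediateField ℚ Qbar, FiniteDimensional ℚ E ∧
      ∀ σ : GQ, (∀ z ∈ E, σ z = z) → σ • x = x)
    (hdiv : ∀ x : J, ∃ z : J, r • z = x)
    (hT : IsTor A φ Tor) {m : ℕ} {V : AddSubgroup J} (hV : ∀ v ∈ V, r ^ m • v = 0)
    (hVG : ∀ σ : GQ, ∀ v ∈ V, σ • v ∈ V) :
    ∃ w : ℕ, Nat.card V ≤ Nat.card (VI (A.inertiaSubgroupIn ℚ) V) * w ∧
      (Y' (A.inertiaSubgroupIn ℚ) V).relIndex (Y GQ V) ≠ 0 ∧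
      (Y' (A.inertiaSubgroupIn ℚ) V).relIndex (Y GQ V) * w ≤ Nat.card (torPart Tor m V) := by
  classical
  have hVfin : Finite V := by
    have := finite_torsion_pow (r := r) hfin m
    exact Finite.of_injective (fun v : V => (⟨v.1, hV v.1 v.2⟩ : {x : J // r ^ m • x = 0}))
      fun a b h => Subtype.ext (congrArg (fun z => z.1) h)
  set TV := torPart Tor m V with hTV
  have hTVV : TV ≤ V := inf_le_left
  have hTVfin : Finite TV := Finite.of_injective _ (AddSubgroup.inclusion_injective hTVV)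
  have hVY : V ≤ Y GQ V := fun v hv σ => V.sub_mem (hVG σ v hv) hv
  have hsub : ∀ x ∈ Y GQ V, ∀ τ ∈ A.inertiaSubgroupIn ℚ, τ • x - x ∈ TV := fun x hx τ hτ =>
    sub_mem_torPart hq hA hrq hφ hfin hsm hdiv hT hV hx hτ
  have hfixTV : ∀ t ∈ TV, ∀ τ ∈ A.inertiaSubgroupIn ℚ, τ • t = t := by
    rintro _ ⟨-, t, ht, rfl⟩ τ hτ
    rw [← ev_tact, hT.fix τ hτ t ht]
  -- the tame homomorphisms
  let ψ : J → GQ → TV := fun x σ => if h : σ • x - x ∈ TV then ⟨σ • x - x, h⟩ else 0
  have hψ : ∀ x ∈ Y GQ V, ∀ σ ∈ A.inertiaSubgroupIn ℚ, ((ψ x σ : TV) : J) = σ • x - x := by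
    intro x hx σ hσ
    show ((if h : σ • x - x ∈ TV then (⟨σ • x - x, h⟩ : TV) else 0 : TV) : J) = _
    rw [dif_pos (hsub x hx σ hσ)]
  have hψt : ∀ x ∈ Y GQ V, IsTameHom A (r ^ m) (ψ x) := by
    intro x hx
    refine ⟨fun σ hσ ρ hρ => Subtype.ext ?_, ?_, fun σ hσ => Subtype.ext ?_⟩
    · rw [AddSubgroup.coe_add, hψ x hx _ (mul_mem hσ hρ), hψ x hx σ hσ, hψ x hx ρ hρ]
      have e1 := hfixTV _ (hsub x hx ρ hρ) σ hσ
      rw [smul_sub, ← mul_smul] at e1
      have e2 : (σ * ρ) • x - x = ((σ * ρ) • x - σ • x) + (σ • x - x) := by abel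
      rw [e2, e1]
      abel
    · obtain ⟨E, hE, hE'⟩ := hsm x
      refine ⟨E, hE, fun σ hσ hσE => Subtype.ext ?_⟩
      rw [hψ x hx σ hσ, hE' σ hσE, sub_self, AddSubgroup.coe_zero]
    · rw [AddSubgroup.coe_nsmul, AddSubgroup.coe_zero, hψ x hx σ hσ]
      exact hV _ (hx σ)
  obtain ⟨τ₀, h0⟩ := exists_isTame hq hA hr.out hrq
  have hkey : ∀ x ∈ Y GQ V, τ₀ • x = x → ∀ τ ∈ A.inertiaSubgroupIn ℚ, τ • x = x := by
    intro x hx hx0 τ hτ
    obtain ⟨n, hn⟩ := h0.exists_nsmul hq hA hr.out hrq m hτ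
    have h1 := congrArg (Subtype.val) (hn TV (ψ x) (hψt x hx))
    rw [hψ x hx τ hτ, AddSubgroup.coe_nsmul, hψ x hx τ₀ h0.mem, hx0, sub_self, smul_zero,
      sub_eq_zero] at h1
    exact h1
  let f : J →+ J := (DistribSMul.toAddMonoidHom J τ₀) - AddMonoidHom.id J
  have hf : ∀ x, f x = τ₀ • x - x := fun x => rfl
  set W : AddSubgroup J := V.map f with hW
  refine ⟨Nat.card W, ?_, ?_⟩
  · -- `V / V^I ≃ W`
    have h1 : (f.ker ⊓ V).relIndex V = Nat.card W := by
      rw [AddSubgroup.inf_relIndex_right, hW]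
      have := AddSubgroup.relIndex_comap (⊥ : AddSubgroup J) f V
      rw [AddSubgroup.relIndex_bot_left] at this
      exact this
    have h2 := card_mul_relIndex (A := f.ker ⊓ V) (B := V) inf_le_right
    rw [h1] at h2
    rw [← h2]
    refine Nat.mul_le_mul_right _ ?_
    have hVIfin : Finite (VI (A.inertiaSubgroupIn ℚ) V) :=
      Finite.of_injective (fun x : VI (A.inertiaSubgroupIn ℚ) V => (⟨x.1, x.2.1⟩ : V))
        fun x y h => Subtype.ext (congrArg (fun z : V => (z : J)) h)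
    refine Nat.card_le_card_of_injective
      (fun x : ↥(f.ker ⊓ V) => (⟨x.1, x.2.2, hkey _ (hVY x.2.2) ?_⟩ :
        VI (A.inertiaSubgroupIn ℚ) V)) ?_
    · have h3 : f x.1 = 0 := x.2.1
      rw [hf, sub_eq_zero] at h3
      exact h3
    · intro a b h
      exact Subtype.ext (congrArg (fun z : VI (A.inertiaSubgroupIn ℚ) V => (z : J)) h)
  · have h1 : Y' (A.inertiaSubgroupIn ℚ) V = W.comap f ⊓ Y GQ V := by
      ext x
      rw [mem_Y']
      constructor
      · rintro ⟨hx, v, hv, hfix⟩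
        refine ⟨⟨-v, V.neg_mem hv, ?_⟩, hx⟩
        have h2 := hfix τ₀ h0.mem
        rw [smul_add] at h2
        rw [map_neg, hf, hf, neg_sub, sub_eq_sub_iff_add_eq_add, add_comm v, h2.symm, add_comm]
      · rintro ⟨⟨v, hv, hvx⟩, hx⟩
        refine ⟨hx, -v, V.neg_mem hv, hkey _ ((Y GQ V).add_mem hx (hVY (V.neg_mem hv))) ?_⟩
        rw [hf, hf, sub_eq_sub_iff_add_eq_add] at hvx
        rw [smul_add, smul_neg, ← sub_eq_add_neg, ← sub_eq_add_neg, sub_eq_sub_iff_add_eq_add,
          ← hvx, add_comm]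
    have h2 : (Y' (A.inertiaSubgroupIn ℚ) V).relIndex (Y GQ V) = W.relIndex ((Y GQ V).map f) := by
      rw [h1, AddSubgroup.inf_relIndex_right, AddSubgroup.relIndex_comap]
    have h3 : (Y GQ V).map f ≤ TV := by
      rintro _ ⟨x, hx, rfl⟩
      exact hsub x hx τ₀ h0.mem
    have h4 : W ≤ (Y GQ V).map f := AddSubgroup.map_mono hVY
    have h5 := card_mul_relIndex h4
    have hfin2 : Finite ((Y GQ V).map f) :=
      Finite.of_injective _ (AddSubgroup.inclusion_injective h3)
    rw [h2]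
    refine ⟨fun h => ?_, ?_⟩
    · rw [h, mul_zero] at h5
      exact Nat.card_pos.ne' h5.symm
    · rw [mul_comm, h5]
      exact Nat.card_le_card_of_injective _ (AddSubgroup.inclusion_injective h3)

omit hr [DistribMulAction GQ J] in
/-- **Isotropy of the toric part.** -/
theorem isotropy {T R : Type*} [AddCommGroup T] [AddCommGroup R] (hR : ∀ n : ℤ, n ≠ 0 → ∀ x : R,
    n • x = 0 → x = 0) (E : T →+ T →+ R) (φ : T → T) {N : ℕ} (hN : 2 ≤ N)
    (hφ : ∀ x y, E (φ x) (φ y) = N • E x y) {x y : T} (hx : φ (φ x) = N ^ 2 • x)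
    (hy : φ (φ y) = N ^ 2 • y) : E x y = 0 := by
  have h1 : E (φ (φ x)) (φ (φ y)) = N ^ 2 • E x y := by
    rw [hφ, hφ, ← mul_smul, sq]
  rw [hx, hy, map_nsmul, map_nsmul, AddMonoidHom.nsmul_apply, ← mul_smul] at h1
  refine hR ((N : ℤ) ^ 2 * (N : ℤ) ^ 2 - (N : ℤ) ^ 2) ?_ _ ?_
  · have h2 : (2 : ℤ) ≤ N := by exact_mod_cast hN
    have h3 : (4 : ℤ) ≤ (N : ℤ) ^ 2 := by nlinarith
    nlinarith
  · rw [sub_smul, sub_eq_zero]
    have e1 : ((N : ℤ) ^ 2 * (N : ℤ) ^ 2) • E x y = (N ^ 2 * N ^ 2) • E x y := by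
      rw [← natCast_zsmul]; push_cast; rfl
    have e2 : ((N : ℤ) ^ 2) • E x y = (N ^ 2) • E x y := by
      rw [← natCast_zsmul]; push_cast; rfl
    rw [e1, e2, h1]

end

end Fermat.Agent.Mazur.Tame
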