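import Mathlib
import Fermat.Prelude.Def_FLTPrelim_Ramification
import Fermat.Agent.QbarInst
import Fermat.Agent.Lib.Cyclotomic
import Fermat.Agent.DR.InertiaValue
import Fermat.Agent.LOC.Minkowski
import Fermat.Agent.TWP.Place

/-!
# Kummer theory for subgroups of `G_ℚ`

* `exists_kummer`: Hilbert 90 for locally constant cocycles `H → μ_n`, `H ≤ G_ℚ` any subgroup.
* `fixed_of_pow_fixed`: an `n`-th root of a unit fixed by inertia at `q ∤ n` is fixed by inertia.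
* `kap`: the tame character `τ ↦ τ(q^{1/n}) / q^{1/n}`; `eq_kap_zpow`: every character of inertia
  with values in `μ_n` is a power of it.
* `conj_eq`, `eq_zero_of_generator`: homomorphisms from inertia to finite abelian groups.
-/

set_option autoImplicit false
set_option linter.unusedSectionVars false

open IntermediateField Pointwise

noncomputable section

namespace Fermat.Agent.Mazur.Kummer

local notation "Qbar" => AlgebraicClosure ℚ
local notation "Γℚ" => (AlgebraicClosure ℚ ≃ₐ[ℚ] AlgebraicClosure ℚ)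

open Fermat.Agent.Cyclotomic Fermat.Agent.QbarInst

/-- Hilbert 90 for a subgroup of a finite group of automorphisms. -/
theorem exists_resolvent {k M : Type*} [Field k] [Field M] [Algebra k M] [FiniteDimensional k M]
    (H : Subgroup (M ≃ₐ[k] M)) (c : (M ≃ₐ[k] M) → M) (hc0 : ∀ g ∈ H, c g ≠ 0)
    (hc : ∀ g ∈ H, ∀ h ∈ H, c (g * h) = c g * g (c h)) :
    ∃ a : M, a ≠ 0 ∧ ∀ h ∈ H, h a = c h * a := by
  classical
  have : Fintype H := Fintype.ofFinite H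
  let φ : H → (M →* M) := fun g => ((g : M ≃ₐ[k] M) : M →* M)
  have hφ : Function.Injective φ := by
    intro g h hgh
    apply Subtype.ext
    ext x
    exact DFunLike.congr_fun hgh x
  have hli : LinearIndependent M (fun g : H => (φ g : M → M)) :=
    (linearIndependent_monoidHom M M).comp φ hφ
  have hne : ∑ g : H, (c g) • (φ g : M → M) ≠ 0 := by
    intro h0
    have h1 := Fintype.linearIndependent_iff.mp hli (fun g => (c g)) h0 1
    exact (hc0 _ (1 : H).2) h1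
  obtain ⟨x, hx⟩ := Function.ne_iff.mp hne
  have hx' : ∑ g : H, (c g) * (g : M ≃ₐ[k] M) x ≠ 0 := by
    intro h
    apply hx
    rw [Finset.sum_apply]
    exact h
  set b := ∑ g : H, (c g) * (g : M ≃ₐ[k] M) x with hb
  have key : ∀ h ∈ H, c h * h b = b := by
    intro h hh
    rw [hb, map_sum, Finset.mul_sum]
    rw [← Equiv.sum_comp (Equiv.mulLeft (⟨h, hh⟩ : H))
      (fun g : H => ((c g) * (g : M ≃ₐ[k] M) x))]
    refine Finset.sum_congr rfl fun g _ => ?_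
    have h1 : (((Equiv.mulLeft (⟨h, hh⟩ : H)) g : H) : M ≃ₐ[k] M) = h * (g : M ≃ₐ[k] M) := rfl
    rw [h1, map_mul, hc h hh g g.2, AlgEquiv.mul_apply, mul_assoc]
  refine ⟨b⁻¹, inv_ne_zero hx', fun h hh => ?_⟩
  have h1 := key h hh
  have h2 : h b ≠ 0 := by
    rw [Ne, EmbeddingLike.map_eq_zero_iff]
    exact hx'
  rw [map_inv₀]
  field_simp
  rw [mul_comm]
  exact h1.symm

/-- A finite Galois extension containing a given finite extension and a given element. -/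
theorem exists_galois (L : IntermediateField ℚ Qbar) [FiniteDimensional ℚ L] (z : Qbar) :
    ∃ E : IntermediateField ℚ Qbar, FiniteDimensional ℚ E ∧ IsGalois ℚ E ∧ L ≤ E ∧ z ∈ E := by
  have hz : IsIntegral ℚ z := Algebra.IsIntegral.isIntegral z
  let M : IntermediateField ℚ Qbar := L ⊔ IntermediateField.adjoin ℚ {z}
  have h1 : FiniteDimensional ℚ (IntermediateField.adjoin ℚ {z}) :=
    IntermediateField.adjoin.finiteDimensional hz
  have h2 : FiniteDimensional ℚ M := IntermediateField.finiteDimensional_sup _ _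
  have hn : Normal ℚ (IntermediateField.normalClosure ℚ M Qbar) :=
    normalClosure.normal ℚ M Qbar
  refine ⟨IntermediateField.normalClosure ℚ M Qbar, inferInstance, ⟨⟩, ?_, ?_⟩
  · exact le_sup_left.trans (IntermediateField.le_normalClosure M)
  · exact IntermediateField.le_normalClosure M
      (le_sup_right (a := L) (IntermediateField.mem_adjoin_simple_self ℚ z))

/-- **Hilbert 90 / Kummer theory** for a subgroup of `G_ℚ`. -/
theorem exists_kummer (n : ℕ) [NeZero n] (H : Subgroup Γℚ) (ψ : Γℚ → Qbar)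
    (hψn : ∀ σ ∈ H, ψ σ ^ n = 1) (hψ : ∀ σ ∈ H, ∀ τ ∈ H, ψ (σ * τ) = ψ σ * σ (ψ τ))
    (hloc : ∃ L : IntermediateField ℚ Qbar, FiniteDimensional ℚ L ∧
      ∀ σ ∈ H, (∀ x ∈ L, σ x = x) → ψ σ = 1) :
    ∃ θ : Qbar, θ ≠ 0 ∧ ∀ σ ∈ H, σ θ = ψ σ * θ := by
  classical
  obtain ⟨L, hLfin, hL⟩ := hloc
  obtain ⟨ζ, hζ⟩ := exists_primitiveRoot n
  obtain ⟨E, hEfin, hEgal, hLE, hζE⟩ := exists_galois L ζ
  have hsurj := AlgEquiv.restrictNormalHom_surjective (F := ℚ) (K₁ := E) Qbar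
  set res : Γℚ →* (E ≃ₐ[ℚ] E) := AlgEquiv.restrictNormalHom E with hres
  have hres_apply : ∀ (σ : Γℚ) (z : E), ((res σ z : E) : Qbar) = σ z := fun σ z =>
    AlgEquiv.restrictNormal_commutes σ E z
  have hmemE : ∀ z : Qbar, z ^ n = 1 → z ∈ E := by
    intro z hz
    obtain ⟨i, -, rfl⟩ := hζ.eq_pow_of_pow_eq_one hz
    exact pow_mem hζE i
  -- `ψ` factors through `res`
  have hfac : ∀ σ ∈ H, ∀ τ ∈ H, res σ = res τ → ψ σ = ψ τ := by
    intro σ hσ τ hτ h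
    have h1 : σ⁻¹ * τ ∈ H := H.mul_mem (H.inv_mem hσ) hτ
    have h2 : ψ (σ⁻¹ * τ) = 1 := by
      refine hL _ h1 fun x hx => ?_
      have h3 : res (σ⁻¹ * τ) = 1 := by rw [map_mul, map_inv, h, inv_mul_cancel]
      have h4 := hres_apply (σ⁻¹ * τ) ⟨x, hLE hx⟩
      rw [h3] at h4
      exact h4.symm
    have h3 := hψ σ hσ _ h1
    rw [mul_inv_cancel_left, h2, map_one, mul_one] at h3
    exact h3.symm
  let c : (E ≃ₐ[ℚ] E) → E := fun g =>
    if h : ∃ σ ∈ H, res σ = g then ⟨ψ h.choose, hmemE _ (hψn _ h.choose_spec.1)⟩ else 0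
  have hc : ∀ σ ∈ H, ((c (res σ) : E) : Qbar) = ψ σ := by
    intro σ hσ
    have h : ∃ τ ∈ H, res τ = res σ := ⟨σ, hσ, rfl⟩
    have h1 : c (res σ) = ⟨ψ h.choose, hmemE _ (hψn _ h.choose_spec.1)⟩ := dif_pos h
    rw [h1]
    exact hfac _ h.choose_spec.1 _ hσ h.choose_spec.2
  obtain ⟨a, ha, ha'⟩ := exists_resolvent (H.map res) c (by
      rintro _ ⟨σ, hσ, rfl⟩ h0
      have h1 := hc σ hσ
      rw [h0] at h1
      have h2 := hψn σ hσ
      rw [← h1, ZeroMemClass.coe_zero, zero_pow (NeZero.ne n)] at h2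
      exact zero_ne_one h2) (by
      rintro _ ⟨σ, hσ, rfl⟩ _ ⟨τ, hτ, rfl⟩
      apply Subtype.ext
      rw [← map_mul, hc _ (H.mul_mem hσ hτ), hψ σ hσ τ hτ, MulMemClass.coe_mul, hc σ hσ,
        hres_apply, hc τ hτ])
  refine ⟨a, fun h => ha (Subtype.ext h), fun σ hσ => ?_⟩
  have h1 := ha' (res σ) ⟨σ, hσ, rfl⟩
  rw [← hres_apply, h1, MulMemClass.coe_mul, hc σ hσ]

section Place

variable (A : ValuationSubring (AlgebraicClosure ℚ))

/-- An `n`-th root of an inertia-invariant unit is inertia invariant, if `n` is a unit. -/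
theorem fixed_of_pow_fixed {n : ℕ} [NeZero n] (hn : (n : Qbar) ∉ A.nonunits) {w : Qbar}
    (hw : A.valuation w = 1) {σ : Γℚ} (hσ : σ ∈ A.inertiaSubgroupIn ℚ)
    (hfix : σ (w ^ n) = w ^ n) : σ w = w := by
  have hw0 : w ≠ 0 := by
    rintro rfl
    rw [map_zero] at hw
    exact zero_ne_one hw
  have hwA : w ∈ A := (A.valuation_le_one_iff w).mp hw.le
  have hwA' : w⁻¹ ∈ A := (A.valuation_le_one_iff _).mp (by rw [map_inv₀, hw, inv_one])
  have h1 : σ w * w⁻¹ = 1 := by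
    refine eq_of_residue_eq A (n := n) hn ?_ (one_pow n) ?_
    · rw [mul_pow, ← map_pow, hfix, ← mul_pow, mul_inv_cancel₀ hw0, one_pow]
    · have h2 := sub_mem_nonunits_of_mem_inertia A hσ hwA
      have h3 : σ w * w⁻¹ - 1 = (σ w - w) * w⁻¹ := by
        rw [sub_mul, mul_inv_cancel₀ hw0]
      rw [h3, ValuationSubring.mem_nonunits_iff, map_mul, map_inv₀, hw, inv_one, mul_one]
      exact (ValuationSubring.mem_nonunits_iff A).mp h2
  field_simp at h1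
  exact h1

/-- The tame character attached to an `n`-th root `ϖ` of `q`. -/
def kap (ϖ : Qbar) (τ : Γℚ) : Qbar := τ ϖ * ϖ⁻¹

theorem kap_pow {n q : ℕ} (hq : q ≠ 0) {ϖ : Qbar} (hϖ : ϖ ^ n = (q : Qbar)) (hn : n ≠ 0) (τ : Γℚ) :
    kap ϖ τ ^ n = 1 := by
  have h0 : ϖ ≠ 0 := by
    rintro rfl
    rw [zero_pow hn] at hϖ
    exact hq (by exact_mod_cast hϖ.symm)
  rw [kap, mul_pow, ← map_pow, hϖ, map_natCast, ← hϖ, ← mul_pow, mul_inv_cancel₀ h0, one_pow]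

/-- **Characters of inertia of order prime to the residue characteristic** are powers of the tame
character. -/
theorem eq_kap_zpow {q : ℕ} (hq : q.Prime) (hA : A.LiesOverPrime q) {n : ℕ} [NeZero n]
    (hn : ¬ q ∣ n) {ϖ : Qbar} (hϖ : ϖ ^ n = (q : Qbar)) (ψ : Γℚ → Qbar)
    (hψn : ∀ σ ∈ A.inertiaSubgroupIn ℚ, ψ σ ^ n = 1)
    (hψ : ∀ σ ∈ A.inertiaSubgroupIn ℚ, ∀ τ ∈ A.inertiaSubgroupIn ℚ, ψ (σ * τ) = ψ σ * ψ τ)
    (hloc : ∃ L : IntermediateField ℚ Qbar, FiniteDimensional ℚ L ∧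
      ∀ σ ∈ A.inertiaSubgroupIn ℚ, (∀ x ∈ L, σ x = x) → ψ σ = 1) :
    ∃ k : ℤ, ∀ σ ∈ A.inertiaSubgroupIn ℚ, ψ σ = kap ϖ σ ^ k := by
  have hnn : (n : Qbar) ∉ A.nonunits := natCast_notMem_nonunits hq hA hn
  have hϖ0 : ϖ ≠ 0 := by
    rintro rfl
    rw [zero_pow (NeZero.ne n)] at hϖ
    exact hq.ne_zero (by exact_mod_cast hϖ.symm)
  have hμ : ∀ σ ∈ A.inertiaSubgroupIn ℚ, ∀ z : Qbar, z ^ n = 1 → σ z = z := by
    intro σ hσ z hz
    exact eq_of_residue_eq A hnn (by rw [← map_pow, hz, map_one]) hz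
      (sub_mem_nonunits_of_mem_inertia A hσ (mem_of_pow_eq_one A hz (NeZero.ne n)))
  obtain ⟨θ, hθ0, hθ⟩ := exists_kummer n (A.inertiaSubgroupIn ℚ) ψ hψn
    (fun σ hσ τ hτ => by rw [hψ σ hσ τ hτ, hμ σ hσ _ (hψn τ hτ)]) hloc
  have hfix : ∀ σ ∈ A.inertiaSubgroupIn ℚ, σ (θ ^ n) = θ ^ n := fun σ hσ => by
    rw [map_pow, hθ σ hσ, mul_pow, hψn σ hσ, one_mul]
  obtain ⟨k, hk⟩ := Fermat.Agent.DR.InertiaValue.exists_zpow_of_inertia_fixed A hq hA
    (pow_ne_zero n hθ0) hfix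
  refine ⟨-k, fun σ hσ => ?_⟩
  have hw : A.valuation (θ * ϖ ^ k) = 1 := by
    have h1 : (θ * ϖ ^ k) ^ n = θ ^ n * (q : Qbar) ^ k := by
      rw [mul_pow, ← hϖ, ← zpow_natCast (ϖ ^ k) n, ← zpow_mul, mul_comm k, zpow_mul, zpow_natCast]
    have h2 : A.valuation (θ * ϖ ^ k) ^ n = 1 := by rw [← map_pow, h1, hk]
    exact (pow_eq_one_iff_of_nonneg zero_le (NeZero.ne n)).mp h2
  have hwfix := fixed_of_pow_fixed A hnn hw hσ (by
    have h1 : (θ * ϖ ^ k) ^ n = θ ^ n * (q : Qbar) ^ k := by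
      rw [mul_pow, ← hϖ, ← zpow_natCast (ϖ ^ k) n, ← zpow_mul, mul_comm k, zpow_mul, zpow_natCast]
    rw [h1, map_mul, map_zpow₀, map_natCast, hfix σ hσ])
  rw [map_mul, hθ σ hσ, map_zpow₀] at hwfix
  have hσϖ : σ ϖ ≠ 0 := by rw [Ne, EmbeddingLike.map_eq_zero_iff]; exact hϖ0
  have h3 : ψ σ * (σ ϖ) ^ k = ϖ ^ k := by
    have : θ * (ψ σ * (σ ϖ) ^ k) = θ * ϖ ^ k := by rw [← hwfix]; ring
    exact mul_left_cancel₀ hθ0 this
  rw [kap, mul_zpow, inv_zpow, zpow_neg, zpow_neg, inv_inv, ← h3, mul_comm (ψ σ),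
    inv_mul_cancel_left₀ (zpow_ne_zero _ hσϖ)]

/-- Conjugation by a Frobenius element raises the tame character to the `q`-th power. -/
theorem kap_conj {q : ℕ} (hq : q.Prime) (hA : A.LiesOverPrime q) {n : ℕ} [NeZero n]
    (hn : ¬ q ∣ n) {ϖ : Qbar} (hϖ : ϖ ^ n = (q : Qbar)) {φ τ : Γℚ} (hφ : A.IsFrobeniusAt φ q)
    (hτ : τ ∈ A.inertiaSubgroupIn ℚ) : kap ϖ (φ * τ * φ⁻¹) = kap ϖ τ ^ q := by
  have hnn : (n : Qbar) ∉ A.nonunits := natCast_notMem_nonunits hq hA hn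
  have hϖ0 : ϖ ≠ 0 := by
    rintro rfl
    rw [zero_pow (NeZero.ne n)] at hϖ
    exact hq.ne_zero (by exact_mod_cast hϖ.symm)
  have hφμ : ∀ z : Qbar, z ^ n = 1 → φ z = z ^ q := by
    intro z hz
    exact eq_of_residue_eq A hnn (by rw [← map_pow, hz, map_one])
      (by rw [← pow_mul, mul_comm, pow_mul, hz, one_pow])
      (sub_pow_mem_nonunits_of_isFrobeniusAt A hφ (mem_of_pow_eq_one A hz (NeZero.ne n)))
  have hτμ : ∀ z : Qbar, z ^ n = 1 → τ z = z := by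
    intro z hz
    exact eq_of_residue_eq A hnn (by rw [← map_pow, hz, map_one]) hz
      (sub_mem_nonunits_of_mem_inertia A hτ (mem_of_pow_eq_one A hz (NeZero.ne n)))
  -- `φ⁻¹ ϖ = ξ ϖ`
  set ξ : Qbar := φ⁻¹ ϖ * ϖ⁻¹ with hξ
  have hξn : ξ ^ n = 1 := by
    rw [hξ, mul_pow, ← map_pow, hϖ, map_natCast, ← hϖ, ← mul_pow, mul_inv_cancel₀ hϖ0, one_pow]
  have h1 : φ⁻¹ ϖ = ξ * ϖ := by rw [hξ, inv_mul_cancel_right₀ hϖ0]
  have h2 : τ ϖ = kap ϖ τ * ϖ := by rw [kap, inv_mul_cancel_right₀ hϖ0]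
  have hκn : kap ϖ τ ^ n = 1 := kap_pow hq.ne_zero hϖ (NeZero.ne n) τ
  have h3 : φ (ξ * ϖ) = ϖ := by
    rw [← h1]; exact φ.apply_symm_apply ϖ
  have h4 : (φ * τ * φ⁻¹) ϖ = kap ϖ τ ^ q * ϖ := by
    rw [AlgEquiv.mul_apply, AlgEquiv.mul_apply, h1, map_mul τ, hτμ ξ hξn, h2,
      show ξ * (kap ϖ τ * ϖ) = kap ϖ τ * (ξ * ϖ) by ring, map_mul φ, h3, hφμ _ hκn]
  rw [kap, h4, mul_inv_cancel_right₀ hϖ0]

theorem exists_root (n q : ℕ) [NeZero n] : ∃ ϖ : Qbar, ϖ ^ n = (q : Qbar) :=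
  IsAlgClosed.exists_pow_nat_eq _ (NeZero.pos n)

section Hom

variable {C : Type*} [AddCommGroup C]

/-- Characters of a finite abelian group killed by `n` with values in `μ_n` separate points. -/
theorem exists_char (n : ℕ) [NeZero n] [Finite C] (hC : ∀ c : C, n • c = 0) {c : C} (hc : c ≠ 0) :
    ∃ φ : Multiplicative C →* Qbarˣ, φ (Multiplicative.ofAdd c) ≠ 1 := by
  have hdvd : Monoid.exponent (Multiplicative C) ∣ n :=
    Monoid.exponent_dvd_of_forall_pow_eq_one fun g => hC g.toAdd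
  have h0 : Monoid.exponent (Multiplicative C) ≠ 0 := by
    intro h
    rw [h, zero_dvd_iff] at hdvd
    exact NeZero.ne n hdvd
  have : NeZero (Monoid.exponent (Multiplicative C)) := ⟨h0⟩
  have : HasEnoughRootsOfUnity Qbar (Monoid.exponent (Multiplicative C)) := inferInstance
  exact CommGroup.exists_apply_ne_one_of_hasEnoughRootsOfUnity (Multiplicative C) Qbar
    (a := Multiplicative.ofAdd c) (fun h => hc h)

/-- A locally constant homomorphism from inertia at `q` to a finite group killed by `n` prime to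
`q`, composed with a character, is a power of the tame character. -/
theorem char_comp {q : ℕ} (hq : q.Prime) (hA : A.LiesOverPrime q) {n : ℕ} [NeZero n]
    (hn : ¬ q ∣ n) (hC : ∀ c : C, n • c = 0) {ϖ : Qbar} (hϖ : ϖ ^ n = (q : Qbar))
    (ψ : Γℚ → C)
    (hψ : ∀ σ ∈ A.inertiaSubgroupIn ℚ, ∀ τ ∈ A.inertiaSubgroupIn ℚ, ψ (σ * τ) = ψ σ + ψ τ)
    (hloc : ∃ L : IntermediateField ℚ Qbar, FiniteDimensional ℚ L ∧
      ∀ σ ∈ A.inertiaSubgroupIn ℚ, (∀ x ∈ L, σ x = x) → ψ σ = 0)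
    (φ : Multiplicative C →* Qbarˣ) :
    ∃ k : ℤ, ∀ σ ∈ A.inertiaSubgroupIn ℚ,
      ((φ (Multiplicative.ofAdd (ψ σ)) : Qbarˣ) : Qbar) = kap ϖ σ ^ k := by
  obtain ⟨L, hLfin, hL⟩ := hloc
  refine eq_kap_zpow A hq hA hn hϖ (fun σ => ((φ (Multiplicative.ofAdd (ψ σ)) : Qbarˣ) : Qbar))
    (fun σ _ => ?_) (fun σ hσ τ hτ => ?_) ⟨L, hLfin, fun σ hσ hσL => ?_⟩
  · rw [← Units.val_pow_eq_pow_val, ← map_pow, ← ofAdd_nsmul, hC, ofAdd_zero, map_one,
      Units.val_one]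
  · rw [hψ σ hσ τ hτ, ofAdd_add, map_mul, Units.val_mul]
  · rw [hL σ hσ hσL, ofAdd_zero, map_one, Units.val_one]

/-- **Tame inertia, conjugation by Frobenius.** -/
theorem conj_eq {q : ℕ} (hq : q.Prime) (hA : A.LiesOverPrime q) {n : ℕ} [NeZero n]
    (hn : ¬ q ∣ n) [Finite C] (hC : ∀ c : C, n • c = 0) (ψ : Γℚ → C)
    (hψ : ∀ σ ∈ A.inertiaSubgroupIn ℚ, ∀ τ ∈ A.inertiaSubgroupIn ℚ, ψ (σ * τ) = ψ σ + ψ τ)
    (hloc : ∃ L : IntermediateField ℚ Qbar, FiniteDimensional ℚ L ∧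
      ∀ σ ∈ A.inertiaSubgroupIn ℚ, (∀ x ∈ L, σ x = x) → ψ σ = 0)
    {φ τ : Γℚ} (hφ : A.IsFrobeniusAt φ q) (hτ : τ ∈ A.inertiaSubgroupIn ℚ) :
    ψ (φ * τ * φ⁻¹) = q • ψ τ := by
  by_contra hne
  obtain ⟨lam, hlam⟩ := exists_char n hC (sub_ne_zero.mpr hne)
  apply hlam
  obtain ⟨ϖ, hϖ⟩ := exists_root n q
  obtain ⟨k, hk⟩ := char_comp A hq hA hn hC hϖ ψ hψ hloc lam
  have hφA : φ • A = A := hφ.mem_decompositionSubgroup
  have hconj : φ * τ * φ⁻¹ ∈ A.inertiaSubgroupIn ℚ := by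
    have := Fermat.Agent.TWP.Place.mem_inertia_conj φ hτ
    rwa [hφA] at this
  have h1 := hk _ hconj
  have h2 := hk _ hτ
  rw [kap_conj A hq hA hn hϖ hφ hτ] at h1
  have h3 : lam (Multiplicative.ofAdd (ψ (φ * τ * φ⁻¹))) =
      lam (Multiplicative.ofAdd (q • ψ τ)) := by
    apply Units.ext
    rw [h1, ofAdd_nsmul, map_pow, Units.val_pow_eq_pow_val, h2, ← zpow_natCast, ← zpow_natCast,
      ← zpow_mul, ← zpow_mul, mul_comm]
  rw [sub_eq_add_neg, ofAdd_add, map_mul, h3, ofAdd_neg, map_inv, mul_inv_cancel]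

/-- **Tame inertia, generator.** For every `n` prime to `q` there is an element `τ₀` of inertia such
that locally constant homomorphisms from inertia to finite groups killed by `n` are determined by
their value at `τ₀`. -/
theorem exists_generator {q : ℕ} (hq : q.Prime) (hA : A.LiesOverPrime q) (n : ℕ) [NeZero n]
    (hn : ¬ q ∣ n) :
    ∃ τ₀ ∈ A.inertiaSubgroupIn ℚ, ∀ (C : Type*) [AddCommGroup C] [Finite C],
      (∀ c : C, n • c = 0) → ∀ ψ : Γℚ → C,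
      (∀ σ ∈ A.inertiaSubgroupIn ℚ, ∀ τ ∈ A.inertiaSubgroupIn ℚ, ψ (σ * τ) = ψ σ + ψ τ) →
      (∃ L : IntermediateField ℚ Qbar, FiniteDimensional ℚ L ∧
        ∀ σ ∈ A.inertiaSubgroupIn ℚ, (∀ x ∈ L, σ x = x) → ψ σ = 0) →
      ψ τ₀ = 0 → ∀ τ ∈ A.inertiaSubgroupIn ℚ, ψ τ = 0 := by
  have hnn : (n : Qbar) ∉ A.nonunits := natCast_notMem_nonunits hq hA hn
  obtain ⟨ϖ, hϖ⟩ := exists_root n q
  have hϖ0 : ϖ ≠ 0 := by
    rintro rfl
    rw [zero_pow (NeZero.ne n)] at hϖ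
    exact hq.ne_zero (by exact_mod_cast hϖ.symm)
  have hκn : ∀ τ, kap ϖ τ ^ n = 1 := kap_pow hq.ne_zero hϖ (NeZero.ne n)
  have hμ : ∀ σ ∈ A.inertiaSubgroupIn ℚ, ∀ z : Qbar, z ^ n = 1 → σ z = z := by
    intro σ hσ z hz
    exact eq_of_residue_eq A hnn (by rw [← map_pow, hz, map_one]) hz
      (sub_mem_nonunits_of_mem_inertia A hσ (mem_of_pow_eq_one A hz (NeZero.ne n)))
  -- the image of `kap` is a cyclic group
  have hκmul : ∀ σ ∈ A.inertiaSubgroupIn ℚ, ∀ τ, kap ϖ (σ * τ) = kap ϖ σ * kap ϖ τ := by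
    intro σ hσ τ
    have h2 : τ ϖ = kap ϖ τ * ϖ := by rw [kap, inv_mul_cancel_right₀ hϖ0]
    have h3 : σ ϖ = kap ϖ σ * ϖ := by rw [kap, inv_mul_cancel_right₀ hϖ0]
    rw [kap, AlgEquiv.mul_apply, h2, map_mul, hμ σ hσ _ (hκn τ), h3, ← mul_assoc,
      mul_inv_cancel_right₀ hϖ0, mul_comm]
  have hκne : ∀ τ, kap ϖ τ ≠ 0 := by
    intro τ h
    have := hκn τ
    rw [h, zero_pow (NeZero.ne n)] at this
    exact zero_ne_one this
  let K : A.inertiaSubgroupIn ℚ →* Qbarˣ :=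
    { toFun := fun σ => Units.mk0 (kap ϖ σ) (hκne σ)
      map_one' := Units.ext (by
        change kap ϖ 1 = 1
        rw [kap, AlgEquiv.one_apply, mul_inv_cancel₀ hϖ0])
      map_mul' := fun σ τ => Units.ext (hκmul σ σ.2 τ) }
  have hfinrange : Finite K.range := by
    have hsub : K.range ≤ rootsOfUnity n Qbar := by
      rintro _ ⟨σ, rfl⟩
      rw [mem_rootsOfUnity]
      exact Units.ext (by rw [Units.val_pow_eq_pow_val]; exact hκn σ)
    exact Finite.of_injective _ (Subgroup.inclusion_injective hsub)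
  have hcyc : IsCyclic K.range := inferInstance
  obtain ⟨⟨g, ⟨τ₀, hτ₀⟩⟩, hg⟩ := hcyc.exists_generator
  refine ⟨τ₀, τ₀.2, fun C _ _ hC ψ hψ hloc h0 τ hτ => ?_⟩
  by_contra hne
  obtain ⟨lam, hlam⟩ := exists_char n hC hne
  apply hlam
  obtain ⟨k, hk⟩ := char_comp A hq hA hn hC hϖ ψ hψ hloc lam
  have h1 := hk _ τ₀.2
  rw [h0, ofAdd_zero, map_one, Units.val_one] at h1
  obtain ⟨j, hj⟩ := hg ⟨K ⟨τ, hτ⟩, ⟨_, rfl⟩⟩
  have hj' : g ^ j = K ⟨τ, hτ⟩ := congrArg Subtype.val hj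
  rw [← hτ₀] at hj'
  have hj'' : kap ϖ τ₀ ^ j = kap ϖ τ := by
    have := congrArg (fun u : Qbarˣ => (u : Qbar)) hj'
    simpa [K] using this
  apply Units.ext
  rw [hk _ hτ, ← hj'', ← zpow_mul, mul_comm, zpow_mul, ← h1, one_zpow, Units.val_one]

end Hom

end Place

end Fermat.Agent.Mazur.Kummer
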