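import Mathlib

/-!
# Simple constituents of Eisenstein Galois modules

`simple_constituent`: a finite simple `𝔽_r[G]`-module on which
`σ² - (1 + χ(σ)) σ + χ(σ) = 0` for all `σ` has order `r`, and `G` acts trivially or via `χ`.
-/

set_option autoImplicit false

namespace Fermat.Agent.Mazur.Simple

variable {G Q : Type*} [Group G] [AddCommGroup Q] [DistribMulAction G Q]

/-- A group is not the union of two proper subgroups. -/
theorem top_of_union (S T : Subgroup G) (h : ∀ g, g ∈ S ∨ g ∈ T) : (∀ g, g ∈ S) ∨ (∀ g, g ∈ T) := by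
  by_contra hcon
  push Not at hcon
  obtain ⟨⟨a, ha⟩, b, hb⟩ := hcon
  have ha' : a ∈ T := (h a).resolve_left ha
  have hb' : b ∈ S := (h b).resolve_right hb
  rcases h (a * b) with h1 | h1
  · exact ha ((Subgroup.mul_mem_cancel_right S hb').mp h1)
  · exact hb ((Subgroup.mul_mem_cancel_left T ha').mp h1)

variable {r : ℕ} [hr : Fact r.Prime]

theorem smul_congr {a b : ℕ} (h : (a : ZMod r) = b) {q : Q} (hq : r • q = 0) : a • q = b • q := by
  rw [ZMod.natCast_eq_natCast_iff] at h
  have h1 : (a : ℤ) • q = (b : ℤ) • q := by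
    obtain ⟨d, hd⟩ := (Nat.modEq_iff_dvd).mp h
    have h2 : (b : ℤ) = a + r * d := by linarith
    rw [h2, add_smul, mul_comm, mul_smul, natCast_zsmul q r, hq, smul_zero, add_zero]
  rwa [natCast_zsmul, natCast_zsmul] at h1

/-- The value of the character as a natural number. -/
def cc (χ : G →* (ZMod r)ˣ) (σ : G) : ℕ := ((χ σ : (ZMod r)ˣ) : ZMod r).val

theorem cast_cc (χ : G →* (ZMod r)ˣ) (σ : G) : ((cc χ σ : ℕ) : ZMod r) = χ σ := by
  rw [cc, ZMod.natCast_zmod_val]

theorem nontrivial_fixed [Finite Q] [Nontrivial Q] (hrQ : ∀ q : Q, r • q = 0) (H : Subgroup G)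
    (hH : ∀ σ ∈ H, ∀ q : Q, σ • σ • q + q = 2 • (σ • q)) :
    ∃ q : Q, q ≠ 0 ∧ ∀ σ ∈ H, σ • q = q := by
  classical
  have hpow : ∀ σ ∈ H, ∀ (k : ℕ) (q : Q), (σ ^ k) • q = q + k • (σ • q - q) := by
    intro σ hσ k
    induction k with
    | zero => intro q; rw [pow_zero, one_smul, zero_smul, add_zero]
    | succ k ih =>
      intro q
      rw [pow_succ', mul_smul, ih, smul_add]
      have h1 : σ • (k • (σ • q - q)) = k • (σ • q - q) := by
        have h2 : σ • (σ • q - q) = σ • q - q := by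
          have := hH σ hσ q
          rw [smul_sub, sub_eq_sub_iff_add_eq_add, this, two_smul]
        rw [smul_comm σ k, h2]
      rw [h1, add_smul, one_smul]
      abel
  have hpowr : ∀ σ ∈ H, ∀ q : Q, (σ ^ r) • q = q := by
    intro σ hσ q
    rw [hpow σ hσ, hrQ, add_zero]
  -- the image of `H` in the permutations of `Q`
  let P : Subgroup (Equiv.Perm Q) := H.map (MulAction.toPermHom G Q)
  have hP : IsPGroup r P := by
    rintro ⟨_, ⟨σ, hσ, rfl⟩⟩
    refine ⟨1, Subtype.ext ?_⟩
    rw [pow_one, SubmonoidClass.coe_pow, ← map_pow]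
    ext q
    exact hpowr σ hσ q
  have hcard := hP.card_modEq_card_fixedPoints Q
  have hQ : r ∣ Nat.card Q := by
    obtain ⟨q, hq⟩ := exists_ne (0 : Q)
    have h1 : addOrderOf q ∣ r := addOrderOf_dvd_of_nsmul_eq_zero (hrQ q)
    rcases (Nat.dvd_prime hr.out).mp h1 with h2 | h2
    · exact absurd (AddMonoid.addOrderOf_eq_one_iff.mp h2) hq
    · rw [← h2]; exact addOrderOf_dvd_natCard q
  have h0 : r ∣ Nat.card (MulAction.fixedPoints P Q) :=
    (Nat.modEq_zero_iff_dvd).mp (hcard.symm.trans ((Nat.modEq_zero_iff_dvd).mpr hQ))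
  have hmem0 : (0 : Q) ∈ MulAction.fixedPoints P Q := by
    rintro ⟨_, ⟨σ, hσ, rfl⟩⟩
    exact smul_zero σ
  have : Finite (MulAction.fixedPoints P Q) := inferInstance
  have hlt : 1 < Nat.card (MulAction.fixedPoints P Q) := by
    have hpos : 0 < Nat.card (MulAction.fixedPoints P Q) := by
      have : Nonempty (MulAction.fixedPoints P Q) := ⟨⟨0, hmem0⟩⟩
      exact Nat.card_pos
    exact lt_of_lt_of_le hr.out.one_lt (Nat.le_of_dvd hpos h0)
  obtain ⟨⟨q, hq⟩, hne⟩ : ∃ x : MulAction.fixedPoints P Q, x ≠ ⟨0, hmem0⟩ := by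
    have : Nontrivial (MulAction.fixedPoints P Q) := Finite.one_lt_card_iff_nontrivial.mp hlt
    exact exists_ne _
  refine ⟨q, fun h => hne (Subtype.ext h), fun σ hσ => ?_⟩
  exact hq ⟨_, ⟨σ, hσ, rfl⟩⟩

theorem simple_constituent [Finite Q] [Nontrivial Q] (χ : G →* (ZMod r)ˣ)
    (hrQ : ∀ q : Q, r • q = 0)
    (hquad : ∀ (σ : G) (q : Q), σ • σ • q + cc χ σ • q = (1 + cc χ σ) • (σ • q))
    (hsimple : ∀ C : AddSubgroup Q, (∀ σ : G, ∀ q ∈ C, σ • q ∈ C) → C = ⊥ ∨ C = ⊤) :
    Nat.card Q = r ∧ ((∀ (σ : G) (q : Q), σ • q = q) ∨ (∀ (σ : G) (q : Q), σ • q = cc χ σ • q)) := by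
  classical
  have hr1 : 1 < r := hr.out.one_lt
  have hcc1 : ∀ σ, χ σ = 1 → cc χ σ = 1 := by
    intro σ h
    rw [cc, h, Units.val_one, ZMod.val_one'' hr1.ne']
  have hccr : ∀ σ, ¬ r ∣ cc χ σ := by
    intro σ h
    have h1 := (ZMod.natCast_eq_zero_iff (cc χ σ) r).mpr h
    rw [cast_cc] at h1
    exact (χ σ).ne_zero h1
  -- the kernel acts trivially
  have hHfix : ∀ σ ∈ χ.ker, ∀ q : Q, σ • q = q := by
    obtain ⟨q, hq0, hq⟩ := nontrivial_fixed (r := r) hrQ χ.ker (fun σ hσ q => by
      have := hquad σ q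
      rwa [hcc1 σ hσ, one_smul] at this)
    let C : AddSubgroup Q :=
      { carrier := {q | ∀ σ ∈ χ.ker, σ • q = q}
        zero_mem' := fun σ _ => smul_zero σ
        add_mem' := fun {a b} ha hb σ hσ => by rw [smul_add, ha σ hσ, hb σ hσ]
        neg_mem' := fun {a} ha σ hσ => by rw [smul_neg, ha σ hσ] }
    have hC : C = ⊥ ∨ C = ⊤ := hsimple C (fun τ x hx σ hσ => by
      have h1 : τ⁻¹ * σ * τ ∈ χ.ker := by
        have := (inferInstance : (χ.ker).Normal).conj_mem σ hσ τ⁻¹
        rwa [inv_inv] at this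
      have h2 := hx _ h1
      have h3 : σ • τ • x = τ • ((τ⁻¹ * σ * τ) • x) := by
        rw [smul_smul, smul_smul]; congr 1; group
      rw [h3, h2])
    rcases hC with hC | hC
    · exact absurd ((AddSubgroup.mem_bot).mp (hC ▸ (show q ∈ C from hq))) hq0
    · intro σ hσ x
      have : x ∈ C := by rw [hC]; trivial
      exact this σ hσ
  have hcomm : ∀ (σ τ : G) (q : Q), σ • τ • q = τ • σ • q := by
    intro σ τ q
    have h1 : (τ * σ)⁻¹ * (σ * τ) ∈ χ.ker := by
      rw [MonoidHom.mem_ker, map_mul, map_inv, map_mul, map_mul, mul_comm (χ τ), inv_mul_cancel]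
    have h2 := hHfix _ h1 q
    have h3 : (σ * τ) • q = (τ * σ) • (((τ * σ)⁻¹ * (σ * τ)) • q) := by
      rw [smul_smul, mul_inv_cancel_left]
    rw [smul_smul, smul_smul, h3, h2]
  -- each element acts as `1` or as `χ`
  have halt : ∀ σ : G, (∀ q : Q, σ • q = q) ∨ (∀ q : Q, σ • q = cc χ σ • q) := by
    intro σ
    by_cases hσ : χ σ = 1
    · exact Or.inl (hHfix σ hσ)
    · let K1 : AddSubgroup Q :=
        { carrier := {q | σ • q = q}
          zero_mem' := smul_zero σ
          add_mem' := fun {a b} ha hb => by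
            change σ • (a + b) = a + b
            rw [smul_add, ha, hb]
          neg_mem' := fun {a} ha => by
            change σ • (-a) = -a
            rw [smul_neg, ha] }
      have hK1 : K1 = ⊥ ∨ K1 = ⊤ := hsimple K1 (fun τ q hq => by
        change σ • τ • q = τ • q
        rw [hcomm, hq])
      rcases hK1 with h | h
      · right
        intro q
        have h1 : σ • q - cc χ σ • q ∈ K1 := by
          change σ • (σ • q - cc χ σ • q) = σ • q - cc χ σ • q
          have h2 := hquad σ q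
          rw [add_smul, one_smul] at h2
          rw [smul_sub, smul_comm σ (cc χ σ) q, sub_eq_sub_iff_add_eq_add, h2]
        rw [h, AddSubgroup.mem_bot, sub_eq_zero] at h1
        exact h1
      · left
        intro q
        have : q ∈ K1 := by rw [h]; trivial
        exact this
  let S : Subgroup G :=
    { carrier := {σ | ∀ q : Q, σ • q = q}
      one_mem' := fun q => one_smul G q
      mul_mem' := fun {a b} ha hb q => by rw [mul_smul, hb, ha]
      inv_mem' := fun {a} ha q => by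
        have := congrArg (fun x => a⁻¹ • x) (ha q)
        simpa using this.symm }
  let T : Subgroup G :=
    { carrier := {σ | ∀ q : Q, σ • q = cc χ σ • q}
      one_mem' := fun q => by rw [hcc1 1 (map_one χ), one_smul, one_smul]
      mul_mem' := fun {a b} ha hb q => by
        rw [mul_smul, hb, smul_comm a (cc χ b) q, ha, smul_smul]
        refine smul_congr ?_ (hrQ q)
        rw [Nat.cast_mul, cast_cc, cast_cc, cast_cc, map_mul, Units.val_mul, mul_comm]
      inv_mem' := fun {a} ha q => by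
        have h1 := ha (a⁻¹ • q)
        rw [smul_inv_smul] at h1
        have h2 : cc χ a⁻¹ • q = cc χ a⁻¹ • (cc χ a • (a⁻¹ • q)) := by rw [← h1]
        rw [h2, smul_smul]
        have h3 : (((cc χ a⁻¹ * cc χ a : ℕ) : ZMod r)) = ((1 : ℕ) : ZMod r) := by
          rw [Nat.cast_mul, cast_cc, cast_cc, map_inv, Nat.cast_one, ← Units.val_mul,
            inv_mul_cancel, Units.val_one]
        rw [smul_congr h3 (hrQ _), one_smul] }
  have hST : (∀ g, g ∈ S) ∨ (∀ g, g ∈ T) := top_of_union S T halt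
  have hscalar : ∀ (σ : G), ∃ c : ℕ, ∀ q : Q, σ • q = c • q := by
    intro σ
    rcases halt σ with h | h
    · exact ⟨1, fun q => by rw [h, one_smul]⟩
    · exact ⟨_, h⟩
  refine ⟨?_, hST⟩
  obtain ⟨q, hq⟩ := exists_ne (0 : Q)
  have h1 : addOrderOf q ∣ r := addOrderOf_dvd_of_nsmul_eq_zero (hrQ q)
  have h2 : addOrderOf q = r := by
    rcases (Nat.dvd_prime hr.out).mp h1 with h2 | h2
    · exact absurd (AddMonoid.addOrderOf_eq_one_iff.mp h2) hq
    · exact h2
  have h3 : AddSubgroup.zmultiples q = ⊥ ∨ AddSubgroup.zmultiples q = ⊤ :=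
    hsimple _ (fun σ x hx => by
      obtain ⟨c, hc⟩ := hscalar σ
      rw [hc]
      exact AddSubgroup.nsmul_mem _ hx c)
  rcases h3 with h3 | h3
  · exact absurd (AddSubgroup.zmultiples_eq_bot.mp h3) hq
  · rw [← h2, ← Nat.card_zmultiples, h3, AddSubgroup.card_top]

end Fermat.Agent.Mazur.Simple
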