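import Mathlib
import Fermat.Agent.Mazur.Simple

/-!
# Simple steps `A < B` of Eisenstein `R[G]`-modules

`exists_beta`: for a simple step `A < B ≤ V` of `R[G]`-stable subgroups, there is a surjection
`β : B → ZMod r` with kernel `A` on which `G` acts trivially or through `χ`.
-/

set_option autoImplicit false
set_option linter.unusedSectionVars false

namespace Fermat.Agent.Mazur.Beta

open Fermat.Agent.Mazur.Simple

variable {G J R : Type*} [Group G] [AddCommGroup J] [DistribMulAction G J] [CommRing R]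
  [Module R J] [SMulCommClass G R J]

/-- Stability under `R` and `G`. -/
def Stable (G R : Type*) {J : Type*} [Group G] [AddCommGroup J] [DistribMulAction G J] [CommRing R]
    [Module R J] (A : AddSubgroup J) : Prop :=
  (∀ σ : G, ∀ a ∈ A, σ • a ∈ A) ∧ ∀ x : R, ∀ a ∈ A, x • a ∈ A

theorem stable_bot : Stable G R (⊥ : AddSubgroup J) :=
  ⟨fun σ a ha => by rw [AddSubgroup.mem_bot] at ha ⊢; rw [ha, smul_zero],
    fun x a ha => by rw [AddSubgroup.mem_bot] at ha ⊢; rw [ha, smul_zero]⟩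

variable {A B V : AddSubgroup J}

theorem exists_uniform [Finite V] {p : R} (h : ∀ v ∈ V, ∃ k : ℕ, p ^ k • v = 0) :
    ∃ K : ℕ, ∀ v ∈ V, p ^ K • v = 0 := by
  classical
  choose! k hk using h
  have hfin : (Set.range fun v : V => k v).Finite := Set.finite_range _
  obtain ⟨K, hK⟩ := hfin.bddAbove
  refine ⟨K, fun v hv => ?_⟩
  have h1 : k v ≤ K := hK ⟨⟨v, hv⟩, rfl⟩
  obtain ⟨j, rfl⟩ := Nat.exists_eq_add_of_le h1
  rw [pow_add, mul_comm, mul_smul, hk v hv, smul_zero]

/-- `P B ≤ A` for a simple step. -/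
theorem smul_mem_of_mem_P [Finite V] {P : Ideal R}
    (hPnil : ∀ v ∈ V, ∀ p ∈ P, ∃ k : ℕ, p ^ k • v = 0) (hA : Stable G R A) (hB : Stable G R B)
    (hAB : A < B) (hBV : B ≤ V)
    (hmax : ∀ C : AddSubgroup J, Stable G R C → A < C → C ≤ B → C = B) {p : R} (hp : p ∈ P)
    {b : J} (hb : b ∈ B) : p • b ∈ A := by
  let f : J →+ J := DistribSMul.toAddMonoidHom J p
  have hf : ∀ x, f x = p • x := fun _ => rfl
  set C : AddSubgroup J := B.map f ⊔ A with hC
  have hCst : Stable G R C := by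
    constructor
    · intro σ c hc
      obtain ⟨_, ⟨b, hb, rfl⟩, a, ha, rfl⟩ := AddSubgroup.mem_sup.mp hc
      rw [smul_add, hf, smul_comm]
      exact AddSubgroup.add_mem_sup ⟨σ • b, hB.1 σ b hb, rfl⟩ (hA.1 σ a ha)
    · intro x c hc
      obtain ⟨_, ⟨b, hb, rfl⟩, a, ha, rfl⟩ := AddSubgroup.mem_sup.mp hc
      rw [smul_add, hf, smul_comm]
      exact AddSubgroup.add_mem_sup ⟨x • b, hB.2 x b hb, rfl⟩ (hA.2 x a ha)
  have hCB : C ≤ B := by
    refine sup_le ?_ hAB.le
    rintro _ ⟨b, hb, rfl⟩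
    exact hB.2 p b hb
  by_cases hAC : A < C
  · exfalso
    have hCeq := hmax C hCst hAC hCB
    obtain ⟨K, hK⟩ := exists_uniform (V := V) (p := p) (fun v hv => hPnil v hv p hp)
    have key : ∀ k : ℕ, ∀ b ∈ B, ∃ b' ∈ B, ∃ a ∈ A, b = p ^ k • b' + a := by
      intro k
      induction k with
      | zero => intro b hb; exact ⟨b, hb, 0, A.zero_mem, by rw [pow_zero, one_smul, add_zero]⟩
      | succ k ih =>
        intro b hb
        obtain ⟨b', hb', a, ha, rfl⟩ := ih b hb
        have h1 : b' ∈ C := by rw [hCeq]; exact hb'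
        obtain ⟨_, ⟨b'', hb'', rfl⟩, a', ha', h2⟩ := AddSubgroup.mem_sup.mp h1
        refine ⟨b'', hb'', p ^ k • a' + a, A.add_mem (hA.2 _ _ ha') ha, ?_⟩
        rw [← h2, hf, smul_add, smul_smul, ← pow_succ, add_assoc]
    have : B ≤ A := by
      intro b hb
      obtain ⟨b', hb', a, ha, rfl⟩ := key K b hb
      rw [hK b' (hBV hb'), zero_add]
      exact ha
    exact absurd hAB (not_lt_of_ge this)
  · have h1 : C = A := by
      by_contra hne
      exact hAC (lt_of_le_of_ne le_sup_right (Ne.symm hne))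
    rw [← h1]
    exact AddSubgroup.mem_sup_left ⟨b, hb, rfl⟩

variable {r : ℕ} [hr : Fact r.Prime]

/-- **Simple steps.** -/
theorem exists_beta [Finite V] {P : Ideal R}
    (hPint : ∀ x : R, ∃ n : ℤ, x - (n : R) ∈ P) (hrP : (r : R) ∈ P)
    (hPnil : ∀ v ∈ V, ∀ p ∈ P, ∃ k : ℕ, p ^ k • v = 0)
    (χ : G →* (ZMod r)ˣ)
    (hquad : ∀ σ : G, ∃ c : ℕ, (c : ZMod r) = χ σ ∧ ∃ a ∈ P, ∀ v ∈ V,
      σ • σ • v + c • v = (1 + c) • (σ • v) + a • (σ • v))
    (hA : Stable G R A) (hB : Stable G R B)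
    (hAB : A < B) (hBV : B ≤ V)
    (hmax : ∀ C : AddSubgroup J, Stable G R C → A < C → C ≤ B → C = B) :
    ∃ β : B →+ ZMod r, (∀ b : B, β b = 0 ↔ (b : J) ∈ A) ∧ Function.Surjective β ∧
      ((∀ (σ : G) (b b' : B), (b' : J) = σ • (b : J) → β b' = β b) ∨
        (∀ (σ : G) (b b' : B), (b' : J) = σ • (b : J) → β b' = χ σ * β b)) := by
  classical
  have hPB : ∀ p ∈ P, ∀ b ∈ B, p • b ∈ A := fun p hp b hb =>
    smul_mem_of_mem_P hPnil hA hB hAB hBV hmax hp hb
  let A' : AddSubgroup B := A.addSubgroupOf B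
  let Q := ↥B ⧸ A'
  have hfinB : Finite B := Finite.of_injective _ (AddSubgroup.inclusion_injective hBV)
  have hfinQ : Finite Q := inferInstance
  let act : G → (B →+ B) := fun σ =>
    ((DistribSMul.toAddMonoidHom J σ).comp B.subtype).codRestrict B fun b => hB.1 σ b b.2
  have hact : ∀ σ (b : B), ((act σ b : B) : J) = σ • (b : J) := fun σ b => rfl
  have hactA : ∀ σ, A' ≤ A'.comap (act σ) := fun σ b hb => hA.1 σ _ hb
  let actQ : G → (Q →+ Q) := fun σ => QuotientAddGroup.map A' A' (act σ) (hactA σ)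
  have hactQ : ∀ σ (b : B), actQ σ (QuotientAddGroup.mk b) = QuotientAddGroup.mk (act σ b) :=
    fun σ b => rfl
  let iQ : DistribMulAction G Q :=
    { smul := fun σ q => actQ σ q
      one_smul := fun q => by
        obtain ⟨b, rfl⟩ := QuotientAddGroup.mk_surjective q
        change QuotientAddGroup.mk (act 1 b) = _
        congr 1
        exact Subtype.ext (one_smul G _)
      mul_smul := fun σ τ q => by
        obtain ⟨b, rfl⟩ := QuotientAddGroup.mk_surjective q
        change (QuotientAddGroup.mk (act (σ * τ) b) : Q) = QuotientAddGroup.mk (act σ (act τ b))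
        congr 1
        exact Subtype.ext (mul_smul σ τ _)
      smul_zero := fun σ => (actQ σ).map_zero
      smul_add := fun σ x y => (actQ σ).map_add x y }
  have hsmulQ : ∀ σ (b : B), σ • (QuotientAddGroup.mk b : Q) = QuotientAddGroup.mk (act σ b) :=
    fun _ _ => rfl
  have hQ0 : ∀ b : B, (QuotientAddGroup.mk b : Q) = 0 ↔ (b : J) ∈ A := fun b => by
    rw [QuotientAddGroup.eq_zero_iff]
    exact AddSubgroup.mem_addSubgroupOf
  have hnt : Nontrivial Q := by
    obtain ⟨b, hb, hbA⟩ := SetLike.exists_of_lt hAB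
    exact ⟨⟨QuotientAddGroup.mk ⟨b, hb⟩, 0, fun h => hbA ((hQ0 _).mp h)⟩⟩
  have hrQ : ∀ q : Q, r • q = 0 := by
    intro q
    obtain ⟨b, rfl⟩ := QuotientAddGroup.mk_surjective q
    change (QuotientAddGroup.mk (r • b) : Q) = 0
    rw [hQ0]
    have := hPB _ hrP b b.2
    rwa [Nat.cast_smul_eq_nsmul] at this
  have hquadQ : ∀ (σ : G) (q : Q), σ • σ • q + cc χ σ • q = (1 + cc χ σ) • (σ • q) := by
    intro σ q
    obtain ⟨b, rfl⟩ := QuotientAddGroup.mk_surjective q
    obtain ⟨c, hc, a, ha, h⟩ := hquad σ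
    have hcc : ((cc χ σ : ℕ) : ZMod r) = c := by rw [cast_cc, hc]
    rw [smul_congr hcc (hrQ _), smul_congr (a := 1 + cc χ σ) (b := 1 + c)
      (by rw [Nat.cast_add, hcc, Nat.cast_add]) (hrQ _)]
    rw [hsmulQ, hsmulQ, ← sub_eq_zero]
    change (QuotientAddGroup.mk (act σ (act σ b) + c • b - (1 + c) • (act σ b)) : Q) = 0
    rw [hQ0]
    have h1 : ((act σ (act σ b) + c • b - (1 + c) • (act σ b) : B) : J) = a • (σ • (b : J)) := by
      push_cast
      rw [hact, hact, h b (hBV b.2)]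
      abel
    rw [h1]
    exact hPB a ha _ (hB.1 σ b b.2)
  have hsimple : ∀ C : AddSubgroup Q, (∀ σ : G, ∀ q ∈ C, σ • q ∈ C) → C = ⊥ ∨ C = ⊤ := by
    intro C hC
    let C' : AddSubgroup J := (C.comap (QuotientAddGroup.mk' A')).map B.subtype
    have hmem : ∀ b : B, (b : J) ∈ C' ↔ (QuotientAddGroup.mk b : Q) ∈ C := by
      intro b
      constructor
      · rintro ⟨b', hb', h⟩
        have : b' = b := Subtype.ext h
        rw [← this]
        exact hb'
      · intro h
        exact ⟨b, h, rfl⟩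
    have hC'B : C' ≤ B := by
      rintro _ ⟨b, -, rfl⟩
      exact b.2
    have hAC' : A ≤ C' := by
      intro a ha
      have h1 := (hmem ⟨a, hAB.le ha⟩).mpr (by
        rw [(hQ0 ⟨a, hAB.le ha⟩).mpr ha]; exact C.zero_mem)
      exact h1
    have hC'G : ∀ σ : G, ∀ c ∈ C', σ • c ∈ C' := by
      rintro σ _ ⟨b, hb, rfl⟩
      exact (hmem (act σ b)).mpr (hC σ _ hb)
    have hC'R : ∀ x : R, ∀ c ∈ C', x • c ∈ C' := by
      intro x c hc
      obtain ⟨n, hn⟩ := hPint x
      have h1 : x • c = n • c + (x - (n : R)) • c := by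
        rw [sub_smul, Int.cast_smul_eq_zsmul]; abel
      rw [h1]
      exact C'.add_mem (C'.zsmul_mem hc n) (hAC' (hPB _ hn _ (hC'B hc)))
    by_cases hlt : A < C'
    · right
      have h1 := hmax C' ⟨hC'G, hC'R⟩ hlt hC'B
      rw [eq_top_iff]
      intro q _
      obtain ⟨b, rfl⟩ := QuotientAddGroup.mk_surjective q
      exact (hmem b).mp (by rw [h1]; exact b.2)
    · left
      have h1 : C' = A := by
        by_contra hne
        exact hlt (lt_of_le_of_ne hAC' (Ne.symm hne))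
      rw [eq_bot_iff]
      intro q hq
      obtain ⟨b, rfl⟩ := QuotientAddGroup.mk_surjective q
      rw [AddSubgroup.mem_bot, hQ0, ← h1]
      exact (hmem b).mpr hq
  obtain ⟨hcard, hact2⟩ := simple_constituent χ hrQ hquadQ hsimple
  -- identification with `ZMod r`
  have hcyc : IsAddCyclic Q := isAddCyclic_of_prime_card (p := r) hcard
  let e : ZMod r ≃+ Q := hcard ▸ zmodAddCyclicAddEquiv hcyc
  let β : B →+ ZMod r := e.symm.toAddMonoidHom.comp (QuotientAddGroup.mk' A')
  have hβ : ∀ b, β b = e.symm (QuotientAddGroup.mk b) := fun _ => rfl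
  refine ⟨β, fun b => ?_, ?_, ?_⟩
  · rw [hβ, EmbeddingLike.map_eq_zero_iff, hQ0]
  · exact e.symm.surjective.comp (QuotientAddGroup.mk'_surjective A')
  · rcases hact2 with h | h
    · left
      intro σ b b' hb
      have h1 : b' = act σ b := Subtype.ext hb
      rw [hβ, hβ, h1, ← hsmulQ, h]
    · right
      intro σ b b' hb
      have h1 : b' = act σ b := Subtype.ext hb
      rw [hβ, hβ, h1, ← hsmulQ, h, map_nsmul, nsmul_eq_mul, cast_cc]

end Fermat.Agent.Mazur.Beta
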