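import Mathlib
import Fermat.Agent.RR.Corollaries
import Fermat.Agent.RR.HoloModular
import Fermat.Agent.JRED.AtkinLehnerMain
import Fermat.Agent.Jan.HeckeCommute

/-!
# The two cusps of `X₀(N)`, `N` prime

`Cusps N j jN c∞ c0`: the function field `F / K` with the functions `j`, `j_N` has exactly two
places `c∞`, `c0` which are poles of `j` (equivalently of `j_N`), with
`ord_∞ j = -1`, `ord_∞ j_N = -N`, `ord_0 j = -N`, `ord_0 j_N = -1`.
-/

set_option autoImplicit false
set_option linter.unusedSectionVars false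

noncomputable section

open AlgebraicCurve ModularCurve IntermediateField Fermat.Agent.RR
open scoped Pointwise

namespace Fermat.Agent.Mazur.Cusp

section Abs

variable {K F : Type*} [Field K] [Field F] [Algebra K F]

/-- The structure of the two cusps. -/
structure Cusps (N : ℕ) (j jN : F) (ci c0 : Place K F) : Prop where
  infJ : ci.ord j = -1
  infJN : ci.ord jN = -(N : ℤ)
  zeroJ : c0.ord j = -(N : ℤ)
  zeroJN : c0.ord jN = -1
  poleJ : ∀ v : Place K F, v.ord j < 0 → v = ci ∨ v = c0
  poleJN : ∀ v : Place K F, v.ord jN < 0 → v = ci ∨ v = c0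

namespace Cusps

variable {N : ℕ} {j jN : F} {ci c0 : Place K F}

theorem ne (h : Cusps N j jN ci c0) (hN : 1 < N) : ci ≠ c0 := by
  rintro rfl
  have h1 := h.infJ
  rw [h.zeroJ] at h1
  omega

theorem symm (h : Cusps N j jN ci c0) : Cusps N jN j c0 ci where
  infJ := h.zeroJN
  infJN := h.zeroJ
  zeroJ := h.infJN
  zeroJN := h.infJ
  poleJ v hv := (h.poleJN v hv).symm
  poleJN v hv := (h.poleJ v hv).symm

theorem ord_jN_neg_iff (h : Cusps N j jN ci c0) (hN : 0 < N) (v : Place K F) :
    v.ord jN < 0 ↔ v.ord j < 0 := by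
  constructor
  · intro hv
    rcases h.poleJN v hv with rfl | rfl
    · rw [h.infJ]; norm_num
    · rw [h.zeroJ]; omega
  · intro hv
    rcases h.poleJ v hv with rfl | rfl
    · rw [h.infJN]; omega
    · rw [h.zeroJN]; norm_num

/-- Recognition of the cusp `∞`. -/
theorem eq_ci (h : Cusps N j jN ci c0) (hN : 1 < N) {v : Place K F} (hv : v.ord j < 0)
    (hv' : v.ord jN = N * v.ord j) : v = ci := by
  rcases h.poleJ v hv with rfl | rfl
  · rfl
  · exfalso
    rw [h.zeroJ, h.zeroJN] at hv'
    nlinarith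

/-- Recognition of the cusp `0`. -/
theorem eq_c0 (h : Cusps N j jN ci c0) (hN : 1 < N) {v : Place K F} (hv : v.ord j < 0)
    (hv' : v.ord j = N * v.ord jN) : v = c0 :=
  h.symm.eq_ci hN ((h.ord_jN_neg_iff (by omega) v).mpr hv) hv'

variable [IsAlgClosed K] [FunctionField K F]

omit [IsAlgClosed K] [FunctionField K F] in
theorem pole_eq [IsAlgClosed K] [FunctionField K F] (hN : 1 < N) (h1 : ci.ord j = -1)
    (h2 : c0.ord j = -(N : ℤ)) [FiniteDimensional K⟮j⟯ F]
    (hd : Module.finrank K⟮j⟯ F ≤ N + 1) (v : Place K F) (hv : v.ord j < 0) :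
    v = ci ∨ v = c0 := by
  classical
  by_contra hcon
  rw [not_or] at hcon
  have hne : ci ≠ c0 := by
    rintro rfl
    rw [h1] at h2
    omega
  have hj : j ≠ 0 := by
    rintro rfl
    rw [Place.ord_zero] at hv
    exact lt_irrefl _ hv
  have h3 : Finsupp.single ci (1 : ℤ) + Finsupp.single c0 (N : ℤ) + Finsupp.single v (1 : ℤ) ≤
      polesOf (K := K) j := by
    intro w
    rw [polesOf_apply, Finsupp.add_apply, Finsupp.add_apply, Finsupp.single_apply,
      Finsupp.single_apply, Finsupp.single_apply]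
    by_cases hw1 : ci = w
    · subst hw1
      rw [if_pos rfl, if_neg (Ne.symm hne), if_neg hcon.1, h1]
      norm_num
    · by_cases hw2 : c0 = w
      · subst hw2
        rw [if_neg hw1, if_pos rfl, if_neg hcon.2, h2]
        simp
      · rw [if_neg hw1, if_neg hw2]
        split_ifs with hw3
        · subst hw3
          rw [zero_add, zero_add, le_max_iff]
          left
          omega
        · simp
  have h4 := degree_mono h3
  rw [map_add, map_add, degree_single_one, degree_single_one, degree_single_one] at h4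
  have h5 := degree_polesOf_le (K := K) hj
  have h6 : (Module.finrank K⟮j⟯ F : ℤ) ≤ N + 1 := by exact_mod_cast hd
  linarith

/-- The cusps from an involution exchanging `j` and `j_N`. -/
theorem of_swap (hN : 1 < N) (W : F ≃ₐ[K] F) (hWW : ∀ x, W (W x) = x) (hW : W j = jN)
    (h1 : ci.ord j = -1) (h2 : ci.ord jN = -(N : ℤ)) [FiniteDimensional K⟮j⟯ F]
    (hd : Module.finrank K⟮j⟯ F ≤ N + 1) : Cusps N j jN ci (W • ci) := by
  have hW' : W jN = j := by rw [← hW, hWW]
  have hW2 : W * W = 1 := AlgEquiv.ext hWW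
  have h3 : (W • ci).ord j = -(N : ℤ) := by
    rw [← h2, ← Place.ord_smul W ci jN, hW']
  have h4 : (W • ci).ord jN = -1 := by
    rw [← h1, ← Place.ord_smul W ci j, hW]
  have h5 := pole_eq (K := K) hN h1 h3 hd
  refine ⟨h1, h2, h3, h4, h5, fun v hv => ?_⟩
  have h6 : (W • v).ord j < 0 := by
    rw [← hW', Place.ord_smul]
    exact hv
  rcases h5 _ h6 with h7 | h7
  · right
    rw [← h7, smul_smul, hW2, one_smul]
  · left
    have h8 := congrArg (fun x => W • x) h7
    simpa only [smul_smul, hW2, one_smul] using h8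

end Cusps

end Abs

section Conc

theorem dedekindPsi_prime {N : ℕ} (hN : N.Prime) : dedekindPsi N = N + 1 := by
  have h := Fermat.Agent.Jan.HeckeCommute.dedekindPsi_mul_prime 1 N one_ne_zero hN
  rw [one_mul, dedekindPsi_one] at h
  rw [h, if_neg (fun h => hN.one_lt.ne' (Nat.dvd_one.mp h)), one_mul]

theorem order_qExpand (K : Type*) [Field K] (N : ℕ) [NeZero N] {f : LaurentSeries K} :
    (qExpand K N f).order = N * f.order := by
  by_cases hf : f = 0
  · rw [hf, map_zero, HahnSeries.order_zero, mul_zero]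
  have h1 : (qExpand K N f).coeff (N * f.order) ≠ 0 := by
    rw [qExpand_coeff_mul, Ne, HahnSeries.coeff_order_eq_zero]
    exact hf
  have hN : (0 : ℤ) < N := by exact_mod_cast Nat.pos_of_ne_zero (NeZero.ne N)
  refine le_antisymm (HahnSeries.order_le_of_coeff_ne_zero h1) ?_
  by_contra hlt
  push Not at hlt
  have h0 : qExpand K N f ≠ 0 := by
    rwa [Ne, map_eq_zero_iff _ (qExpand_injective N)]
  apply h0
  rw [← HahnSeries.coeff_order_eq_zero]
  by_cases hd : (N : ℤ) ∣ (qExpand K N f).order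
  · obtain ⟨m, hm⟩ := hd
    rw [hm, qExpand_coeff_mul]
    apply HahnSeries.coeff_eq_zero_of_lt_order
    rw [hm] at hlt
    exact lt_of_mul_lt_mul_left hlt hN.le
  · exact qExpand_coeff_of_not_dvd N f hd

variable (K : Type) [Field K] (N : ℕ)

/-- `j_N` in `F_N(K)`. -/
def jNC [NeZero N] : modularFunctionFieldFullC K N :=
  ⟨qExpand K N (jqModC K), jqModCd_mem_full K N dvd_rfl⟩

theorem functionFieldC [IsAlgClosed K] (hK : (N : K) ≠ 0) :
    FunctionField K (modularFunctionFieldFullC K N) :=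
  Fermat.Agent.JRED.functionField_of_finite (Fermat.Agent.JRED.transcendental_jRed K N)
    (Fermat.Agent.JRED.finite_full_jRed hK)

/-- The cusp `0` of `X₀(N)` over an algebraically closed field `K`, `N ≠ 0` in `K`. -/
def cuspZeroC [IsAlgClosed K] (hK : (N : K) ≠ 0) : Place K (modularFunctionFieldFullC K N) :=
  Fermat.Agent.JRED.AL.frickeC N hK • cuspPlaceC K N

/-- The two cusps of `X₀(N)` over `K`. -/
theorem cuspsC [IsAlgClosed K] [NeZero N] (hN : N.Prime) (hK : (N : K) ≠ 0) :
    Cusps N (Fermat.Agent.JRED.jRed K N) (jNC K N) (cuspPlaceC K N) (cuspZeroC K N hK) := by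
  have h0 := functionFieldC K N hK
  have h1 := Fermat.Agent.JRED.finite_full_jRed hK
  have h2 := Fermat.Agent.JRED.finrank_full_jRed hK
  have hj1 : Fermat.Agent.S28.jt (1 : Kˣ) 1 = jqModC K := Fermat.Agent.S28.jt_one_one
  have hjN : Fermat.Agent.S28.jt (1 : Kˣ) N = qExpand K N (jqModC K) :=
    Fermat.Agent.S28.jt_one_eq N
  refine Cusps.of_swap hN.one_lt _ (Fermat.Agent.JRED.AL.frickeC_frickeC N hK) ?_ ?_ ?_ ?_
  · apply Subtype.ext
    have h3 := Fermat.Agent.JRED.AL.coe_frickeC_jt N hK 1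
      (Fermat.Agent.S28.jt_mem_full K hN.ne_zero (one_dvd N)) (one_dvd N)
    rw [Nat.div_one, hjN] at h3
    have h4 : (⟨Fermat.Agent.S28.jt (1 : Kˣ) 1, Fermat.Agent.S28.jt_mem_full K hN.ne_zero
      (one_dvd N)⟩ : modularFunctionFieldFullC K N) = Fermat.Agent.JRED.jRed K N :=
      Subtype.ext hj1
    rw [h4] at h3
    exact h3
  · rw [ord_cuspPlaceC]
    exact order_jqModC K
  · rw [ord_cuspPlaceC]
    change (qExpand K N (jqModC K)).order = _
    rw [order_qExpand, order_jqModC, mul_neg, mul_one]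
  · rw [h2, dedekindPsi_prime hN]

end Conc

section Bar

variable (N : ℕ) [NeZero N]

/-- `j_N` in `F_N` over `ℚ̄`. -/
def jNBar : modularFunctionFieldBar N :=
  ⟨coeffEmb (AlgebraicClosure ℚ) (qExpand ℚ N jq),
    coeffEmb_mem_laurentBaseChange _ (jqd_mem_full N dvd_rfl)⟩

omit [NeZero N] in
theorem coe_jNBar [NeZero N] : ((jNBar N : modularFunctionFieldBar N) :
    LaurentSeries (AlgebraicClosure ℚ)) =
      qExpand (AlgebraicClosure ℚ) N (jqModC (AlgebraicClosure ℚ)) := by
  change coeffMap _ (qExpand ℚ N (jqModC ℚ)) = _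
  rw [coeffMap_qExpand, coeffMap_jqModC]

/-- The Fricke involution over `ℚ̄`. -/
def frickeQ : modularFunctionFieldBar N ≃ₐ[AlgebraicClosure ℚ] modularFunctionFieldBar N :=
  Classical.choose (Fermat.Agent.JRED.AL.exists_frickeBar (AlgebraicClosure ℚ)) N

theorem frickeQ_frickeQ (x : modularFunctionFieldBar N) : frickeQ N (frickeQ N x) = x :=
  (Classical.choose_spec (Fermat.Agent.JRED.AL.exists_frickeBar (AlgebraicClosure ℚ))).1 N x

theorem frickeQ_jt {d : ℕ} (hd : d ∣ N) (x : modularFunctionFieldBar N)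
    (hx : (x : LaurentSeries (AlgebraicClosure ℚ)) = Fermat.Agent.S28.jt 1 d) :
    (frickeQ N x : LaurentSeries (AlgebraicClosure ℚ)) = Fermat.Agent.S28.jt 1 (N / d) :=
  (Classical.choose_spec (Fermat.Agent.JRED.AL.exists_frickeBar (AlgebraicClosure ℚ))).2.1
    N d hd x hx

/-- The cusp `0` of `X₀(N)` over `ℚ̄`. -/
def cuspZero : Place (AlgebraicClosure ℚ) (modularFunctionFieldBar N) :=
  frickeQ N • cuspPlace N

open Fermat.Agent.JRED in
theorem frickeQ_jBar : frickeQ N (jBar N) = jNBar N := by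
  apply Subtype.ext
  rw [coe_jNBar]
  have h := frickeQ_jt N (one_dvd N) (jBar N) (by
    rw [coe_jBar, Fermat.Agent.S28.jt_one_one])
  rw [h, Nat.div_one, Fermat.Agent.S28.jt_one_eq N]

/-- The two cusps of `X₀(N)` over `ℚ̄`. -/
theorem cuspsQ (hN : N.Prime) :
    Cusps N (Fermat.Agent.JRED.jBar N) (jNBar N) (cuspPlace N) (cuspZero N) := by
  have h1 := (Fermat.Agent.JRED.finrank_bar N).1
  refine Cusps.of_swap hN.one_lt _ (frickeQ_frickeQ N) (frickeQ_jBar N) ?_ ?_ ?_
  · rw [ord_cuspPlace, Fermat.Agent.JRED.coe_jBar, order_jqModC]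
  · rw [ord_cuspPlace, coe_jNBar, order_qExpand, order_jqModC, mul_neg, mul_one]
  · rw [(Fermat.Agent.JRED.finrank_bar N).2, dedekindPsi_prime hN]

end Bar

end Fermat.Agent.Mazur.Cusp
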