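import Mathlib
import Fermat.Agent.Mazur.CuspAbs

/-!
# The cuspidal class `(0) - (∞)` on `J₀(N)`, `N` prime

Galois invariance and non-vanishing in genus `≥ 1`.
-/

set_option autoImplicit false
set_option linter.unusedSectionVars false

noncomputable section

open AlgebraicCurve ModularCurve IntermediateField Fermat.Agent.RR
open scoped Pointwise

namespace Fermat.Agent.Mazur.Cusp

section Diff

variable {K F : Type*} [Field K] [Field F] [Algebra K F] [IsAlgClosed K] [FunctionField K F]

/-- The degree zero divisor `(P) - (Q)`. -/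
def diffDiv (P Q : Place K F) : Divisor.degZero (K := K) (F := F) :=
  ⟨Finsupp.single P 1 - Finsupp.single Q 1, by
    rw [Divisor.mem_degZero, map_sub, degree_single_one, degree_single_one, sub_self]⟩

/-- The class of `(P) - (Q)`. -/
def diffClass (P Q : Place K F) : Pic0 K F := Pic0.mk (diffDiv P Q)

theorem coe_diffDiv (P Q : Place K F) :
    (diffDiv P Q : Divisor K F) = Finsupp.single P 1 - Finsupp.single Q 1 := rfl

theorem Pic0_mk_eq_zero_iff (D : Divisor.degZero (K := K) (F := F)) :
    Pic0.mk D = 0 ↔ Divisor.IsPrincipal (D : Divisor K F) := by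
  rw [Pic0.mk, QuotientAddGroup.eq_zero_iff, AddSubgroup.mem_addSubgroupOf, Divisor.mem_principal]

theorem diffClass_self (P : Place K F) : diffClass P P = 0 := by
  rw [diffClass, show diffDiv P P = 0 from Subtype.ext (sub_self _), Pic0.mk_zero]

theorem diffClass_add (P Q R : Place K F) : diffClass P Q + diffClass Q R = diffClass P R := by
  rw [diffClass, diffClass, ← Pic0.mk_add]
  congr 1
  apply Subtype.ext
  change Finsupp.single P 1 - Finsupp.single Q 1 + (Finsupp.single Q 1 - Finsupp.single R 1) = _
  rw [sub_add_sub_cancel]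
  rfl

theorem diffClass_neg (P Q : Place K F) : -diffClass P Q = diffClass Q P := by
  rw [neg_eq_iff_add_eq_zero, diffClass_add, diffClass_self]

theorem semilinear_smul_diffClass (g : SemilinearAut K F) (P Q : Place K F) :
    g • diffClass P Q = diffClass (g • P) (g • Q) := by
  rw [diffClass, SemilinearAut.pic0_smul_mk, diffClass]
  congr 1
  apply Subtype.ext
  rw [SemilinearAut.coe_degZeroSMulHom, coe_diffDiv, coe_diffDiv, smul_sub,
    SemilinearAut.smul_single, SemilinearAut.smul_single]

/-- Two distinct places are not linearly equivalent in genus `≥ 1`. -/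
theorem diffClass_ne_zero (hg : 0 < genusFF K F) {P Q : Place K F} (hPQ : P ≠ Q) :
    diffClass P Q ≠ 0 := by
  classical
  intro h
  rw [diffClass, Pic0_mk_eq_zero_iff] at h
  obtain ⟨f, hf0, hf⟩ := h
  rw [coe_diffDiv] at hf
  have hQ : Q.ord f = -1 := by
    rw [← hf Q, Finsupp.sub_apply, Finsupp.single_eq_same, Finsupp.single_eq_of_ne (Ne.symm hPQ)]
    norm_num
  have hreg : ∀ v, v ≠ Q → 0 ≤ v.ord f := by
    intro v hv
    rw [← hf v, Finsupp.sub_apply, Finsupp.single_eq_of_ne hv, sub_zero, Finsupp.single_apply]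
    split_ifs <;> norm_num
  have htr : Transcendental K f :=
    Fermat.FF.transcendental_of_ord_ne_zero (v := Q) (by rw [hQ]; norm_num)
  have hli := linearIndependent_pow_of_transcendental htr
  set n := 2 * genusFF K F with hn
  have hmem : ∀ i : Fin (n + 1), f ^ (i : ℕ) ∈ riemannRochSpace (Finsupp.single Q (n : ℤ)) := by
    intro i
    rw [mem_riemannRochSpace_iff]
    intro v
    right
    rw [ord_pow, Finsupp.single_apply]
    split_ifs with hv
    · rw [← hv, hQ]
      have := i.2
      omega
    · rw [neg_zero]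
      exact mul_nonneg (Int.natCast_nonneg _) (hreg v (Ne.symm hv))
  have hli' : LinearIndependent K (fun i : Fin (n + 1) =>
      (⟨f ^ (i : ℕ), hmem i⟩ : riemannRochSpace (Finsupp.single Q (n : ℤ)))) := by
    apply LinearIndependent.of_comp (riemannRochSpace (Finsupp.single Q (n : ℤ))).subtype
    exact hli.comp (fun i : Fin (n + 1) => (i : ℕ)) Fin.val_injective
  have h1 := hli'.fintype_card_le_finrank
  rw [Fintype.card_fin] at h1
  have h2 := finrank_riemannRochSpace_eq (K := K) (D := Finsupp.single Q (n : ℤ)) (by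
    rw [degree_single_one]
    push_cast [hn]
    linarith)
  rw [degree_single_one] at h2
  omega

end Diff

section Bar

variable (N : ℕ) [NeZero N]

/-- The cuspidal class `(0) - (∞) ∈ J₀(N)`. -/
def cuspClass : JZero N := diffClass (cuspZero N) (cuspPlace N)

open Fermat.Agent.JRED in
theorem arithmeticGalois_smul_jBar (σ : AlgebraicClosure ℚ ≃ₐ[ℚ] AlgebraicClosure ℚ) :
    arithmeticGalois (modularFunctionFieldFull N) σ • jBar N = jBar N := by
  apply Subtype.ext
  rw [coe_arithmeticGalois_smul, coe_jBar, coeffMap_jqModC]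

theorem arithmeticGalois_smul_jNBar (σ : AlgebraicClosure ℚ ≃ₐ[ℚ] AlgebraicClosure ℚ) :
    arithmeticGalois (modularFunctionFieldFull N) σ • jNBar N = jNBar N := by
  apply Subtype.ext
  rw [coe_arithmeticGalois_smul, coe_jNBar, coeffMap_qExpand, coeffMap_jqModC]

/-- The cusp `0` is rational. -/
theorem arithmeticGalois_smul_cuspZero (hN : N.Prime)
    (σ : AlgebraicClosure ℚ ≃ₐ[ℚ] AlgebraicClosure ℚ) :
    arithmeticGalois (modularFunctionFieldFull N) σ • cuspZero N = cuspZero N := by
  have h := cuspsQ N hN
  have hN1 := hN.one_lt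
  have h1 : (arithmeticGalois (modularFunctionFieldFull N) σ • cuspZero N).ord
      (Fermat.Agent.JRED.jBar N) = -(N : ℤ) := by
    have := SemilinearAut.ord_smul (arithmeticGalois (modularFunctionFieldFull N) σ)
      (cuspZero N) (Fermat.Agent.JRED.jBar N)
    rwa [arithmeticGalois_smul_jBar, h.zeroJ] at this
  have h2 : (arithmeticGalois (modularFunctionFieldFull N) σ • cuspZero N).ord
      (jNBar N) = -1 := by
    have := SemilinearAut.ord_smul (arithmeticGalois (modularFunctionFieldFull N) σ)
      (cuspZero N) (jNBar N)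
    rwa [arithmeticGalois_smul_jNBar, h.zeroJN] at this
  exact h.eq_c0 hN1 (by rw [h1]; omega) (by rw [h1, h2]; ring)

/-- The cuspidal class is rational. -/
theorem galois_smul_cuspClass (hN : N.Prime) (σ : AlgebraicClosure ℚ ≃ₐ[ℚ] AlgebraicClosure ℚ) :
    σ • cuspClass N = cuspClass N := by
  rw [galois_smul_pic0_def, cuspClass, semilinear_smul_diffClass,
    arithmeticGalois_smul_cuspZero N hN, arithmeticGalois_smul_cuspPlace]

theorem cuspClass_ne_zero_of_genus (hN : N.Prime)
    (hg : 0 < genusFF (AlgebraicClosure ℚ) (modularFunctionFieldBar N)) : cuspClass N ≠ 0 :=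
  diffClass_ne_zero hg ((cuspsQ N hN).ne hN.one_lt).symm

end Bar

end Fermat.Agent.Mazur.Cusp
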