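import Mathlib
import Fermat.Agent.Mazur.CuspClass
import Fermat.Agent.JRED.CharZeroGenus

/-!
# The genus of `X₀(N)`, `N` prime, `N ∉ {2, 3, 5, 7, 13}`, is positive
-/

set_option autoImplicit false

noncomputable section

open AlgebraicCurve ModularCurve

namespace Fermat.Agent.Mazur.Cusp

theorem card_quad_le {N : ℕ} [Fact N.Prime] (b c : ZMod N) :
    Nat.card {x : ZMod N // x ^ 2 + b * x + c = 0} ≤ 2 := by
  classical
  have h1 : (Polynomial.X ^ 2 + Polynomial.C b * Polynomial.X + Polynomial.C c :
      Polynomial (ZMod N)).Monic := by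
    monicity!
  have h2 : (Polynomial.X ^ 2 + Polynomial.C b * Polynomial.X + Polynomial.C c :
      Polynomial (ZMod N)).natDegree = 2 := by
    compute_degree!
  have h3 := Polynomial.card_roots' (Polynomial.X ^ 2 + Polynomial.C b * Polynomial.X +
    Polynomial.C c : Polynomial (ZMod N))
  rw [h2] at h3
  refine le_trans ?_ h3
  refine le_trans ?_ (Multiset.toFinset_card_le _)
  rw [Nat.card_eq_fintype_card, Fintype.card_subtype]
  apply Finset.card_le_card
  intro x hx
  rw [Finset.mem_filter] at hx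
  rw [Multiset.mem_toFinset, Polynomial.mem_roots h1.ne_zero, Polynomial.IsRoot.def]
  simpa using hx.2

theorem cuspCount_prime {N : ℕ} (hN : N.Prime) : cuspCount N = 2 := by
  rw [cuspCount, Nat.Prime.sum_divisors hN]
  simp [Nat.div_self hN.pos]

theorem nuTwo_eleven : nuTwo 11 = 0 := by
  rw [nuTwo, Nat.card_eq_zero]
  left
  rw [isEmpty_subtype]
  decide

theorem nuThree_eleven : nuThree 11 = 0 := by
  rw [nuThree, Nat.card_eq_zero]
  left
  rw [isEmpty_subtype]
  decide

/-- `X₀(N)` has positive genus for a prime `N ∉ {2, 3, 5, 7, 13}`. -/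
theorem genusFormula_pos {N : ℕ} (hN : N.Prime) (h : N ∉ ({2, 3, 5, 7, 13} : Finset ℕ)) :
    0 < genusFormula N := by
  have : Fact N.Prime := ⟨hN⟩
  rw [genusFormula, cuspCount_prime hN, dedekindPsi_prime hN]
  by_cases h11 : N = 11
  · subst h11
    rw [nuTwo_eleven, nuThree_eleven]
    norm_num
  · have h14 : 14 ≤ N := by
      by_contra hlt
      push Not at hlt
      interval_cases N <;> first | exact absurd hN (by decide) | exact h (by decide) | exact h11 rfl
    have h2 : nuTwo N ≤ 2 := by
      have := card_quad_le (N := N) 0 1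
      simpa [nuTwo] using this
    have h3 : nuThree N ≤ 2 := by
      have := card_quad_le (N := N) 1 1
      simpa [nuThree] using this
    have h2' : (nuTwo N : ℚ) ≤ 2 := by exact_mod_cast h2
    have h3' : (nuThree N : ℚ) ≤ 2 := by exact_mod_cast h3
    have h14' : (14 : ℚ) ≤ N := by exact_mod_cast h14
    push_cast
    linarith

theorem genusFF_pos (N : ℕ) [NeZero N] (hN : N.Prime) (h : N ∉ ({2, 3, 5, 7, 13} : Finset ℕ)) :
    0 < genusFF (AlgebraicClosure ℚ) (modularFunctionFieldBar N) := by
  have h1 := genusFormula_pos hN h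
  rw [← Fermat.Agent.JRED.genusFF_bar_eq_genusFormula N] at h1
  exact_mod_cast h1

/-- The cuspidal class is nonzero for a prime `N ∉ {2, 3, 5, 7, 13}`. -/
theorem cuspClass_ne_zero (N : ℕ) [NeZero N] (hN : N.Prime)
    (h : N ∉ ({2, 3, 5, 7, 13} : Finset ℕ)) : cuspClass N ≠ 0 :=
  cuspClass_ne_zero_of_genus N hN (genusFF_pos N hN h)

end Fermat.Agent.Mazur.Cusp
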