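import Mathlib
import Fermat.Agent.Mazur.CuspClass
import Fermat.Agent.JAN.Places
import Fermat.Agent.FunField.Quot
import Fermat.Agent.QbarInst

/-!
# The function `Δ(N τ) / Δ(τ)` on `X₀(N)`, `N` prime

Its divisor is `(N - 1) ((∞) - (0))`, hence `(N - 1) ((0) - (∞)) = 0` in `J₀(N)`.
-/

set_option autoImplicit false
set_option linter.unusedSectionVars false
set_option linter.style.haveILetI false

noncomputable section

open AlgebraicCurve ModularCurve IntermediateField Fermat.Agent.RR UpperHalfPlane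
open scoped Pointwise

namespace Fermat.Agent.Mazur.Cusp

section Emb

/-- An embedding of `ℚ̄` in `ℂ`. -/
abbrev algQC : Algebra (AlgebraicClosure ℚ) ℂ :=
  (IsAlgClosed.lift (M := ℂ) (S := AlgebraicClosure ℚ) (R := ℚ)).toRingHom.toAlgebra

end Emb

variable (N : ℕ) [NeZero N]

/-- The modular unit `Δ(q^N) / Δ(q)`. -/
def unitQ : modularFunctionFieldBar N :=
  ⟨qExpand (AlgebraicClosure ℚ) N (FunField.deltaL (AlgebraicClosure ℚ)) /
    FunField.deltaL (AlgebraicClosure ℚ), by
      rw [Fermat.Agent.MFF.modularFunctionFieldBar_eq]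
      refine (IntermediateField.adjoin_le_iff.mpr ?_)
        (FunField.deltaRatio_mem (AlgebraicClosure ℚ) N)
      rintro x (rfl | rfl)
      · exact jqModC_mem_full _ N
      · exact jqModCd_mem_full _ N dvd_rfl⟩

theorem coe_unitQ : ((unitQ N : modularFunctionFieldBar N) : LaurentSeries (AlgebraicClosure ℚ)) =
    qExpand (AlgebraicClosure ℚ) N (FunField.deltaL (AlgebraicClosure ℚ)) /
    FunField.deltaL (AlgebraicClosure ℚ) := rfl

theorem qExpand_ne_zero {K : Type*} [Field K] {f : LaurentSeries K} (hf : f ≠ 0) :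
    qExpand K N f ≠ 0 := by
  rwa [Ne, map_eq_zero_iff _ (qExpand_injective N)]

theorem unitQ_ne_zero : unitQ N ≠ 0 := by
  intro h
  have h1 := congrArg (fun x : modularFunctionFieldBar N =>
    (x : LaurentSeries (AlgebraicClosure ℚ))) h
  have h2 : (FunField.deltaL (AlgebraicClosure ℚ)) ≠ 0 := FunField.deltaL_ne_zero _
  exact div_ne_zero (qExpand_ne_zero N h2) h2 h1

theorem order_deltaL (K : Type*) [Field K] : (FunField.deltaL K).order = 1 := by
  have h1 : (FunField.deltaL K).coeff 1 = 1 := by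
    rw [FunField.deltaL_eq, HahnSeries.coeff_single_mul, one_mul, sub_self,
      show (0 : ℤ) = ((0 : ℕ) : ℤ) from rfl, HahnSeries.ofPowerSeries_apply_coeff,
      PowerSeries.coeff_map, PowerSeries.coeff_zero_eq_constantCoeff,
      constantCoeff_dedekindEtaUnit, map_one]
  have h2 : (FunField.deltaL K).coeff 1 ≠ 0 := by rw [h1]; exact one_ne_zero
  refine le_antisymm (HahnSeries.order_le_of_coeff_ne_zero h2) ?_
  by_contra hlt
  push Not at hlt
  have h3 : (FunField.deltaL K).coeff (FunField.deltaL K).order = 0 := by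
    rw [FunField.deltaL_eq, HahnSeries.coeff_single_mul, one_mul]
    apply ofPowerSeries_coeff_of_neg
    rw [← FunField.deltaL_eq]
    omega
  rw [HahnSeries.coeff_order_eq_zero] at h3
  exact (FunField.isUnit_deltaL K).ne_zero h3

theorem ord_cuspPlace_unitQ : (cuspPlace N).ord (unitQ N) = N - 1 := by
  have h2 : (FunField.deltaL (AlgebraicClosure ℚ)) ≠ 0 := FunField.deltaL_ne_zero _
  have h1 : (unitQ N : LaurentSeries (AlgebraicClosure ℚ)) * FunField.deltaL (AlgebraicClosure ℚ) =
      qExpand (AlgebraicClosure ℚ) N (FunField.deltaL (AlgebraicClosure ℚ)) := by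
    rw [coe_unitQ, div_mul_cancel₀ _ h2]
  have h3 : (unitQ N : LaurentSeries (AlgebraicClosure ℚ)) ≠ 0 := fun h =>
    unitQ_ne_zero N (Subtype.ext h)
  have h4 := congrArg HahnSeries.order h1
  rw [HahnSeries.order_mul h3 h2, order_qExpand, order_deltaL] at h4
  rw [ord_cuspPlace]
  linarith

/-- `Δ(q^N) / Δ(q)` as a quotient of forms. -/
theorem isQuot_unitQ : letI := algQC
    JAN.IsQuot N (unitQ N : LaurentSeries (AlgebraicClosure ℚ)) 12
      (MFF.liftMod (dvd_refl N) MFF.Delta) (MFF.liftMod (one_dvd N) MFF.Delta) := by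
  letI := algQC
  have hA := JAN.IsCharForm.of_modularForm (MFF.liftMod (dvd_refl N) MFF.Delta)
  have hB := JAN.IsCharForm.of_modularForm (MFF.liftMod (one_dvd N) MFF.Delta)
  refine ⟨hA, hB, ?_, MFF.LQ (MFF.liftMod (one_dvd N) MFF.Delta), hB.hasExp, ?_⟩
  · intro h
    have := congrFun h I
    rw [MFF.liftMod_apply] at this
    exact MFF.Delta_ne_zero _ this
  · have h2 : (FunField.deltaL (AlgebraicClosure ℚ)) ≠ 0 := FunField.deltaL_ne_zero _
    have h3 : FermatJ.toC (unitQ N : LaurentSeries (AlgebraicClosure ℚ)) *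
        MFF.LQ (MFF.liftMod (one_dvd N) MFF.Delta) = MFF.LQ (MFF.liftMod (dvd_refl N) MFF.Delta) := by
      rw [MFF.LQ_liftMod, MFF.LQ_liftMod, qExpand_one_apply, FunField.LQ_Delta,
        ← FunField.coeffMap_deltaL (algebraMap (AlgebraicClosure ℚ) ℂ), coe_unitQ,
        ← coeffMap_qExpand, FermatJ.toC, ← map_mul, div_mul_cancel₀ _ h2]
    rw [h3]
    exact hA.hasExp

/-- No zeros and poles outside the cusps. -/
theorem ord_unitQ_of_regular (v : Place (AlgebraicClosure ℚ) (modularFunctionFieldBar N))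
    (hv : 0 ≤ v.ord (Fermat.Agent.JRED.jBar N)) : v.ord (unitQ N) = 0 := by
  letI := algQC
  have hq := isQuot_unitQ N
  have hu : (unitQ N : LaurentSeries (AlgebraicClosure ℚ)) ≠ 0 := fun h =>
    unitQ_ne_zero N (Subtype.ext h)
  rcases JAN.PlacesVal.exists_hits Fermat.Agent.Jan.DegreeWiring.jAlg (JAN.PlacesCusp.wid N)
    (fun g => JAN.PlacesCusp.wid_ne_zero g) (fun g => JAN.PlacesCusp.wid_mem g) v with
    ⟨τ, e, h⟩ | ⟨g, e, h⟩
  · have h1 := h.2 (unitQ N) (unitQ_ne_zero N)
    rw [JAN.PlacesVal.valQ_eq (JAN.PlacesVal.formVal_ptVal N τ) hq hu] at h1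
    unfold JAN.PlacesVal.ptVal at h1
    rw [JAN.PlacesExact.ordH_liftMod_Delta, JAN.PlacesExact.ordH_liftMod_Delta] at h1
    have he : (e : ℤ) ≠ 0 := by exact_mod_cast h.1.ne'
    rw [sub_self, eq_comm, mul_eq_zero] at h1
    exact h1.resolve_left he
  · exfalso
    have h1 := JAN.PlacesCusp.valQ_jd_mul (L := AlgebraicClosure ℚ) (one_dvd N) g
    have h3 : JAN.PlacesCusp.cA 1 g = 1 := Nat.dvd_one.mp (JAN.PlacesCusp.cA_dvd g)
    have h4 : JAN.PlacesCusp.cD 1 g = 1 := by rw [JAN.PlacesCusp.cD, h3]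
    have h5 : JAN.PlacesExact.jd (AlgebraicClosure ℚ) 1 (one_dvd N) =
        Fermat.Agent.JRED.jBar N := by
      apply Subtype.ext
      rw [Fermat.Agent.JRED.coe_jBar]
      exact qExpand_one_apply _
    have hj : Fermat.Agent.JRED.jBar N ≠ 0 := by
      intro h0
      exact Fermat.Agent.JRED.transcendental_jBar N (by rw [h0]; exact isAlgebraic_zero)
    rw [h3, h4, h5, h.2 _ hj] at h1
    have h6 : (0 : ℤ) < JAN.PlacesCusp.wid N g := by
      exact_mod_cast Nat.pos_of_ne_zero (JAN.PlacesCusp.wid_ne_zero g)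
    have h7 : 0 ≤ (e : ℤ) * v.ord (Fermat.Agent.JRED.jBar N) :=
      mul_nonneg (Int.natCast_nonneg _) hv
    push_cast at h1
    linarith

/-- The divisor of `Δ(q^N) / Δ(q)`. -/
theorem divOf_unitQ (hN : N.Prime) : divOf (K := AlgebraicClosure ℚ) (unitQ N) =
    ((N : ℤ) - 1) • (Finsupp.single (cuspPlace N) (1 : ℤ) - Finsupp.single (cuspZero N) 1) := by
  classical
  have h := cuspsQ N hN
  have hne := h.ne hN.one_lt
  have h1 : divOf (K := AlgebraicClosure ℚ) (unitQ N) =
      Finsupp.single (cuspPlace N) ((N : ℤ) - 1) +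
        Finsupp.single (cuspZero N) ((cuspZero N).ord (unitQ N)) := by
    ext v
    rw [divOf_apply, Finsupp.add_apply, Finsupp.single_apply, Finsupp.single_apply]
    by_cases hv : 0 ≤ v.ord (Fermat.Agent.JRED.jBar N)
    · have h2 : cuspPlace N ≠ v := by
        rintro rfl
        rw [h.infJ] at hv
        omega
      have h3 : cuspZero N ≠ v := by
        rintro rfl
        rw [h.zeroJ] at hv
        have := hN.one_lt
        omega
      rw [if_neg h2, if_neg h3, ord_unitQ_of_regular N v hv, add_zero]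
    · rcases h.poleJ v (by omega) with rfl | rfl
      · rw [if_pos rfl, if_neg (Ne.symm hne), ord_cuspPlace_unitQ, add_zero]
      · rw [if_neg hne, if_pos rfl, zero_add]
  have h2 := congrArg (Divisor.degree (K := AlgebraicClosure ℚ)) h1
  rw [degree_divOf, map_add, degree_single_one, degree_single_one] at h2
  have h3 : (cuspZero N).ord (unitQ N) = -((N : ℤ) - 1) := by linarith
  rw [h1, h3, smul_sub, Finsupp.smul_single, Finsupp.smul_single, Finsupp.single_neg,
    smul_eq_mul, mul_one, ← sub_eq_add_neg]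

/-- **The cuspidal class is killed by `N - 1`.** -/
theorem nsmul_cuspClass (hN : N.Prime) : (N - 1) • cuspClass N = 0 := by
  have h0 : cuspClass N = -diffClass (cuspPlace N) (cuspZero N) := by
    rw [diffClass_neg, cuspClass]
  rw [h0, neg_nsmul, neg_eq_zero, diffClass]
  have h1 : (N - 1) • Pic0.mk (diffDiv (cuspPlace N) (cuspZero N)) =
      Pic0.mk ((N - 1) • diffDiv (cuspPlace N) (cuspZero N)) := rfl
  rw [h1, Pic0_mk_eq_zero_iff]
  refine ⟨unitQ N, unitQ_ne_zero N, fun v => ?_⟩
  rw [← divOf_apply, divOf_unitQ N hN, AddSubgroup.coe_nsmul, coe_diffDiv]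
  have h2 : ((N - 1 : ℕ) : ℤ) = (N : ℤ) - 1 := by
    have := hN.one_lt
    omega
  rw [← h2, natCast_zsmul]

end Fermat.Agent.Mazur.Cusp
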