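import Mathlib
import Fermat.Agent.Mazur.CuspUnit
import Fermat.Agent.JRED.AtkinLehnerInput

/-!
# Hecke operators on the cuspidal class of `X₀(N)`, `N` prime

`T_ℓ ((0) - (∞)) = (ℓ + 1) ((0) - (∞))` for `ℓ ≠ N`.
-/

set_option autoImplicit false
set_option linter.unusedSectionVars false
set_option linter.style.haveILetI false

noncomputable section

open AlgebraicCurve ModularCurve IntermediateField Fermat.Agent.RR
open Fermat.Agent.JAN.PlacesVal Fermat.Agent.JAN.PlacesCusp Fermat.Agent.JAN.PlacesExact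
open scoped Pointwise

namespace Fermat.Agent.Mazur.Cusp

section Abs

variable {K F F' : Type*} [Field K] [Field F] [Field F'] [Algebra K F] [Algebra K F']
  [IsAlgClosed K] [FunctionField K F] [HasPrincipalDivisors K F']

theorem ramificationIndexAlong_pos (φ : F →ₐ[K] F') (hφ : φ.toRingHom.IsIntegral)
    (w : Place K F') : 0 < w.ramificationIndexAlong φ := by
  let _ := algebraAlong φ
  have _ := isScalarTower_along φ
  have _ := isIntegral_along φ hφ
  exact w.ramificationIndex_pos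

/-- A correspondence `ψ_* φ^*` on a place `P` such that every place above `P` for `φ` is above
`P` for `ψ`. -/
theorem correspondence_single (φ ψ : F →ₐ[K] F') (hφ : φ.toRingHom.IsIntegral)
    (hψ : ψ.toRingHom.IsIntegral) (hFI : FundamentalIdentityAlong K φ hφ) (P : Place K F)
    (hP : ∀ W : Place K F', W.restrictAlong φ hφ = P → W.restrictAlong ψ hψ = P) :
    Divisor.correspondence φ ψ hφ hψ (Finsupp.single P 1) =
      Finsupp.single P (finrankAlong K φ : ℤ) := by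
  classical
  have h1 : ∃ m : ℤ, Divisor.correspondence φ ψ hφ hψ (Finsupp.single P 1) =
      Finsupp.single P m := by
    rw [Divisor.correspondence_apply, Divisor.pullbackAlong_single, map_sum]
    refine ⟨∑ W ∈ Place.fiberAlong φ hφ P, (1 * (W.ramificationIndexAlong φ : ℤ)) *
      (W.inertiaDegAlong ψ hψ : ℤ), ?_⟩
    rw [Finsupp.single_finsetSum]
    refine Finset.sum_congr rfl fun W hW => ?_
    rw [Divisor.pushforwardAlong_single, hP W (Place.mem_fiberAlong.mp hW)]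
  obtain ⟨m, hm⟩ := h1
  have h2 := Divisor.degree_correspondence φ ψ hφ hψ hFI (Finsupp.single P 1)
  rw [hm, degree_single_one, degree_single_one, mul_one] at h2
  rw [hm, h2]

end Abs

section Ord

variable {M : ℕ} [NeZero M]

/-- At a place of `F_M`: either all `j(q^d)` are regular, or there are `w > 0` and `a : ℕ → ℕ`
with `-d ord (j(q^d)) = w (a d)²`, `a d = gcd(c, d)`. -/
theorem ord_jd_dichotomy (W : Place (AlgebraicClosure ℚ) (modularFunctionFieldBar M)) :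
    (∀ (d : ℕ) [NeZero d] (hd : d ∣ M), 0 ≤ W.ord (jd (AlgebraicClosure ℚ) d hd)) ∨
    (∃ (w : ℕ) (c : ℤ), 0 < w ∧ ∀ (d : ℕ) [NeZero d] (hd : d ∣ M),
      W.ord (jd (AlgebraicClosure ℚ) d hd) * d = -((w : ℤ) * (Int.gcd c d : ℤ) ^ 2)) := by
  letI := algQC
  have hne : ∀ (d : ℕ) [NeZero d] (hd : d ∣ M), jd (AlgebraicClosure ℚ) d hd ≠ 0 := by
    intro d _ hd
    have h1 := jd_sub_ne_zero hd (0 : AlgebraicClosure ℚ)
    rwa [map_zero, sub_zero] at h1
  rcases exists_hits Fermat.Agent.Jan.DegreeWiring.jAlg (wid M)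
    (fun g => wid_ne_zero g) (fun g => wid_mem g) W with ⟨τ, e, h⟩ | ⟨g, e, h⟩
  · left
    intro d _ hd
    have h1 := valQ_jd_sub hd (0 : AlgebraicClosure ℚ) τ
    rw [map_zero, sub_zero, h.2 _ (hne d hd)] at h1
    have he : (0 : ℤ) < e := by exact_mod_cast h.1
    have h2 : 0 ≤ (e : ℤ) * W.ord (jd (AlgebraicClosure ℚ) d hd) := by
      rw [h1]
      exact Int.natCast_nonneg _
    exact nonneg_of_mul_nonneg_right h2 he
  · right
    refine ⟨wid M g, g 1 0, Nat.pos_of_ne_zero (wid_ne_zero g), fun d _ hd => ?_⟩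
    have h1 := valQ_jd_mul (L := AlgebraicClosure ℚ) hd g
    rw [h.2 _ (hne d hd), eq_one_of_hits h, Nat.cast_one, one_mul] at h1
    have h2 : ((cA d g : ℕ) : ℤ) * (cD d g : ℕ) = (d : ℕ) := by
      exact_mod_cast cA_mul_cD (d := d) g
    change W.ord (jd (AlgebraicClosure ℚ) d hd) * d = -((wid M g : ℤ) * ((cA d g : ℕ) : ℤ) ^ 2)
    linear_combination ((cA d g : ℕ) : ℤ) * h1 - W.ord (jd (AlgebraicClosure ℚ) d hd) * h2

end Ord

section Main

variable {N ℓ : ℕ} [NeZero N] [NeZero ℓ]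

theorem ord_relation (hcop : N.Coprime ℓ)
    (W : Place (AlgebraicClosure ℚ) (modularFunctionFieldBar (N * ℓ)))
    (hW : W.ord (jd (AlgebraicClosure ℚ) ℓ (dvd_mul_left ℓ N)) < 0) :
    W.ord (jd (AlgebraicClosure ℚ) 1 (one_dvd (N * ℓ))) < 0 ∧
    W.ord (jd (AlgebraicClosure ℚ) (N * ℓ) (dvd_refl (N * ℓ))) *
      W.ord (jd (AlgebraicClosure ℚ) 1 (one_dvd (N * ℓ))) =
    W.ord (jd (AlgebraicClosure ℚ) N (dvd_mul_right N ℓ)) *
      W.ord (jd (AlgebraicClosure ℚ) ℓ (dvd_mul_left ℓ N)) := by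
  rcases ord_jd_dichotomy W with h | ⟨w, c, hw, h⟩
  · exact absurd hW (not_lt.mpr (h ℓ _))
  · have h1 := h 1 (one_dvd _)
    have h2 := h N (dvd_mul_right N ℓ)
    have h3 := h ℓ (dvd_mul_left ℓ N)
    have h4 := h (N * ℓ) (dvd_refl _)
    have h5 : (Int.gcd c ((N * ℓ : ℕ) : ℤ)) = Int.gcd c N * Int.gcd c ℓ := by
      rw [Int.gcd, Int.gcd, Int.gcd, Int.natAbs_natCast, Int.natAbs_natCast, Int.natAbs_natCast]
      exact Nat.Coprime.gcd_mul _ hcop
    have hN : ((N : ℕ) : ℤ) ≠ 0 := by exact_mod_cast NeZero.ne N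
    have hℓ : ((ℓ : ℕ) : ℤ) ≠ 0 := by exact_mod_cast NeZero.ne ℓ
    rw [h5] at h4
    rw [Nat.cast_one, mul_one, Int.gcd_one, Nat.cast_one, one_pow, mul_one] at h1
    push_cast at h4
    constructor
    · rw [h1]
      have : (0 : ℤ) < w := by exact_mod_cast hw
      linarith
    · have hNℓ : ((N : ℕ) : ℤ) * (ℓ : ℕ) ≠ 0 := mul_ne_zero hN hℓ
      apply mul_left_cancel₀ hNℓ
      set x1 := W.ord (jd (AlgebraicClosure ℚ) 1 (one_dvd (N * ℓ)))
      set xN := W.ord (jd (AlgebraicClosure ℚ) N (dvd_mul_right N ℓ))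
      set xl := W.ord (jd (AlgebraicClosure ℚ) ℓ (dvd_mul_left ℓ N))
      set xNl := W.ord (jd (AlgebraicClosure ℚ) (N * ℓ) (dvd_refl (N * ℓ)))
      calc (N : ℤ) * ℓ * (xNl * x1) = (xNl * (N * ℓ)) * x1 := by ring
        _ = (xN * N) * (xl * ℓ) := by rw [h4, h1, h2, h3]; ring
        _ = _ := by ring

theorem heckeAlpha_jd (d : ℕ) [NeZero d] (hd : d ∣ N) :
    heckeAlphaBar (AlgebraicClosure ℚ) N ℓ (jd (AlgebraicClosure ℚ) d hd) =
      jd (AlgebraicClosure ℚ) d (hd.trans (dvd_mul_right N ℓ)) :=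
  Subtype.ext (coe_heckeAlphaBar N ℓ _)

theorem heckeBeta_jd (d e : ℕ) [NeZero d] [NeZero e] (hd : d ∣ N) (he : e = d * ℓ)
    (he' : e ∣ N * ℓ) :
    heckeBetaBar (AlgebraicClosure ℚ) N ℓ (jd (AlgebraicClosure ℚ) d hd) =
      jd (AlgebraicClosure ℚ) e he' := by
  apply Subtype.ext
  rw [coe_heckeBetaBar]
  change qExpand _ ℓ (qExpand _ d _) = qExpand _ e _
  have : NeZero (ℓ * d) := ⟨Nat.mul_ne_zero (NeZero.ne ℓ) (NeZero.ne d)⟩
  rw [qExpand_qExpand]
  exact qExpand_congr (by rw [he, mul_comm]) _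

theorem jd_one_eq : jd (AlgebraicClosure ℚ) 1 (one_dvd N) = Fermat.Agent.JRED.jBar N := by
  apply Subtype.ext
  rw [Fermat.Agent.JRED.coe_jBar]
  exact qExpand_one_apply _

theorem jd_self_eq : jd (AlgebraicClosure ℚ) N (dvd_refl N) = jNBar N := by
  apply Subtype.ext
  rw [coe_jNBar]
  rfl

/-- A place of `F_{Nℓ}` above `∞` for `β` is above `∞` for `α`; similarly for `0`. -/
theorem restrict_cusp (hN : N.Prime) (hcop : N.Coprime ℓ)
    (hα : HeckeAlphaBarIntegral (AlgebraicClosure ℚ) N ℓ)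
    (hβ : HeckeBetaBarIntegral (AlgebraicClosure ℚ) N ℓ)
    (W : Place (AlgebraicClosure ℚ) (modularFunctionFieldBar (N * ℓ))) :
    (W.restrictAlong (heckeBetaBar (AlgebraicClosure ℚ) N ℓ) hβ = cuspPlace N →
      W.restrictAlong (heckeAlphaBar (AlgebraicClosure ℚ) N ℓ) hα = cuspPlace N) ∧
    (W.restrictAlong (heckeBetaBar (AlgebraicClosure ℚ) N ℓ) hβ = cuspZero N →
      W.restrictAlong (heckeAlphaBar (AlgebraicClosure ℚ) N ℓ) hα = cuspZero N) := by
  have h := cuspsQ N hN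
  have hN0 : (0 : ℤ) < N := by exact_mod_cast hN.pos
  -- orders
  have ha := ramificationIndexAlong_pos (heckeAlphaBar (AlgebraicClosure ℚ) N ℓ) hα W
  have hb := ramificationIndexAlong_pos (heckeBetaBar (AlgebraicClosure ℚ) N ℓ) hβ W
  have ha' : (0 : ℤ) < W.ramificationIndexAlong (heckeAlphaBar (AlgebraicClosure ℚ) N ℓ) := by
    exact_mod_cast ha
  have hb' : (0 : ℤ) < W.ramificationIndexAlong (heckeBetaBar (AlgebraicClosure ℚ) N ℓ) := by
    exact_mod_cast hb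
  have a1 := Place.ord_restrictAlong (heckeAlphaBar (AlgebraicClosure ℚ) N ℓ) hα W
    (jd (AlgebraicClosure ℚ) 1 (one_dvd N))
  have aN := Place.ord_restrictAlong (heckeAlphaBar (AlgebraicClosure ℚ) N ℓ) hα W
    (jd (AlgebraicClosure ℚ) N (dvd_refl N))
  have b1 := Place.ord_restrictAlong (heckeBetaBar (AlgebraicClosure ℚ) N ℓ) hβ W
    (jd (AlgebraicClosure ℚ) 1 (one_dvd N))
  have bN := Place.ord_restrictAlong (heckeBetaBar (AlgebraicClosure ℚ) N ℓ) hβ W
    (jd (AlgebraicClosure ℚ) N (dvd_refl N))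
  rw [heckeAlpha_jd] at a1 aN
  rw [heckeBeta_jd 1 ℓ (one_dvd N) (one_mul ℓ).symm (dvd_mul_left ℓ N),
    jd_one_eq (N := N)] at b1
  rw [heckeBeta_jd N (N * ℓ) (dvd_refl N) rfl (dvd_refl _), jd_self_eq (N := N)] at bN
  rw [jd_one_eq (N := N)] at a1
  rw [jd_self_eq (N := N)] at aN
  set Wa := W.restrictAlong (heckeAlphaBar (AlgebraicClosure ℚ) N ℓ) hα
  set Wb := W.restrictAlong (heckeBetaBar (AlgebraicClosure ℚ) N ℓ) hβ
  set ea : ℤ := (W.ramificationIndexAlong (heckeAlphaBar (AlgebraicClosure ℚ) N ℓ) : ℤ)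
  set eb : ℤ := (W.ramificationIndexAlong (heckeBetaBar (AlgebraicClosure ℚ) N ℓ) : ℤ)
  have key : Wb.ord (Fermat.Agent.JRED.jBar N) < 0 →
      Wa.ord (Fermat.Agent.JRED.jBar N) < 0 ∧ Wb.ord (jNBar N) * Wa.ord (Fermat.Agent.JRED.jBar N) =
        Wa.ord (jNBar N) * Wb.ord (Fermat.Agent.JRED.jBar N) := by
    intro hneg
    have h1 : W.ord (jd (AlgebraicClosure ℚ) ℓ (dvd_mul_left ℓ N)) < 0 := by
      rw [b1]
      exact mul_neg_of_pos_of_neg hb' hneg
    obtain ⟨h2, h3⟩ := ord_relation hcop W h1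
    have a1' : W.ord (jd (AlgebraicClosure ℚ) 1 (one_dvd (N * ℓ))) =
        ea * Wa.ord (Fermat.Agent.JRED.jBar N) := a1
    have aN' : W.ord (jd (AlgebraicClosure ℚ) N (dvd_mul_right N ℓ)) =
        ea * Wa.ord (jNBar N) := aN
    rw [a1'] at h2
    rw [a1', b1, aN', bN] at h3
    refine ⟨by by_contra hcon; exact absurd (mul_nonneg ha'.le (not_lt.mp hcon)) (not_le.mpr h2), ?_⟩
    have h4 : ea * eb ≠ 0 := mul_ne_zero ha'.ne' hb'.ne'
    apply mul_left_cancel₀ h4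
    linear_combination h3
  constructor
  · intro hb1
    have e1 : Wb.ord (Fermat.Agent.JRED.jBar N) = -1 := by rw [hb1]; exact h.infJ
    have e2 : Wb.ord (jNBar N) = -(N : ℤ) := by rw [hb1]; exact h.infJN
    obtain ⟨k1, k2⟩ := key (by rw [e1]; norm_num)
    rw [e1, e2] at k2
    exact h.eq_ci hN.one_lt k1 (by linarith)
  · intro hb1
    have e1 : Wb.ord (Fermat.Agent.JRED.jBar N) = -(N : ℤ) := by rw [hb1]; exact h.zeroJ
    have e2 : Wb.ord (jNBar N) = -1 := by rw [hb1]; exact h.zeroJN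
    obtain ⟨k1, k2⟩ := key (by rw [e1]; linarith)
    rw [e1, e2] at k2
    exact h.eq_c0 hN.one_lt k1 (by linarith)

/-- `T_ℓ ((0) - (∞)) = (ℓ + 1) ((0) - (∞))`. -/
theorem heckeOperatorAlong_cuspClass (hN : N.Prime) (hℓ : ℓ.Prime) (hne : ℓ ≠ N) :
    heckeOperatorAlong (AlgebraicClosure ℚ) N ℓ (cuspClass N) = (ℓ + 1) • cuspClass N := by
  have hcop : N.Coprime ℓ := (Nat.coprime_primes hN hℓ).mpr (Ne.symm hne)
  have hdvd : ¬ ℓ ∣ N := fun h => hne ((Nat.prime_dvd_prime_iff_eq hℓ hN).mp h)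
  obtain ⟨hα, hβ, hP, hfin, hFI, hNF⟩ :=
    Fermat.Agent.Jan.DegreeWiring.heckeInputsAlong' (AlgebraicClosure ℚ) N ℓ
  rw [heckeOperatorAlong_eq hα hβ hFI hfin hNF, cuspClass, diffClass]
  have hβ' : (heckeBetaBar (AlgebraicClosure ℚ) N ℓ).toRingHom.IsIntegral := hβ
  have hα' : (heckeAlphaBar (AlgebraicClosure ℚ) N ℓ).toRingHom.IsIntegral := hα
  have hFI' : FundamentalIdentityAlong (AlgebraicClosure ℚ)
    (heckeBetaBar (AlgebraicClosure ℚ) N ℓ) hβ' := hFI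
  have h1 : heckePic0Bar hα hβ hFI hfin hNF (Pic0.mk (diffDiv (cuspZero N) (cuspPlace N))) =
      Pic0.mk (Pic0.degZeroCorrespondence (heckeBetaBar (AlgebraicClosure ℚ) N ℓ)
        (heckeAlphaBar (AlgebraicClosure ℚ) N ℓ) hβ' hα' hFI'
          (diffDiv (cuspZero N) (cuspPlace N))) :=
    Pic0.correspondence_mk _ _ _ _ _ _ _ _
  rw [h1]
  have h2 : (ℓ + 1) • Pic0.mk (diffDiv (cuspZero N) (cuspPlace N)) =
      Pic0.mk ((ℓ + 1) • diffDiv (cuspZero N) (cuspPlace N)) := rfl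
  rw [h2]
  congr 1
  apply Subtype.ext
  rw [Pic0.coe_degZeroCorrespondence, AddSubgroup.coe_nsmul, coe_diffDiv, map_sub,
    correspondence_single _ _ hβ' hα' hFI' (cuspZero N)
      (fun W => (restrict_cusp hN hcop hα hβ W).2),
    correspondence_single _ _ hβ' hα' hFI' (cuspPlace N)
      (fun W => (restrict_cusp hN hcop hα hβ W).1),
    Fermat.Agent.JRED.AL.finrankAlong_beta_of_not_dvd (AlgebraicClosure ℚ) N ℓ hℓ hdvd, smul_sub,
    Finsupp.smul_single, Finsupp.smul_single]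
  simp

end Main

section Bar

variable (N : ℕ) [NeZero N]

theorem heckeOperatorBar_cuspClass (hN : N.Prime) (ℓ : Nat.Primes) (hne : (ℓ : ℕ) ≠ N) :
    heckeOperatorBar N ℓ (cuspClass N) = ((ℓ : ℕ) + 1) • cuspClass N := by
  haveI : NeZero (ℓ : ℕ) := ⟨ℓ.2.ne_zero⟩
  rw [heckeOperatorBar_apply]
  exact heckeOperatorAlong_cuspClass hN ℓ.2 hne

end Bar

end Fermat.Agent.Mazur.Cusp
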