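import Mathlib
import Fermat.Agent.Mazur.CuspClass
import Fermat.Prelude.Def_ModularCurve_ReductionModL

/-!
# Reduction of the cusps of `X₀(N)`, `N` prime, and of points near the cusps

Let `A` be a valuation ring of `ℚ̄` with residue map `π : A → k` (surjective), `N ≠ 0` in `k`, and
`r` a place reduction. Then `r ∞ = ∞`, `r 0 = 0`, and a place `v` with `j(v) = a ∉ A`,
`j_N(v) = b` reduces to `∞` if `a / b^N ∈ m_A`, to `0` if `b / a^N ∈ m_A`.
-/

set_option autoImplicit false
set_option linter.unusedSectionVars false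

noncomputable section

open AlgebraicCurve ModularCurve IntermediateField Fermat.Agent.RR
open scoped Pointwise

namespace Fermat.Agent.Mazur.Cusp

section MapDomain

variable {X Y : Type*}

theorem mapDomain_apply_ge (r : X → Y) (D : X →₀ ℤ) (x : X)
    (h : ∀ x', r x' = r x → 0 ≤ D x') : D x ≤ Finsupp.mapDomain r D (r x) := by
  classical
  rw [Finsupp.mapDomain, Finsupp.sum, Finsupp.finsetSum_apply]
  by_cases hx : x ∈ D.support
  · have h1 : D x = (Finsupp.single (r x) (D x) : Y →₀ ℤ) (r x) := by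
      rw [Finsupp.single_eq_same]
    conv_lhs => rw [h1]
    refine Finset.single_le_sum (f := fun x' => (Finsupp.single (r x') (D x') : Y →₀ ℤ) (r x))
      (fun x' _ => ?_) hx
    rw [Finsupp.single_apply]
    split_ifs with h2
    · exact h x' h2
    · exact le_rfl
  · rw [Finsupp.notMem_support_iff.mp hx]
    refine Finset.sum_nonneg fun x' _ => ?_
    rw [Finsupp.single_apply]
    split_ifs with h2
    · exact h x' h2
    · exact le_rfl

theorem mapDomain_apply_nonneg (r : X → Y) (D : X →₀ ℤ) (y : Y)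
    (h : ∀ x', r x' = y → 0 ≤ D x') : 0 ≤ Finsupp.mapDomain r D y := by
  classical
  rw [Finsupp.mapDomain, Finsupp.sum, Finsupp.finsetSum_apply]
  refine Finset.sum_nonneg fun x' _ => ?_
  rw [Finsupp.single_apply]
  split_ifs with h2
  · exact h x' h2
  · exact le_rfl

end MapDomain

section Red

variable {N : ℕ} {A : ValuationSubring (AlgebraicClosure ℚ)} {k : Type} [Field k] (π : A →+* k)

/-- `f` has `A`-integral `q`-expansion with reduction `fbar`. -/
def Red (f : modularFunctionFieldBar N) (fbar : modularFunctionFieldFullC k N) : Prop :=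
  ∃ y : LaurentSeries A, coeffMap A.subtype y = (f : LaurentSeries (AlgebraicClosure ℚ)) ∧
    coeffMap π y = (fbar : LaurentSeries k)

variable {π}

namespace Red

variable {f g : modularFunctionFieldBar N} {fb gb : modularFunctionFieldFullC k N}

theorem add (hf : Red π f fb) (hg : Red π g gb) : Red π (f + g) (fb + gb) := by
  obtain ⟨y, h1, h2⟩ := hf
  obtain ⟨z, h3, h4⟩ := hg
  exact ⟨y + z, by rw [map_add, h1, h3]; rfl, by rw [map_add, h2, h4]; rfl⟩

theorem mul (hf : Red π f fb) (hg : Red π g gb) : Red π (f * g) (fb * gb) := by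
  obtain ⟨y, h1, h2⟩ := hf
  obtain ⟨z, h3, h4⟩ := hg
  exact ⟨y * z, by rw [map_mul, h1, h3]; rfl, by rw [map_mul, h2, h4]; rfl⟩

theorem neg (hf : Red π f fb) : Red π (-f) (-fb) := by
  obtain ⟨y, h1, h2⟩ := hf
  exact ⟨-y, by rw [map_neg, h1]; rfl, by rw [map_neg, h2]; rfl⟩

theorem sub (hf : Red π f fb) (hg : Red π g gb) : Red π (f - g) (fb - gb) := by
  rw [sub_eq_add_neg, sub_eq_add_neg]
  exact hf.add hg.neg

theorem one : Red π (1 : modularFunctionFieldBar N) (1 : modularFunctionFieldFullC k N) :=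
  ⟨1, by rw [map_one]; rfl, by rw [map_one]; rfl⟩

theorem pow (hf : Red π f fb) (n : ℕ) : Red π (f ^ n) (fb ^ n) := by
  induction n with
  | zero => rw [pow_zero, pow_zero]; exact one
  | succ n ih => rw [pow_succ, pow_succ]; exact ih.mul hf

theorem const (c : AlgebraicClosure ℚ) (hc : c ∈ A) :
    Red π (algebraMap (AlgebraicClosure ℚ) (modularFunctionFieldBar N) c)
      (algebraMap k (modularFunctionFieldFullC k N) (π ⟨c, hc⟩)) := by
  refine ⟨HahnSeries.single 0 ⟨c, hc⟩, ?_, ?_⟩
  · rw [coeffMap_single]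
    exact (algebraMap_laurentSeries_eq_single _ _).symm
  · rw [coeffMap_single]
    exact (algebraMap_laurentSeries_eq_single _ _).symm

theorem jBar : Red π (Fermat.Agent.JRED.jBar N) (Fermat.Agent.JRED.jRed k N) :=
  ⟨jqModC A, by rw [coeffMap_jqModC, Fermat.Agent.JRED.coe_jBar], coeffMap_jqModC π⟩

theorem jNBar [NeZero N] : Red π (jNBar N) (jNC k N) :=
  ⟨qExpand A N (jqModC A), by rw [coeffMap_qExpand, coeffMap_jqModC, coe_jNBar],
    by rw [coeffMap_qExpand, coeffMap_jqModC]; rfl⟩

end Red

section Main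

variable {r : Place (AlgebraicClosure ℚ) (modularFunctionFieldBar N) →
  Place k (modularFunctionFieldFullC k N)}

/-- The divisor formula. -/
theorem mapDomain_divOf [NeZero N] (hr : IsPlaceReductionAlong A π N r)
    {f : modularFunctionFieldBar N} {fb : modularFunctionFieldFullC k N} (h : Red π f fb)
    (hfb : fb ≠ 0) (Q : Place k (modularFunctionFieldFullC k N)) :
    Finsupp.mapDomain r (divOf (K := AlgebraicClosure ℚ) f) Q = Q.ord fb := by
  obtain ⟨y, h1, h2⟩ := h
  have hy : coeffMap A.subtype y ∈ modularFunctionFieldBar N := by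
    rw [h1]; exact f.2
  have hyk : coeffMap π y ∈ modularFunctionFieldFullC k N := by
    rw [h2]; exact fb.2
  have e1 : (⟨coeffMap A.subtype y, hy⟩ : modularFunctionFieldBar N) = f := Subtype.ext h1
  have e2 : (⟨coeffMap π y, hyk⟩ : modularFunctionFieldFullC k N) = fb := Subtype.ext h2
  have h3 := hr.2 y hy hyk (by rw [h2]; exact fun h0 => hfb (Subtype.ext h0))
    (divOf (K := AlgebraicClosure ℚ) f) (fun P => by rw [divOf_apply]; rw [← e1]) Q
  rw [e2] at h3
  exact h3

theorem ord_neg_one (Q : Place k (modularFunctionFieldFullC k N)) :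
    Q.ord (-1 : modularFunctionFieldFullC k N) = 0 := by
  rw [ord_neg, Place.ord_one]

theorem map_eq_zero_of_inv {L : Type*} [Field L] {A : ValuationSubring L} {k : Type*} [Field k]
    {π : A →+* k} (hπ : Function.Surjective π) {c : L} (hc : c ∈ A)
    (h : c⁻¹ ∉ A) : π ⟨c, hc⟩ = 0 := by
  have h1 : (RingHom.ker π).IsMaximal := RingHom.ker_isMaximal_of_surjective π hπ
  rw [← RingHom.mem_ker, IsLocalRing.eq_maximalIdeal h1, IsLocalRing.mem_maximalIdeal,
    mem_nonunits_iff]
  intro hu
  obtain ⟨b, hb⟩ := isUnit_iff_exists_inv.mp hu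
  apply h
  have hb' : c * (b : L) = 1 := congrArg Subtype.val hb
  rw [← eq_inv_of_mul_eq_one_right hb']
  exact b.2

/-- **Value compatibility.** If `f` is regular at all places above `Q = r v` and `f(v) = c`,
then `c ∈ A` and `fbar(Q) = c mod m_A`. -/
theorem value_compat [NeZero N] (hr : IsPlaceReductionAlong A π N r)
    (hπ : Function.Surjective π)
    {f : modularFunctionFieldBar N} {fb : modularFunctionFieldFullC k N} (h : Red π f fb)
    {v : Place (AlgebraicClosure ℚ) (modularFunctionFieldBar N)}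
    (hreg : ∀ v', r v' = r v → 0 ≤ v'.ord f) {c : AlgebraicClosure ℚ}
    (hc : 0 < v.ord (f - algebraMap (AlgebraicClosure ℚ) (modularFunctionFieldBar N) c)) :
    ∃ hcA : c ∈ A, fb - algebraMap k (modularFunctionFieldFullC k N) (π ⟨c, hcA⟩) = 0 ∨
      0 < (r v).ord (fb - algebraMap k (modularFunctionFieldFullC k N) (π ⟨c, hcA⟩)) := by
  have hreg' : ∀ v', r v' = r v → ∀ a : AlgebraicClosure ℚ,
      0 ≤ v'.ord (f - algebraMap (AlgebraicClosure ℚ) (modularFunctionFieldBar N) a) := by
    intro v' hv' a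
    apply ord_nonneg_of_mem
    exact sub_mem (mem_of_ord_nonneg _ (hreg v' hv')) (v'.algebraMap_mem' a)
  by_cases hcA : c ∈ A
  · refine ⟨hcA, ?_⟩
    by_cases h0 : fb - algebraMap k (modularFunctionFieldFullC k N) (π ⟨c, hcA⟩) = 0
    · exact Or.inl h0
    · right
      rw [← mapDomain_divOf hr (h.sub (Red.const c hcA)) h0]
      refine lt_of_lt_of_le ?_ (mapDomain_apply_ge r _ v fun v' hv' => ?_)
      · rw [divOf_apply]
        exact hc
      · rw [divOf_apply]
        exact hreg' v' hv' c
  · exfalso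
    have hc0 : c ≠ 0 := by
      rintro rfl
      exact hcA (zero_mem _)
    have hci : c⁻¹ ∈ A := (A.mem_or_inv_mem c).resolve_left hcA
    have hci' : π ⟨c⁻¹, hci⟩ = 0 := map_eq_zero_of_inv hπ hci (by rwa [inv_inv])
    -- `c⁻¹ f - 1` reduces to `-1`
    have hred := ((Red.const (π := π) (N := N) c⁻¹ hci).mul h).sub Red.one
    rw [hci', map_zero, zero_mul, zero_sub] at hred
    have e1 : algebraMap (AlgebraicClosure ℚ) (modularFunctionFieldBar N) c⁻¹ * f - 1 =
        algebraMap (AlgebraicClosure ℚ) (modularFunctionFieldBar N) c⁻¹ *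
          (f - algebraMap (AlgebraicClosure ℚ) (modularFunctionFieldBar N) c) := by
      rw [mul_sub, ← map_mul, inv_mul_cancel₀ hc0, map_one]
    rw [e1] at hred
    have h1 := mapDomain_divOf hr hred (neg_ne_zero.mpr one_ne_zero) (r v)
    rw [ord_neg_one] at h1
    have hord : ∀ v' : Place (AlgebraicClosure ℚ) (modularFunctionFieldBar N),
        v'.ord (algebraMap (AlgebraicClosure ℚ) (modularFunctionFieldBar N) c⁻¹ *
          (f - algebraMap (AlgebraicClosure ℚ) (modularFunctionFieldBar N) c)) =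
        v'.ord (f - algebraMap (AlgebraicClosure ℚ) (modularFunctionFieldBar N) c) := by
      intro v'
      rw [← Algebra.smul_def, ord_smul _ (inv_ne_zero hc0)]
    have h2 := mapDomain_apply_ge r (divOf (K := AlgebraicClosure ℚ)
      (algebraMap (AlgebraicClosure ℚ) (modularFunctionFieldBar N) c⁻¹ *
          (f - algebraMap (AlgebraicClosure ℚ) (modularFunctionFieldBar N) c))) v
      (fun v' hv' => by
        rw [divOf_apply, hord]
        exact hreg' v' hv' c)
    rw [h1, divOf_apply, hord] at h2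
    omega

/-- zeros minus the two poles of `j` -/
theorem exists_zeros [NeZero N] (hN : N.Prime) {f : modularFunctionFieldBar N}
    (hf : ∀ v : Place (AlgebraicClosure ℚ) (modularFunctionFieldBar N),
      v ≠ cuspPlace N → v ≠ cuspZero N → 0 ≤ v.ord f)
    (h1 : (cuspPlace N).ord f = -1) (h2 : (cuspZero N).ord f = -(N : ℤ)) :
    ∃ Z : Divisor (AlgebraicClosure ℚ) (modularFunctionFieldBar N), 0 ≤ Z ∧
      (∀ v, 0 < v.ord f → 0 < Z v) ∧
      divOf (K := AlgebraicClosure ℚ) f = Z - Finsupp.single (cuspPlace N) 1 -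
        Finsupp.single (cuspZero N) (N : ℤ) := by
  classical
  have hne := (cuspsQ N hN).ne hN.one_lt
  have key : ∀ v, (divOf (K := AlgebraicClosure ℚ) f + Finsupp.single (cuspPlace N) 1 +
      Finsupp.single (cuspZero N) (N : ℤ) :
        Divisor (AlgebraicClosure ℚ) (modularFunctionFieldBar N)) v = v.ord f + (if cuspPlace N = v then 1 else 0) +
        (if cuspZero N = v then (N : ℤ) else 0) := by
    intro v
    rw [Finsupp.add_apply, Finsupp.add_apply, divOf_apply, Finsupp.single_apply,
      Finsupp.single_apply]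
  refine ⟨divOf (K := AlgebraicClosure ℚ) f + Finsupp.single (cuspPlace N) 1 +
    Finsupp.single (cuspZero N) (N : ℤ), ?_, ?_, ?_⟩
  · intro v
    rw [key v, Finsupp.coe_zero, Pi.zero_apply]
    by_cases hv : cuspPlace N = v
    · subst hv
      rw [if_pos rfl, if_neg (Ne.symm hne), h1]
      norm_num
    · by_cases hv' : cuspZero N = v
      · subst hv'
        rw [if_neg hv, if_pos rfl, h2]
        simp
      · rw [if_neg hv, if_neg hv']
        have := hf v (Ne.symm hv) (Ne.symm hv')
        omega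
  · intro v hv
    rw [key v]
    have e1 : (0 : ℤ) ≤ if cuspPlace N = v then 1 else 0 := by split_ifs <;> norm_num
    have e2 : (0 : ℤ) ≤ if cuspZero N = v then (N : ℤ) else 0 := by split_ifs <;> simp
    omega
  · abel

theorem mapDomain_sub_apply {X Y : Type*} [DecidableEq Y] (r : X → Y) (Z : X →₀ ℤ) (a b : X)
    (n : ℤ) (y : Y) :
    Finsupp.mapDomain r (Z - Finsupp.single a 1 - Finsupp.single b n) y =
      Finsupp.mapDomain r Z y - (if r a = y then 1 else 0) - (if r b = y then n else 0) := by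
  rw [← Finsupp.mapDomain.addMonoidHom_apply, map_sub, map_sub,
    Finsupp.mapDomain.addMonoidHom_apply, Finsupp.mapDomain.addMonoidHom_apply,
    Finsupp.mapDomain.addMonoidHom_apply, Finsupp.mapDomain_single, Finsupp.mapDomain_single,
    Finsupp.sub_apply, Finsupp.sub_apply, Finsupp.single_apply, Finsupp.single_apply]

/-- **Reduction of the cusps.** -/
theorem red_cusps [NeZero N] [IsAlgClosed k] (hN : N.Prime) (hk : (N : k) ≠ 0)
    (hr : IsPlaceReductionAlong A π N r) :
    r (cuspPlace N) = cuspPlaceC k N ∧ r (cuspZero N) = cuspZeroC k N hk := by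
  classical
  have h := cuspsQ N hN
  have hC := cuspsC k N hN hk
  have hneC := hC.ne hN.one_lt
  have hN2 : (2 : ℤ) ≤ N := by exact_mod_cast hN.two_le
  obtain ⟨Z, hZ, -, hD⟩ := exists_zeros hN (f := Fermat.Agent.JRED.jBar N) (fun v h1 h2 => by
    by_contra hcon
    rcases h.poleJ v (by omega) with h3 | h3
    · exact h1 h3
    · exact h2 h3) h.infJ h.zeroJ
  have hred : Red π (Fermat.Agent.JRED.jBar N) (Fermat.Agent.JRED.jRed k N) := Red.jBar
  have hne0 : Fermat.Agent.JRED.jRed k N ≠ 0 := by
    intro h0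
    exact Fermat.Agent.JRED.transcendental_jRed k N (by rw [h0]; exact isAlgebraic_zero)
  have e1 := mapDomain_divOf hr hred hne0 (cuspPlaceC k N)
  have e2 := mapDomain_divOf hr hred hne0 (cuspZeroC k N hk)
  rw [hD, mapDomain_sub_apply, hC.infJ] at e1
  rw [hD, mapDomain_sub_apply, hC.zeroJ] at e2
  have p1 := mapDomain_apply_nonneg r Z (cuspPlaceC k N) (fun v _ => hZ v)
  have p2 := mapDomain_apply_nonneg r Z (cuspZeroC k N hk) (fun v _ => hZ v)
  have f2 : r (cuspZero N) = cuspZeroC k N hk := by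
    by_contra hcon
    rw [if_neg hcon] at e2
    split_ifs at e2 <;> omega
  have f1 : r (cuspPlace N) = cuspPlaceC k N := by
    by_contra hcon
    rw [if_neg hcon, f2, if_neg (Ne.symm hneC)] at e1
    omega
  exact ⟨f1, f2⟩

/-- A point with non-integral `j` reduces to a cusp. -/
theorem red_of_not_mem [NeZero N] [IsAlgClosed k] (hπ : Function.Surjective π) (hN : N.Prime)
    (hk : (N : k) ≠ 0) (hr : IsPlaceReductionAlong A π N r)
    {v : Place (AlgebraicClosure ℚ) (modularFunctionFieldBar N)} {a : AlgebraicClosure ℚ}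
    (ha : a ∉ A) (hv : 0 < v.ord (Fermat.Agent.JRED.jBar N -
      algebraMap (AlgebraicClosure ℚ) (modularFunctionFieldBar N) a)) :
    r v = cuspPlaceC k N ∨ r v = cuspZeroC k N hk := by
  classical
  have h := cuspsQ N hN
  obtain ⟨rc1, rc2⟩ := red_cusps hN hk hr
  have ha0 : a ≠ 0 := by
    rintro rfl
    exact ha (zero_mem _)
  have hai : a⁻¹ ∈ A := (A.mem_or_inv_mem a).resolve_left ha
  have hai' : π ⟨a⁻¹, hai⟩ = 0 := map_eq_zero_of_inv hπ hai (by rwa [inv_inv])
  have hred := ((Red.const (π := π) (N := N) a⁻¹ hai).mul Red.jBar).sub Red.one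
  rw [hai', map_zero, zero_mul, zero_sub] at hred
  set f := algebraMap (AlgebraicClosure ℚ) (modularFunctionFieldBar N) a⁻¹ *
    Fermat.Agent.JRED.jBar N - 1 with hf
  have e1 : f = a⁻¹ • (Fermat.Agent.JRED.jBar N -
      algebraMap (AlgebraicClosure ℚ) (modularFunctionFieldBar N) a) := by
    rw [hf, Algebra.smul_def, mul_sub, ← map_mul, inv_mul_cancel₀ ha0, map_one]
  have hord : ∀ v' : Place (AlgebraicClosure ℚ) (modularFunctionFieldBar N),
      v'.ord f = v'.ord (Fermat.Agent.JRED.jBar N -
        algebraMap (AlgebraicClosure ℚ) (modularFunctionFieldBar N) a) := by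
    intro v'
    rw [e1, ord_smul _ (inv_ne_zero ha0)]
  have hpole : ∀ v' : Place (AlgebraicClosure ℚ) (modularFunctionFieldBar N),
      v'.ord (Fermat.Agent.JRED.jBar N) < 0 → v'.ord f = v'.ord (Fermat.Agent.JRED.jBar N) := by
    intro v' hv'
    rw [hord, sub_eq_add_neg]
    have hj0 : Fermat.Agent.JRED.jBar N ≠ 0 := by
      intro h0
      rw [h0, Place.ord_zero] at hv'
      exact lt_irrefl _ hv'
    apply ord_add_eq_of_lt _ hj0
    right
    rw [ord_neg, ord_algebraMap]
    exact hv'
  obtain ⟨Z, hZ, hZv, hD⟩ := exists_zeros hN (f := f) (fun v' h1 h2 => by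
    rw [hord]
    apply ord_nonneg_of_mem
    refine sub_mem (mem_of_ord_nonneg _ ?_) (v'.algebraMap_mem' a)
    by_contra hcon
    rcases h.poleJ v' (by omega) with h3 | h3
    · exact h1 h3
    · exact h2 h3)
    (by rw [hpole _ (by rw [h.infJ]; norm_num), h.infJ])
    (by
      have := hN.one_lt
      rw [hpole _ (by rw [h.zeroJ]; omega), h.zeroJ])
  have e2 := mapDomain_divOf hr hred (neg_ne_zero.mpr one_ne_zero) (r v)
  rw [hD, mapDomain_sub_apply, ord_neg_one] at e2
  have e3 : 0 < Z v := hZv v (by rw [hord]; exact hv)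
  have e4 := mapDomain_apply_ge r Z v (fun v' _ => hZ v')
  by_contra hcon
  rw [not_or] at hcon
  rw [rc1, rc2, if_neg (Ne.symm hcon.1), if_neg (Ne.symm hcon.2)] at e2
  omega

/-- positivity of the order of a polynomial combination -/
theorem ord_pos_combo {K F : Type*} [Field K] [Field F] [Algebra K F] (v : Place K F) {x y : F}
    {a b e : K} (n : ℕ) (hx : 0 < v.ord (x - algebraMap K F a))
    (hy : 0 < v.ord (y - algebraMap K F b)) (he : a = e * b ^ n)
    (hne : x - algebraMap K F e * y ^ n ≠ 0) :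
    0 < v.ord (x - algebraMap K F e * y ^ n) := by
  have hyv : y ∈ v.toValuationSubring := by
    have h1 : y = (y - algebraMap K F b) + algebraMap K F b := by ring
    rw [h1]
    exact add_mem (mem_of_ord_nonneg _ hy.le) (v.algebraMap_mem' b)
  set s := ∑ i ∈ Finset.range n, y ^ i * (algebraMap K F b) ^ (n - 1 - i) with hs
  have hsv : s ∈ v.toValuationSubring :=
    sum_mem fun i _ => mul_mem (pow_mem hyv _) (pow_mem (v.algebraMap_mem' b) _)
  have h1 : (y - algebraMap K F b) * s = y ^ n - (algebraMap K F b) ^ n := by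
    rw [hs]
    exact (Commute.all _ _).mul_geom_sum₂ n
  have h2 : x - algebraMap K F e * y ^ n = (x - algebraMap K F a) -
      algebraMap K F e * ((y - algebraMap K F b) * s) := by
    rw [h1, he, map_mul, map_pow]
    ring
  rw [h2] at hne ⊢
  by_cases h0 : algebraMap K F e * ((y - algebraMap K F b) * s) = 0
  · rw [h0, sub_zero]
    exact hx
  · have he0 : algebraMap K F e ≠ 0 := left_ne_zero_of_mul h0
    have hys : (y - algebraMap K F b) * s ≠ 0 := right_ne_zero_of_mul h0
    have h3 : 0 < v.ord (algebraMap K F e * ((y - algebraMap K F b) * s)) := by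
      rw [v.ord_mul he0 hys, v.ord_mul (left_ne_zero_of_mul hys) (right_ne_zero_of_mul hys),
        ord_algebraMap]
      have := ord_nonneg_of_mem _ hsv
      omega
    exact lt_of_lt_of_le (lt_min hx h3) (ord_sub _ hne)

theorem Red.eq_zero_of_eq_zero {f : modularFunctionFieldBar N}
    {fb : modularFunctionFieldFullC k N} (h : Red π f fb) (hf : f = 0) : fb = 0 := by
  obtain ⟨y, h1, h2⟩ := h
  rw [hf] at h1
  have h3 : y = 0 := by
    ext n
    have h4 := congrArg (fun x : LaurentSeries (AlgebraicClosure ℚ) => x.coeff n) h1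
    have h5 : ((y.coeff n : A) : AlgebraicClosure ℚ) = 0 := h4
    rw [HahnSeries.coeff_zero, h5, ZeroMemClass.coe_zero]
  apply Subtype.ext
  rw [← h2, h3, map_zero]
  rfl

/-- The key step for points near the cusps. -/
theorem red_ne [NeZero N] (hN : N.Prime) (hr : IsPlaceReductionAlong A π N r)
    {f g : modularFunctionFieldBar N} {fb gb : modularFunctionFieldFullC k N}
    {ci c0 : Place (AlgebraicClosure ℚ) (modularFunctionFieldBar N)}
    {Ci C0 : Place k (modularFunctionFieldFullC k N)} (h : Cusps N f g ci c0)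
    (hC : Cusps N fb gb Ci C0) (hf : Red π f fb) (hg : Red π g gb) (h1 : r ci = Ci)
    {v : Place (AlgebraicClosure ℚ) (modularFunctionFieldBar N)}
    {a b e : AlgebraicClosure ℚ} (he : e ∈ A) (he' : π ⟨e, he⟩ = 0)
    (ha : 0 < v.ord (f - algebraMap (AlgebraicClosure ℚ) (modularFunctionFieldBar N) a))
    (hb : 0 < v.ord (g - algebraMap (AlgebraicClosure ℚ) (modularFunctionFieldBar N) b))
    (hab : a = e * b ^ N) : r v ≠ C0 := by
  classical
  intro hv
  have hN2 := hN.two_le
  have hneC := hC.ne hN.one_lt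
  have hfb0 : fb ≠ 0 := by
    rintro rfl
    have := hC.infJ
    rw [Place.ord_zero] at this
    norm_num at this
  have hred := hf.sub ((Red.const (π := π) (N := N) e he).mul (hg.pow N))
  rw [he', map_zero, zero_mul, sub_zero] at hred
  set G := f - algebraMap (AlgebraicClosure ℚ) (modularFunctionFieldBar N) e * g ^ N with hG
  have hG0 : G ≠ 0 := fun h0 => hfb0 (hred.eq_zero_of_eq_zero h0)
  have hGv : 0 < v.ord G := ord_pos_combo v N ha hb hab hG0
  have hf0 : f ≠ 0 := fun h0 => hfb0 (hf.eq_zero_of_eq_zero h0)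
  -- regularity away from the cusps
  have hreg : ∀ v' : Place (AlgebraicClosure ℚ) (modularFunctionFieldBar N),
      v' ≠ ci → v' ≠ c0 → 0 ≤ v'.ord G := by
    intro v' h2 h3
    apply ord_nonneg_of_mem
    have hf' : f ∈ v'.toValuationSubring := by
      apply mem_of_ord_nonneg
      by_contra hcon
      rcases h.poleJ v' (by omega) with h4 | h4
      · exact h2 h4
      · exact h3 h4
    have hg' : g ∈ v'.toValuationSubring := by
      apply mem_of_ord_nonneg
      by_contra hcon
      rcases h.poleJN v' (by omega) with h4 | h4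
      · exact h2 h4
      · exact h3 h4
    exact sub_mem hf' (mul_mem (v'.algebraMap_mem' e) (pow_mem hg' _))
  have hc0 : -(N : ℤ) ≤ c0.ord G := by
    by_cases h0 : algebraMap (AlgebraicClosure ℚ) (modularFunctionFieldBar N) e * g ^ N = 0
    · rw [hG, h0, sub_zero, h.zeroJ]
    · refine le_trans (le_min ?_ ?_) (ord_sub _ hG0)
      · rw [h.zeroJ]
      · rw [c0.ord_mul (left_ne_zero_of_mul h0) (right_ne_zero_of_mul h0), ord_algebraMap,
          ord_pow, h.zeroJN]
        omega
  have hvc0 : v ≠ c0 := by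
    rintro rfl
    have h2 : v.ord (f - algebraMap (AlgebraicClosure ℚ) (modularFunctionFieldBar N) a) =
        -(N : ℤ) := by
      rw [sub_eq_add_neg, ord_add_eq_of_lt v hf0, h.zeroJ]
      right
      rw [ord_neg, ord_algebraMap, h.zeroJ]
      omega
    rw [h2] at ha
    omega
  have e1 := mapDomain_divOf hr hred hfb0 C0
  rw [hC.zeroJ] at e1
  have e2 := mapDomain_apply_nonneg r (divOf (K := AlgebraicClosure ℚ) G +
    Finsupp.single c0 (N : ℤ) - Finsupp.single v 1) C0 (fun v' hv' => by
      rw [Finsupp.sub_apply, Finsupp.add_apply, divOf_apply, Finsupp.single_apply,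
        Finsupp.single_apply]
      have h2 : v' ≠ ci := by
        rintro rfl
        exact hneC (h1.symm.trans hv')
      by_cases h3 : c0 = v'
      · subst h3
        rw [if_pos rfl, if_neg hvc0]
        omega
      · rw [if_neg h3]
        split_ifs with h4
        · subst h4
          omega
        · have := hreg v' h2 (Ne.symm h3)
          omega)
  rw [← Finsupp.mapDomain.addMonoidHom_apply, map_sub, map_add,
    Finsupp.mapDomain.addMonoidHom_apply, Finsupp.mapDomain.addMonoidHom_apply,
    Finsupp.mapDomain.addMonoidHom_apply, Finsupp.mapDomain_single, Finsupp.mapDomain_single,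
    Finsupp.sub_apply, Finsupp.add_apply, e1, Finsupp.single_apply, Finsupp.single_apply,
    if_pos hv] at e2
  split_ifs at e2 <;> omega

section Near

variable [NeZero N] [IsAlgClosed k] (hπ : Function.Surjective π) (hN : N.Prime)
  (hk : (N : k) ≠ 0) (hr : IsPlaceReductionAlong A π N r)
  {v : Place (AlgebraicClosure ℚ) (modularFunctionFieldBar N)} {a b : AlgebraicClosure ℚ}
  (ha : a ∉ A)
  (hva : 0 < v.ord (Fermat.Agent.JRED.jBar N -
    algebraMap (AlgebraicClosure ℚ) (modularFunctionFieldBar N) a))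
  (hvb : 0 < v.ord (Cusp.jNBar N -
    algebraMap (AlgebraicClosure ℚ) (modularFunctionFieldBar N) b))

include hπ hN hk hr ha hva hvb

/-- **Points near `∞`**: if `j(v) = a ∉ A` and `a = e b^N` with `e ∈ m_A` then `v` reduces
to `∞`. -/
theorem red_eq_inf {e : AlgebraicClosure ℚ} (he : e ∈ A) (he' : π ⟨e, he⟩ = 0)
    (hab : a = e * b ^ N) : r v = cuspPlaceC k N := by
  obtain ⟨rc1, rc2⟩ := red_cusps hN hk hr
  refine (red_of_not_mem hπ hN hk hr ha hva).resolve_right ?_
  exact red_ne hN hr (cuspsQ N hN) (cuspsC k N hN hk) Red.jBar Red.jNBar rc1 he he' hva hvb hab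

/-- **Points near `0`**: if `j(v) = a ∉ A` and `b = e a^N` with `e ∈ m_A` then `v` reduces
to `0`. -/
theorem red_eq_zero {e : AlgebraicClosure ℚ} (he : e ∈ A) (he' : π ⟨e, he⟩ = 0)
    (hab : b = e * a ^ N) : r v = cuspZeroC k N hk := by
  obtain ⟨rc1, rc2⟩ := red_cusps hN hk hr
  refine (red_of_not_mem hπ hN hk hr ha hva).resolve_left ?_
  exact red_ne hN hr (cuspsQ N hN).symm (cuspsC k N hN hk).symm Red.jNBar Red.jBar rc2 he he'
    hvb hva hab

/-- Points near `∞`, with valuations. -/
theorem red_eq_inf_of_valuation (hv : A.valuation b = A.valuation a ^ N) :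
    r v = cuspPlaceC k N := by
  have ha0 : a ≠ 0 := by
    rintro rfl
    exact ha (zero_mem _)
  have hva0 : A.valuation a ≠ 0 := (Valuation.ne_zero_iff _).mpr ha0
  have ha1 : 1 < A.valuation a := by
    rw [← not_le, A.valuation_le_one_iff]
    exact ha
  have hb0 : b ≠ 0 := by
    rintro rfl
    rw [map_zero] at hv
    exact pow_ne_zero N hva0 hv.symm
  have hbN : b ^ N ≠ 0 := pow_ne_zero N hb0
  have he0 : a / b ^ N ≠ 0 := div_ne_zero ha0 hbN
  have hNN : 1 < N * N := by
    have := hN.one_lt
    nlinarith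
  have h1 : A.valuation (a / b ^ N) < 1 := by
    rw [map_div₀, map_pow, hv, ← pow_mul, div_lt_one₀ (pow_pos (zero_lt_iff.mpr hva0) _)]
    calc A.valuation a = A.valuation a ^ 1 := (pow_one _).symm
      _ < A.valuation a ^ (N * N) := pow_lt_pow_right₀ ha1 hNN
  have h2 : a / b ^ N ∈ A := (A.valuation_le_one_iff _).mp h1.le
  refine red_eq_inf hπ hN hk hr ha hva hvb h2 (map_eq_zero_of_inv hπ h2 fun h3 => ?_)
    (div_mul_cancel₀ _ hbN).symm
  have h4 := (A.valuation_le_one_iff _).mpr h3
  rw [map_inv₀, inv_le_one₀ (zero_lt_iff.mpr ((Valuation.ne_zero_iff _).mpr he0))] at h4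
  exact absurd h1 (not_lt.mpr h4)

/-- Points near `0`, with valuations. -/
theorem red_eq_zero_of_valuation (hv : A.valuation b ^ N = A.valuation a) :
    r v = cuspZeroC k N hk := by
  have ha0 : a ≠ 0 := by
    rintro rfl
    exact ha (zero_mem _)
  have hva0 : A.valuation a ≠ 0 := (Valuation.ne_zero_iff _).mpr ha0
  have ha1 : 1 < A.valuation a := by
    rw [← not_le, A.valuation_le_one_iff]
    exact ha
  have hb0 : b ≠ 0 := by
    rintro rfl
    rw [map_zero, zero_pow hN.ne_zero] at hv
    exact hva0 hv.symm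
  have hvb0 : A.valuation b ≠ 0 := (Valuation.ne_zero_iff _).mpr hb0
  have hb1 : 1 < A.valuation b := by
    rw [← hv] at ha1
    by_contra hcon
    exact absurd (pow_le_one₀ zero_le (not_lt.mp hcon)) (not_le.mpr ha1)
  have haN : a ^ N ≠ 0 := pow_ne_zero N ha0
  have he0 : b / a ^ N ≠ 0 := div_ne_zero hb0 haN
  have hNN : 1 < N * N := by
    have := hN.one_lt
    nlinarith
  have h1 : A.valuation (b / a ^ N) < 1 := by
    rw [map_div₀, map_pow, ← hv, ← pow_mul, div_lt_one₀ (pow_pos (zero_lt_iff.mpr hvb0) _)]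
    calc A.valuation b = A.valuation b ^ 1 := (pow_one _).symm
      _ < A.valuation b ^ (N * N) := pow_lt_pow_right₀ hb1 hNN
  have h2 : b / a ^ N ∈ A := (A.valuation_le_one_iff _).mp h1.le
  refine red_eq_zero hπ hN hk hr ha hva hvb h2 (map_eq_zero_of_inv hπ h2 fun h3 => ?_)
    (div_mul_cancel₀ _ haN).symm
  have h4 := (A.valuation_le_one_iff _).mpr h3
  rw [map_inv₀, inv_le_one₀ (zero_lt_iff.mpr ((Valuation.ne_zero_iff _).mpr he0))] at h4
  exact absurd h1 (not_lt.mpr h4)

end Near

/-- A point with integral `j` reduces to a non-cuspidal point, with the reduced value of `j`. -/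
theorem red_of_mem [NeZero N] [IsAlgClosed k] (hN : N.Prime)
    (hk : (N : k) ≠ 0) (hr : IsPlaceReductionAlong A π N r)
    {v : Place (AlgebraicClosure ℚ) (modularFunctionFieldBar N)} {a : AlgebraicClosure ℚ}
    (ha : a ∈ A) (hv : 0 < v.ord (Fermat.Agent.JRED.jBar N -
      algebraMap (AlgebraicClosure ℚ) (modularFunctionFieldBar N) a)) :
    0 < (r v).ord (Fermat.Agent.JRED.jRed k N -
      algebraMap k (modularFunctionFieldFullC k N) (π ⟨a, ha⟩)) := by
  classical
  have htr := Fermat.Agent.JRED.transcendental_jRed k N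
  have hne : ∀ c : k, Fermat.Agent.JRED.jRed k N -
      algebraMap k (modularFunctionFieldFullC k N) c ≠ 0 := by
    intro c h0
    exact htr (by rw [sub_eq_zero.mp h0]; exact isAlgebraic_algebraMap c)
  have hC := cuspsC k N hN hk
  have h := cuspsQ N hN
  obtain ⟨rc1, rc2⟩ := red_cusps hN hk hr
  have hred := (Red.jBar (π := π) (N := N) (A := A)).sub (Red.const a ha)
  -- count at `Q = r v`
  have hpole : ∀ v' : Place (AlgebraicClosure ℚ) (modularFunctionFieldBar N),
      v'.ord (Fermat.Agent.JRED.jBar N) < 0 → v'.ord (Fermat.Agent.JRED.jBar N -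
        algebraMap (AlgebraicClosure ℚ) (modularFunctionFieldBar N) a) =
          v'.ord (Fermat.Agent.JRED.jBar N) := by
    intro v' hv'
    have hj0 : Fermat.Agent.JRED.jBar N ≠ 0 := by
      intro h0
      rw [h0, Place.ord_zero] at hv'
      exact lt_irrefl _ hv'
    rw [sub_eq_add_neg]
    apply ord_add_eq_of_lt _ hj0
    right
    rw [ord_neg, ord_algebraMap]
    exact hv'
  have hpoleC : ∀ v' : Place k (modularFunctionFieldFullC k N),
      v'.ord (Fermat.Agent.JRED.jRed k N) < 0 → v'.ord (Fermat.Agent.JRED.jRed k N -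
        algebraMap k (modularFunctionFieldFullC k N) (π ⟨a, ha⟩)) =
          v'.ord (Fermat.Agent.JRED.jRed k N) := by
    intro v' hv'
    have hj0 : Fermat.Agent.JRED.jRed k N ≠ 0 := by
      intro h0
      rw [h0, Place.ord_zero] at hv'
      exact lt_irrefl _ hv'
    rw [sub_eq_add_neg]
    apply ord_add_eq_of_lt _ hj0
    right
    rw [ord_neg, ord_algebraMap]
    exact hv'
  have hN1 := hN.one_lt
  obtain ⟨Z, hZ, hZv, hD⟩ := exists_zeros hN (f := Fermat.Agent.JRED.jBar N -
      algebraMap (AlgebraicClosure ℚ) (modularFunctionFieldBar N) a) (fun v' h1 h2 => by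
    apply ord_nonneg_of_mem
    refine sub_mem (mem_of_ord_nonneg _ ?_) (v'.algebraMap_mem' a)
    by_contra hcon
    rcases h.poleJ v' (by omega) with h3 | h3
    · exact h1 h3
    · exact h2 h3)
    (by rw [hpole _ (by rw [h.infJ]; norm_num), h.infJ])
    (by rw [hpole _ (by rw [h.zeroJ]; omega), h.zeroJ])
  have e3 : 0 < Z v := hZv v hv
  have e4 := mapDomain_apply_ge r Z v (fun v' _ => hZ v')
  have e2 := mapDomain_divOf hr hred (hne _) (r v)
  have hneC := hC.ne hN.one_lt
  rw [hD, mapDomain_sub_apply, rc1, rc2] at e2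
  rw [← e2]
  have q1 : cuspPlaceC k N ≠ r v := by
    intro h0
    rw [← h0] at e2 e4
    rw [if_pos rfl, if_neg (Ne.symm hneC), hpoleC _ (by rw [hC.infJ]; norm_num), hC.infJ] at e2
    omega
  have q2 : cuspZeroC k N hk ≠ r v := by
    intro h0
    rw [← h0] at e2 e4
    rw [if_neg hneC, if_pos rfl, hpoleC _ (by rw [hC.zeroJ]; omega), hC.zeroJ] at e2
    omega
  rw [if_neg q1, if_neg q2]
  omega

end Main

end Red

end Fermat.Agent.Mazur.Cusp
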