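import Mathlib
import Fermat.Agent.Mazur.CuspRed
import Fermat.Agent.Mazur.CuspHecke
import Fermat.Agent.Mazur.CuspGenus
import Fermat.Agent.JAN.Degree
import Fermat.Prelude.Def_ModularCurve_HeckeModule

/-!
# The cuspidal class of `X₀(N)`, `N` prime: final forms
-/

set_option autoImplicit false
set_option linter.unusedSectionVars false

noncomputable section

open AlgebraicCurve ModularCurve IntermediateField Fermat.Agent.RR IsLocalRing
open scoped Pointwise

namespace Fermat.Agent.Mazur.Cusp

section Hecke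

variable (N : ℕ) [NeZero N]

/-- The Hecke algebra away from `N` acts on the cuspidal class through the Eisenstein
character `T_ℓ ↦ 1 + ℓ`. -/
theorem heckeEvalBar_cuspClass (hN : N.Prime) (h : HeckeOperatorsCommuteBar N)
    (t : MvPolynomial {ℓ : Nat.Primes // (ℓ : ℕ) ≠ N} ℤ) :
    heckeEvalBar h (MvPolynomial.rename Subtype.val t) (cuspClass N) =
      (MvPolynomial.aeval (fun ℓ : {ℓ : Nat.Primes // (ℓ : ℕ) ≠ N} => (1 + (((ℓ.1 : Nat.Primes) : ℕ) : ℤ)))
        t : ℤ) • cuspClass N := by
  induction t using MvPolynomial.induction_on with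
  | C a =>
    rw [MvPolynomial.rename_C, heckeEvalBar_C, MvPolynomial.aeval_C]
    simp
  | add p q hp hq =>
    rw [map_add, map_add, LinearMap.add_apply, hp, hq, map_add, add_zsmul]
  | mul_X p ℓ hp =>
    have h1 : heckeEvalBar h (MvPolynomial.rename Subtype.val (MvPolynomial.X ℓ)) (cuspClass N) =
        (1 + (((ℓ.1 : Nat.Primes) : ℕ) : ℤ)) • cuspClass N := by
      rw [MvPolynomial.rename_X]
      have h2 := heckeEvalBar_heckeGen h ℓ.1
      rw [heckeGen] at h2
      rw [h2, heckeOperatorBar_cuspClass N hN ℓ.1 ℓ.2]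
      rw [← natCast_zsmul]
      push_cast
      rw [add_comm]
    rw [map_mul, map_mul, Module.End.mul_apply, h1, map_zsmul, hp, map_mul, MvPolynomial.aeval_X,
      mul_zsmul']

end Hecke

section Red

variable {N : ℕ} [NeZero N]

theorem natCast_ne_zero {A : ValuationSubring (AlgebraicClosure ℚ)} {k : Type} [Field k]
    (π : A →+* k) (hπ : Function.Surjective π) {ℓ : ℕ} (hℓ : ℓ.Prime) (hN : N.Prime) (hne : ℓ ≠ N)
    (hA : A.LiesOverPrime ℓ) : (N : k) ≠ 0 := by
  intro h0
  have h1 : (ℓ : k) = 0 := by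
    have h2 : ((ℓ : ℕ) : AlgebraicClosure ℚ) ∈ A := natCast_mem A ℓ
    have h3 : π ⟨(ℓ : AlgebraicClosure ℚ), h2⟩ = 0 := by
      apply map_eq_zero_of_inv hπ
      intro h4
      have h5 := (A.valuation_le_one_iff _).mpr h4
      have hℓ0 : ((ℓ : ℕ) : AlgebraicClosure ℚ) ≠ 0 := by exact_mod_cast hℓ.ne_zero
      rw [map_inv₀, inv_le_one₀ (zero_lt_iff.mpr ((Valuation.ne_zero_iff _).mpr hℓ0))] at h5
      exact absurd hA (not_lt.mpr h5)
    have h4 : (⟨(ℓ : AlgebraicClosure ℚ), h2⟩ : A) = ((ℓ : ℕ) : A) := rfl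
    rw [h4, map_natCast] at h3
    exact h3
  have hcop : IsCoprime (N : ℤ) (ℓ : ℤ) :=
    Nat.isCoprime_iff_coprime.mpr ((Nat.coprime_primes hN hℓ).mpr (Ne.symm hne))
  obtain ⟨u, v, huv⟩ := hcop
  have h2 := congrArg (Int.cast : ℤ → k) huv
  push_cast at h2
  rw [h0, h1, mul_zero, mul_zero, add_zero] at h2
  exact zero_ne_one h2

/-- Reduction near the cusps, for any residue map. -/
theorem red_near {A : ValuationSubring (AlgebraicClosure ℚ)} {k : Type} [Field k]
    {π : A →+* k} (hπ : Function.Surjective π) {ℓ : ℕ} (hℓ : ℓ.Prime) (hN : N.Prime) (hne : ℓ ≠ N)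
    (hA : A.LiesOverPrime ℓ)
    {r : Place (AlgebraicClosure ℚ) (modularFunctionFieldBar N) →
      Place k (modularFunctionFieldFullC k N)} (hr : IsPlaceReductionAlong A π N r) :
    r (cuspZero N) ≠ r (cuspPlace N) ∧
    ∀ (v : Place (AlgebraicClosure ℚ) (modularFunctionFieldBar N)) (a b : AlgebraicClosure ℚ),
      0 < v.ord (Fermat.Agent.JRED.jBar N -
        algebraMap (AlgebraicClosure ℚ) (modularFunctionFieldBar N) a) →
      0 < v.ord (jNBar N - algebraMap (AlgebraicClosure ℚ) (modularFunctionFieldBar N) b) →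
      (a ∉ A → r v = r (cuspPlace N) ∨ r v = r (cuspZero N)) ∧
      (a ∉ A → A.valuation b = A.valuation a ^ N → r v = r (cuspPlace N)) ∧
      (a ∉ A → A.valuation b ^ N = A.valuation a → r v = r (cuspZero N)) := by
  have := Fermat.Agent.JRED.isAlgClosed_of_surjective hπ
  have hk := natCast_ne_zero π hπ hℓ hN hne hA
  obtain ⟨h1, h2⟩ := red_cusps hN hk hr
  rw [h1, h2]
  refine ⟨((cuspsC k N hN hk).ne hN.one_lt).symm, fun v a b hva hvb => ⟨fun ha => ?_,
    fun ha hv => ?_, fun ha hv => ?_⟩⟩
  · exact red_of_not_mem hπ hN hk hr ha hva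
  · exact red_eq_inf_of_valuation hπ hN hk hr ha hva hvb hv
  · exact red_eq_zero_of_valuation hπ hN hk hr ha hva hvb hv

/-- **Reduction near the cusps**, for `placeReductionModL`. -/
theorem placeReductionModL_near {A : ValuationSubring (AlgebraicClosure ℚ)} {ℓ : ℕ}
    (hℓ : ℓ.Prime) (hN : N.Prime) (hne : ℓ ≠ N) (hA : A.LiesOverPrime ℓ)
    (h : ReductionInputsModL A N) :
    placeReductionModL h (cuspZero N) ≠ placeReductionModL h (cuspPlace N) ∧
    ∀ (v : Place (AlgebraicClosure ℚ) (modularFunctionFieldBar N)) (a b : AlgebraicClosure ℚ),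
      0 < v.ord (Fermat.Agent.JRED.jBar N -
        algebraMap (AlgebraicClosure ℚ) (modularFunctionFieldBar N) a) →
      0 < v.ord (jNBar N - algebraMap (AlgebraicClosure ℚ) (modularFunctionFieldBar N) b) →
      (a ∉ A → placeReductionModL h v = placeReductionModL h (cuspPlace N) ∨
        placeReductionModL h v = placeReductionModL h (cuspZero N)) ∧
      (a ∉ A → A.valuation b = A.valuation a ^ N →
        placeReductionModL h v = placeReductionModL h (cuspPlace N)) ∧
      (a ∉ A → A.valuation b ^ N = A.valuation a →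
        placeReductionModL h v = placeReductionModL h (cuspZero N)) :=
  red_near (π := IsLocalRing.residue A) IsLocalRing.residue_surjective hℓ hN hne hA
    (isPlaceReductionModL_placeReductionModL h)

theorem reductionAlong_diffClass {A : ValuationSubring (AlgebraicClosure ℚ)} {k : Type} [Field k]
    {π : A →+* k} (h : ReductionInputsAlong A π N)
    {P Q : Place (AlgebraicClosure ℚ) (modularFunctionFieldBar N)}
    (hPQ : h.choose P = h.choose Q) :
    reductionAlong A π N (diffClass P Q) = 0 := by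
  rw [diffClass, reductionAlong_mk h]
  have h1 : reductionDegZeroAlong h.choose h.choose_spec.1.1 (diffDiv P Q) = 0 := by
    apply Subtype.ext
    rw [coe_reductionDegZeroAlong, coe_diffDiv, ← Finsupp.mapDomain.addMonoidHom_apply, map_sub,
      Finsupp.mapDomain.addMonoidHom_apply, Finsupp.mapDomain.addMonoidHom_apply,
      Finsupp.mapDomain_single, Finsupp.mapDomain_single, hPQ, sub_self]
    rfl
  rw [h1]
  exact Pic0.mk_zero

/-- Places with the same reduction: the class of the difference reduces to `0`. -/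
theorem reductionModL_diffClass {A : ValuationSubring (AlgebraicClosure ℚ)}
    (h : ReductionInputsModL A N)
    {P Q : Place (AlgebraicClosure ℚ) (modularFunctionFieldBar N)}
    (hPQ : placeReductionModL h P = placeReductionModL h Q) :
    reductionModL A N (diffClass P Q) = 0 :=
  reductionAlong_diffClass (π := IsLocalRing.residue A) h hPQ

end Red

end Fermat.Agent.Mazur.Cusp
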