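import Mathlib
import Fermat.Agent.DR.AllInputs
import Fermat.Agent.Density.Final
import Fermat.Agent.Lib.Cyclotomic

/-!
# The Eisenstein ideal and the Eichler-Shimura relation for all of `G_ℚ`

* `RN N`: the polynomial algebra in the `T_ℓ`, `ℓ ≠ N`, acting on `JZero N` (`modRN`).
* `eisHom N r : RN N →+* ZMod r`, `T_ℓ ↦ 1 + ℓ`, and its kernel `P N r`.
* `es_density`: for every `σ` there is `ℓ` with `σ² - T_ℓ σ + ℓ = 0` on `J[r^m]`.
-/

set_option autoImplicit false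
set_option linter.style.haveILetI false

noncomputable section

open AlgebraicCurve ModularCurve CongruenceSubgroup

namespace Fermat.Agent.Mazur.ES

open Fermat.Agent.S30Wiring

local notation "Qb" => AlgebraicClosure ℚ
local notation "GQ" => AlgebraicClosure ℚ ≃ₐ[ℚ] AlgebraicClosure ℚ

/-- The anemic polynomial algebra. -/
abbrev RN (N : ℕ) : Type := MvPolynomial {ℓ : Nat.Primes // (ℓ : ℕ) ≠ N} ℤ

/-- its inclusion in the full abstract Hecke algebra -/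
def incl (N : ℕ) : RN N →ₐ[ℤ] HeckeAlg := MvPolynomial.rename Subtype.val

/-- The action of `RN N` on `J₀(N)`. -/
@[reducible] def modRN (N : ℕ) [NeZero N] : Module (RN N) (JZero N) :=
  letI := heckeModuleBar N
  Module.compHom (JZero N) (incl N).toRingHom

theorem smul_def (N : ℕ) [NeZero N] (a : RN N) (x : JZero N) :
    (letI := modRN N; a • x) = (letI := heckeModuleBar N; incl N a • x) := rfl

theorem smulComm (N : ℕ) [NeZero N] : letI := modRN N; SMulCommClass GQ (RN N) (JZero N) := by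
  letI := heckeModuleBar N
  haveI : SMulCommClass GQ HeckeAlg (JZero N) := Jan.GaloisHecke.smulCommClass_heckeModuleBar N
  letI := modRN N
  refine ⟨fun g a x => ?_⟩
  change g • (incl N a • x) = incl N a • (g • x)
  rw [smul_comm]

/-- The Eisenstein character modulo `r`. -/
def eisHom (N r : ℕ) : RN N →+* ZMod r :=
  MvPolynomial.eval₂Hom (Int.castRingHom (ZMod r))
    fun ℓ : {ℓ : Nat.Primes // (ℓ : ℕ) ≠ N} => 1 + ((((ℓ.1 : Nat.Primes) : ℕ) : ℕ) : ZMod r)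

/-- The Eisenstein ideal above `r`. -/
def P (N r : ℕ) : Ideal (RN N) := RingHom.ker (eisHom N r)

theorem mem_P {N r : ℕ} {x : RN N} : x ∈ P N r ↔ eisHom N r x = 0 := RingHom.mem_ker

theorem eisHom_X (N r : ℕ) (ℓ : {ℓ : Nat.Primes // (ℓ : ℕ) ≠ N}) :
    eisHom N r (MvPolynomial.X ℓ) = 1 + ((((ℓ.1 : Nat.Primes) : ℕ) : ℕ) : ZMod r) := by
  rw [eisHom, MvPolynomial.coe_eval₂Hom, MvPolynomial.eval₂_X]

theorem Pint (N r : ℕ) [Fact r.Prime] (x : RN N) : ∃ n : ℤ, x - (n : RN N) ∈ P N r := by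
  refine ⟨((eisHom N r x).val : ℤ), ?_⟩
  rw [mem_P, map_sub, map_intCast, Int.cast_natCast, ZMod.natCast_zmod_val, sub_self]

theorem natCast_mem_P (N r : ℕ) : (r : RN N) ∈ P N r := by
  rw [mem_P, map_natCast, ZMod.natCast_self]

theorem P_ne_top (N r : ℕ) [Fact r.Prime] : P N r ≠ ⊤ := by
  intro h
  have h1 : (1 : RN N) ∈ P N r := by rw [h]; trivial
  rw [mem_P, map_one] at h1
  exact one_ne_zero h1

theorem X_sub_mem_P (N r : ℕ) (ℓ : {ℓ : Nat.Primes // (ℓ : ℕ) ≠ N}) :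
    (MvPolynomial.X ℓ : RN N) - 1 - ((((ℓ.1 : Nat.Primes) : ℕ) : ℕ) : RN N) ∈ P N r := by
  rw [mem_P, map_sub, map_sub, eisHom_X, map_one, map_natCast, add_sub_cancel_left, sub_self]

/-- **Chebotarev + Eichler-Shimura.** -/
theorem es_density (N : ℕ) [NeZero N] (hN : N.Prime) (r : ℕ) [hr : Fact r.Prime] (m : ℕ)
    [NeZero (r ^ m)] (σ : GQ) :
    ∃ (ℓ : {ℓ : Nat.Primes // (ℓ : ℕ) ≠ N}), (ℓ : ℕ) ≠ r ∧
      (((ℓ : ℕ)) : ZMod (r ^ m)) = Cyclotomic.cyc (r ^ m) σ ∧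
      (((ℓ : ℕ)) : ZMod r) = Cyclotomic.cyc r σ ∧
      ∀ x : JZero N, r ^ m • x = 0 → σ • σ • x + (ℓ : ℕ) • x =
        (letI := modRN N; (MvPolynomial.X ℓ : RN N) • (σ • x)) := by
  letI := heckeModuleBar N
  have I := (GAL.Final.galInputs DR.allInputs N r hr.out).inputs hr.out ({r} : Finset ℕ)
  haveI : SMulCommClass GQ HeckeAlg (JZero N) := I.galois_hecke
  have hspec : SpecializationExists (K := ℚ) (L := Qb) N r (JZero N) :=
    I.specialization I.galois_hecke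
  have hfrob := frobeniusQuadratic_of_specialization hspec
  have hsm : ∀ x : JZero N, ∃ L : IntermediateField ℚ Qb, FiniteDimensional ℚ L ∧
      ∀ g : GQ, (∀ y ∈ L, g y = y) → g • x = x := I.smooth
  obtain ⟨L1, hL1, hL1'⟩ := finite_level_of_smooth (J := JZero N) hsm m (I.finite m)
  obtain ⟨L2, hL2, hL2'⟩ := Cyclotomic.cyc_finite_level (r ^ m)
  obtain ⟨L3, hL3, hL3'⟩ := Cyclotomic.cyc_finite_level r
  let L : IntermediateField ℚ Qb := L1 ⊔ L2 ⊔ L3
  have hL : FiniteDimensional ℚ L := by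
    have : FiniteDimensional ℚ ↥(L1 ⊔ L2) := inferInstance
    infer_instance
  obtain ⟨ℓ, hℓ, hℓS, A, φ, hA, hφ, hφσ⟩ :=
    Density.Final.exists_frobenius_eq L ({N, r} : Finset ℕ) σ
  have hℓN : ℓ ≠ N := fun h => hℓS (by rw [h]; simp)
  have hℓr : ℓ ≠ r := fun h => hℓS (by rw [h]; simp)
  have hdiff : ∀ x ∈ L, (φ⁻¹ * σ) x = x := by
    intro x hx
    rw [AlgEquiv.mul_apply, ← hφσ x hx]
    exact AlgEquiv.symm_apply_apply φ x
  have h1 : ∀ x : JZero N, r ^ m • x = 0 → σ • x = φ • x := by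
    intro x hx
    have := hL1' (φ⁻¹ * σ) (fun y hy => hdiff y (le_sup_left (a := L1 ⊔ L2)
      (le_sup_left (a := L1) hy))) x hx
    rw [mul_smul, inv_smul_eq_iff] at this
    exact this
  have h2 : Cyclotomic.cyc (r ^ m) σ = Cyclotomic.cyc (r ^ m) φ := by
    have := hL2' (φ⁻¹ * σ) (fun y hy => hdiff y (le_sup_left (a := L1 ⊔ L2)
      (le_sup_right (a := L1) hy)))
    rw [map_mul, map_inv, inv_mul_eq_one] at this
    exact this.symm
  have h3 : Cyclotomic.cyc r σ = Cyclotomic.cyc r φ := by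
    have := hL3' (φ⁻¹ * σ) (fun y hy => hdiff y (le_sup_right (a := L1 ⊔ L2) hy))
    rw [map_mul, map_inv, inv_mul_eq_one] at this
    exact this.symm
  have hnd : ¬ ℓ ∣ r := fun h => hℓr ((Nat.prime_dvd_prime_iff_eq hℓ hr.out).mp h)
  have hnd' : ¬ ℓ ∣ r ^ m := fun h => hnd (hℓ.dvd_of_dvd_pow h)
  have hnd2 : ¬ ℓ ∣ N * r := by
    intro h
    rcases (Nat.Prime.dvd_mul hℓ).mp h with h | h
    · exact hℓN ((Nat.prime_dvd_prime_iff_eq hℓ hN).mp h)
    · exact hnd h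
  refine ⟨⟨⟨ℓ, hℓ⟩, hℓN⟩, hℓr, ?_, ?_, fun x hx => ?_⟩
  · rw [h2]
    exact (Cyclotomic.cyc_frobenius hℓ hnd' A hA hφ).symm
  · rw [h3]
    exact (Cyclotomic.cyc_frobenius hℓ hnd A hA hφ).symm
  · have h4 := hfrob ℓ hℓ hnd2 A hA φ hφ x ⟨m, hx⟩
    have hσx : r ^ m • (φ • x) = 0 := pow_smul_gal φ hx
    rw [h1 x hx, h1 _ hσx]
    change φ • φ • x + ℓ • x = incl N (MvPolynomial.X ⟨⟨ℓ, hℓ⟩, hℓN⟩) • (φ • x)
    rw [incl, MvPolynomial.rename_X]
    change φ • φ • x + ℓ • x = heckeGen ⟨ℓ, hℓ⟩ • (φ • x)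
    rw [← sub_eq_zero, ← h4]
    abel

end Fermat.Agent.Mazur.ES
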