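import Mathlib
import Fermat.Agent.Mazur.CuspFinal
import Fermat.Agent.Mazur.ESDensity
import Fermat.Agent.DR.Mod.HeckeRed
import Fermat.Agent.DR.Mod.KroneckerModular
import Fermat.Agent.JRED.ESFinal
import Fermat.Agent.RT.UnitRoot.Main
import Fermat.Agent.FrobExists

/-!
# The kernel of the reduction of `J₀(N)` at a place above `ℓ ≠ N`

`exists_red`: the kernel `K` of the reduction map meets the prime-to-`ℓ` torsion trivially, is
stable under all Hecke operators `T_q`, `q ≠ N`, and contains the classes `(v) - (cusp)` for the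
points `v` close to a cusp.
-/

set_option autoImplicit false
set_option linter.unusedSectionVars false
set_option linter.style.haveILetI false

noncomputable section

open AlgebraicCurve ModularCurve IntermediateField IsLocalRing
open Fermat.Agent.RR Fermat.Agent.JRED Fermat.Agent.JRED.ESGalois Fermat.Agent.JRED.ESFinal
open Fermat.Agent.DR.Mod Fermat.Agent.Mazur.Cusp

namespace Fermat.Agent.Mazur.RedKer

local notation "Qb" => AlgebraicClosure ℚ
local notation "GQ" => AlgebraicClosure ℚ ≃ₐ[ℚ] AlgebraicClosure ℚ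

theorem X_smul (N : ℕ) [NeZero N] (ℓ : {ℓ : Nat.Primes // (ℓ : ℕ) ≠ N}) (x : JZero N) :
    (letI := ES.modRN N; (MvPolynomial.X ℓ : ES.RN N) • x) = heckeOperatorBar N ℓ.1 x := by
  change (letI := heckeModuleBar N; ES.incl N (MvPolynomial.X ℓ) • x) = _
  rw [ES.incl, MvPolynomial.rename_X]
  exact heckeModuleBar_heckeGen_smul (JAN.Degree.heckeOperatorsCommuteBar N) ℓ.1 x

theorem C_smul (N : ℕ) [NeZero N] (a : ℤ) (x : JZero N) :
    (letI := ES.modRN N; (MvPolynomial.C a : ES.RN N) • x) = a • x := by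
  change (letI := heckeModuleBar N; ES.incl N (MvPolynomial.C a) • x) = _
  rw [ES.incl, MvPolynomial.rename_C]
  exact heckeModuleBar_C_smul a x

/-- a subgroup stable under the `T_q`, `q ≠ N`, is stable under `RN N`. -/
theorem smul_mem_of_hecke (N : ℕ) [NeZero N] (K : AddSubgroup (JZero N))
    (h : ∀ ℓ : {ℓ : Nat.Primes // (ℓ : ℕ) ≠ N}, ∀ x ∈ K, heckeOperatorBar N ℓ.1 x ∈ K)
    (a : ES.RN N) {x : JZero N} (hx : x ∈ K) : (letI := ES.modRN N; a • x) ∈ K := by
  letI := ES.modRN N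
  change a • x ∈ K
  induction a using MvPolynomial.induction_on generalizing x with
  | C n =>
    have h1 : (MvPolynomial.C n : ES.RN N) • x = n • x := C_smul N n x
    rw [h1]
    exact K.zsmul_mem hx n
  | add p q hp hq =>
    have h1 : (p + q) • x = p • x + q • x := add_smul p q x
    rw [h1]
    exact K.add_mem (hp hx) (hq hx)
  | mul_X p ℓ hp =>
    have h1 : (p * MvPolynomial.X ℓ) • x = p • ((MvPolynomial.X ℓ : ES.RN N) • x) :=
      mul_smul p (MvPolynomial.X ℓ) x
    have h2 : (MvPolynomial.X ℓ : ES.RN N) • x = heckeOperatorBar N ℓ.1 x := X_smul N ℓ x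
    rw [h1, h2]
    exact hp (h ℓ x hx)

section Main

variable {N : ℕ} [NeZero N] {A : ValuationSubring (AlgebraicClosure ℚ)} {k : Type} [Field k]
  {π : A →+* k}

/-- The properties of the kernel of reduction. -/
def IsRedKer (N : ℕ) [NeZero N] (A : ValuationSubring (AlgebraicClosure ℚ)) (ℓ : ℕ)
    (K : AddSubgroup (JZero N)) : Prop :=
  (∀ (m : ℕ) (z : JZero N), ¬ ℓ ∣ m → m • z = 0 → z ∈ K → z = 0) ∧
  (∀ (a : ES.RN N), ∀ z ∈ K, (letI := ES.modRN N; a • z) ∈ K) ∧
  (∀ (v : Place (AlgebraicClosure ℚ) (modularFunctionFieldBar N)) (a b : AlgebraicClosure ℚ),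
    0 < v.ord (jBar N - algebraMap (AlgebraicClosure ℚ) (modularFunctionFieldBar N) a) →
    0 < v.ord (jNBar N - algebraMap (AlgebraicClosure ℚ) (modularFunctionFieldBar N) b) →
    a ∉ A →
    (A.valuation b = A.valuation a ^ N → diffClass v (cuspPlace N) ∈ K) ∧
    (A.valuation b ^ N = A.valuation a → diffClass v (cuspZero N) ∈ K))

/-- **The kernel of reduction**, for any residue field. -/
theorem exists_red_aux (hπ : Function.Surjective π) (hN : N.Prime) {ℓ : ℕ} (hℓ : ℓ.Prime)
    (hne : ℓ ≠ N) (hA : A.LiesOverPrime ℓ) (hD : DegreeInput N k) (hG : GoodReduction N k) :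
    ∃ K : AddSubgroup (JZero N), IsRedKer N A ℓ K := by
  have hℓN : ¬ ℓ ∣ N := fun h => hne ((Nat.prime_dvd_prime_iff_eq hℓ hN).mp h)
  have i1 : CharP k ℓ := charP_of_liesOver hπ hℓ hA
  have i2 : IsAlgClosed k := isAlgClosed_of_surjective hπ
  have i3 : Fact ℓ.Prime := ⟨hℓ⟩
  have i3' : NeZero ℓ := ⟨hℓ.ne_zero⟩
  have hAL : AtkinLehnerInput N ℓ := AL.atkinLehnerInput N ℓ hℓ hℓN
  have i5 := hD.functionField
  have i6 := hD.functionField'
  let M : ModularConstRed N π := hD.modularConstRed hπ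
  obtain ⟨r, hr⟩ := M.exists_isPlaceMap hπ hD hG
  have hr' : PlaceRed (hD.redDatum hπ) r := placeRed_of_isPlaceMap hD hπ hr
  have hr'' : IsPlaceReductionAlong A π N r := M.isPlaceReductionAlong hπ hD hr
  have hcast : ∀ m : ℕ, ¬ ℓ ∣ m → ((m : ℕ) : k) ≠ 0 := fun m hm h0 =>
    hm ((CharP.cast_eq_zero_iff k ℓ m).mp h0)
  -- the kernel in terms of `redPic`
  have hker : ∀ x : JZero N, redMap M hr x = 0 ↔ redPic hr' (deg_place_eq r) x = 0 := by
    intro x
    obtain ⟨D, rfl⟩ := Pic0.mk_surjective x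
    rw [redMap_mk, redPic_mk]
    constructor
    · intro h
      exact (QuotientAddGroup.eq_zero_iff _).mpr (AddSubgroup.mem_addSubgroupOf.mpr
        ((QuotientAddGroup.eq_zero_iff _).mp h))
    · intro h
      exact (QuotientAddGroup.eq_zero_iff _).mpr (AddSubgroup.mem_addSubgroupOf.mp
        ((QuotientAddGroup.eq_zero_iff _).mp h))
  have hdiff : ∀ P Q, r P = r Q → redMap M hr (diffClass P Q : JZero N) = 0 := by
    intro P Q hPQ
    have h1 : redMap M hr (diffClass P Q : JZero N) = QuotientAddGroup.mk (Finsupp.mapDomain r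
      ((diffDiv P Q : Divisor.degZero (K := AlgebraicClosure ℚ)
        (F := modularFunctionFieldBar N)) : Divisor _ _)) := rfl
    rw [h1, coe_diffDiv, ← Finsupp.mapDomain.addMonoidHom_apply, map_sub,
      Finsupp.mapDomain.addMonoidHom_apply, Finsupp.mapDomain.addMonoidHom_apply,
      Finsupp.mapDomain_single, Finsupp.mapDomain_single, hPQ, sub_self]
    rfl
  refine ⟨(redMap M hr).ker, fun m z hm hmz hz => ?_, fun a z hz => ?_, fun v a b hva hvb ha =>
    ⟨fun hv => ?_, fun hv => ?_⟩⟩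
  · exact redMap_torsion M hr hπ hG (hcast m hm) z hmz hz
  · refine smul_mem_of_hecke N _ (fun q x hx => ?_) a hz
    have hx : redMap M hr x = 0 := hx
    change redMap M hr (heckeOperatorBar N q.1 x) = 0
    by_cases hq : (q : ℕ) = ℓ
    · -- the Eichler-Shimura relation
      obtain ⟨σ, hσ⟩ := FrobExists.exists_isFrobeniusAt A hℓ hA
      obtain ⟨τ', hτ'⟩ := exists_isResidual hπ (inv_mem hσ.1)
      obtain ⟨τ, hτ⟩ := exists_isResidual hπ hσ.1
      have hinv : redMap M hr (σ⁻¹ • x) = 0 := redMap_eq_zero_of_smul M hr hτ' x hx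
      have hfix : redMap M hr (σ • x) = 0 := redMap_eq_zero_of_smul M hr hτ x hx
      have h1 := RT.UnitRoot.redMap_frobenius M hr hπ hℓ hA hD hAL hσ (σ⁻¹ • x)
      have h2 : q.1 = ⟨ℓ, hℓ⟩ := Subtype.ext hq
      rw [smul_inv_smul, map_add, map_sub, map_nsmul, hinv, smul_zero, add_zero, hfix, zero_sub,
        neg_eq_zero] at h1
      rw [h2]
      exact h1
    · have i8 : NeZero ((q.1 : Nat.Primes) : ℕ) := ⟨q.1.2.ne_zero⟩
      have h1 : ((N * ((q.1 : Nat.Primes) : ℕ) : ℕ) : k) ≠ 0 := by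
        refine hcast _ fun h => ?_
        rcases (Nat.Prime.dvd_mul hℓ).mp h with h | h
        · exact hℓN h
        · exact hq ((Nat.prime_dvd_prime_iff_eq hℓ q.1.2).mp h).symm
      rw [hker] at hx ⊢
      have h2 := redPic_hecke hπ h1 hD hr' (deg_place_eq r) x
      rw [hx, map_zero] at h2
      exact h2
  · exact hdiff _ _ (((red_near hπ hℓ hN hne hA hr'').2 v a b hva hvb).2.1 ha hv)
  · exact hdiff _ _ (((red_near hπ hℓ hN hne hA hr'').2 v a b hva hvb).2.2 ha hv)

/-- **The kernel of reduction.** -/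
theorem exists_red (hN : N.Prime) {ℓ : ℕ} (hℓ : ℓ.Prime) (hne : ℓ ≠ N)
    (A : ValuationSubring (AlgebraicClosure ℚ)) (hA : A.LiesOverPrime ℓ) :
    ∃ K : AddSubgroup (JZero N), IsRedKer N A ℓ K := by
  have hπ : Function.Surjective (residue A) := residue_surjective
  have hℓN : ¬ ℓ ∣ N := fun h => hne ((Nat.prime_dvd_prime_iff_eq hℓ hN).mp h)
  have i1 : CharP (ResidueField A) ℓ := charP_of_liesOver hπ hℓ hA
  have i2 : IsAlgClosed (ResidueField A) := isAlgClosed_of_surjective hπ
  exact exists_red_aux hπ hN hℓ hne hA (degreeInput' (NeZero.ne N) hℓN)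
    (goodReduction hπ hℓ (NeZero.ne N) hℓN)

end Main

end Fermat.Agent.Mazur.RedKer
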