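import Fermat.Agent.Mazur.Moduli.LocalInt
import Fermat.Agent.LOC.TateGalois
import Fermat.Agent.TWP.Place

/-! # Rational points of order `N` in the identity component at a multiplicative prime `ℓ`

If `Q` is a rational point of prime order `N ≠ ℓ` lying in the identity component at a place above
the multiplicative prime `ℓ`, then `N ∣ ℓ - 1` or `N ∣ ℓ + 1`. -/

set_option autoImplicit false

namespace Fermat.Agent.Mazur.ZeroComp

open Fermat.Agent.RedHom
open WeierstrassCurve WeierstrassCurve.Affine Fermat.Agent.ECRed Fermat.Agent.LOC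
open Fermat.Agent.LOC.TateHom Fermat.Agent.LOC.TatePhi Fermat.Agent.Mazur.Moduli

section General

variable {K Γ₀ : Type*} [Field K] [LinearOrderedCommGroupWithZero Γ₀] {v : Valuation K Γ₀}
variable {W : WeierstrassCurve K} [DecidableEq K] [IsAlgClosed K]

/-- A point of prime order `N` of the identity component, fixed by a Frobenius element `σ`. -/
theorem dvd_of_fixed (h2 : (2 : K) ≠ 0) (h3 : (3 : K) ≠ 0) (hI : IntCoeff v W)
    (hc4 : v W.c₄ = 1) (hΔ1 : v W.Δ < 1) (hΔ : W.Δ ≠ 0) {N : ℕ} (hN : N.Prime)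
    (hvN : v (N : K) = 1) {ℓ : ℕ} (σ : K →+* K) (hσ : ∀ z, v (σ z) = v z)
    (hfrob : ∀ z, v z ≤ 1 → v (σ z - z ^ ℓ) < 1)
    (h₁ : σ W.a₁ = W.a₁) (h₂ : σ W.a₂ = W.a₂) (h₃ : σ W.a₃ = W.a₃) (h₄ : σ W.a₄ = W.a₄)
    (h₆ : σ W.a₆ = W.a₆) (s : W.toAffine.Point →+ W.toAffine.Point)
    (hs : ∀ x y h, ∃ h', s (.some x y h) = .some (σ x) (σ y) h')
    {x y : K} {hxy : W.toAffine.Nonsingular x y}
    (hP : N • (Point.some x y hxy : W.toAffine.Point) = 0)
    (hfix : s (.some x y hxy) = .some x y hxy) (hns : NonsingAt v W x y) :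
    (N : ℤ) ∣ ℓ - 1 ∨ (N : ℤ) ∣ ℓ + 1 := by
  obtain ⟨x₀, y₀, α, β, h⟩ := exists_nodeCentre_of_Δ h2 h3 hI hc4 hΔ1
  have hc := h.map_c h2 σ hσ h₁ h₂ h₃ h₄ h₆
  have hc1 := h.v_c_lt_one
  have hc0 := h.c_ne_zero hΔ
  obtain ⟨ε, hε, -, s', hs', he⟩ := h.equiv_equivariant h2 σ hσ h₁ h₂ h₃ h₄ h₆ s hs
  obtain ⟨hx, hy⟩ := v_le_one_of_torsion hI hxy hvN hP
  have hx1 := (nonsingAt_iff h hI hxy.1 hx hy).mp hns
  obtain ⟨h', e1⟩ := h.equiv_some hxy
  set X := (x - x₀) / (α - β) ^ 2 with hX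
  set Y := (y - y₀ - α * (x - x₀)) / (α - β) ^ 3 with hY
  have hXv : 1 ≤ v X := by
    rw [hX, map_div₀, map_pow, h.sub, one_pow, div_one]; exact hx1
  have hE := nf_equation.mp h'.1
  have p := isPhi_rep v (tateC W x₀ y₀ α β) X Y
  set u := rep v (tateC W x₀ y₀ α β) X Y with hu
  have hvu : v u = 1 := (isPhi_nonsing hc1 hE hXv p).1
  have hu0 : u ≠ 0 := by rw [← Valuation.pos_iff (v := v), hvu]; exact one_pos
  have hφ : phi hc1 hc0 (h.equiv (.some x y hxy)) = Additive.ofMul (cls v (tateC W x₀ y₀ α β) u) := by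
    rw [e1]; exact phi_some hc1 hc0 h' p
  set q : Additive (Q v (tateC W x₀ y₀ α β)) := Additive.ofMul (cls v (tateC W x₀ y₀ α β) u) with hq
  -- `q` has order `N`
  have hqN : N • q = 0 := by
    rw [← hφ, ← map_nsmul, ← map_nsmul, hP, map_zero, map_zero]
  have hq0 : q ≠ 0 := by
    intro h0
    rw [← hφ, phi_eq_zero_iff, h.inKer_equiv_iff, inKer_some] at h0
    exact absurd hx (not_le.mpr h0)
  -- Frobenius
  have hσu : qmap σ hσ hc (cls v (tateC W x₀ y₀ α β) u) = cls v (tateC W x₀ y₀ α β) u ^ ℓ := by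
    rw [qmap_cls σ hσ hc hu0, ← cls_pow hu0]
    refine cls_eq_of_near (ε := v (σ u - u ^ ℓ)) (hfrob u hvu.le) (pow_ne_zero _ hu0) ?_
    rw [Near, map_pow, hvu, one_pow, mul_one]
  have hmain : q = ε • (ℓ • q) := by
    have e2 := he (.some x y hxy)
    rw [hfix] at e2
    have e3 := congrArg (phi hc1 hc0) e2
    rw [map_zsmul, phi_map σ hσ hc hc1 hc0 s' hs', hφ] at e3
    have e4 : Additive.ofMul (qmap σ hσ hc (Additive.toMul q)) = ℓ • q := by
      change Additive.ofMul (qmap σ hσ hc (cls v (tateC W x₀ y₀ α β) u)) = _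
      rw [hσu]; rfl
    rw [e4] at e3
    exact e3
  have hdvd : ∀ m : ℤ, m • q = 0 → (N : ℤ) ∣ m := by
    intro m hm
    by_contra hnd
    obtain ⟨a, b, hab⟩ := ((Nat.prime_iff_prime_int.mp hN).coprime_iff_not_dvd.mpr hnd).symm
    apply hq0
    have hqN' : (N : ℤ) • q = 0 := by rw [natCast_zsmul]; exact hqN
    calc q = (a * m + b * N) • q := by rw [hab, one_smul]
      _ = 0 := by rw [add_smul, mul_smul, mul_smul, hm, hqN', smul_zero, smul_zero, add_zero]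
  rcases Int.isUnit_iff.mp (IsUnit.of_mul_eq_one ε hε) with rfl | rfl
  · left
    apply hdvd
    rw [one_smul] at hmain
    rw [sub_smul, one_smul, natCast_zsmul, ← hmain, sub_self]
  · right
    apply hdvd
    rw [neg_smul, one_smul] at hmain
    rw [add_smul, one_smul, natCast_zsmul]
    nth_rewrite 2 [hmain]
    rw [add_neg_cancel]

end General

local notation "Qb" => AlgebraicClosure ℚ

/-- **A rational point of prime order `N` in the identity component at `ℓ`**. -/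
theorem dvd_sub_or_dvd_add (W : WeierstrassCurve ℤ) (hΔ : W.Δ ≠ 0) {ℓ N : ℕ} (hℓ : ℓ.Prime)
    (hℓΔ : (ℓ : ℤ) ∣ W.Δ) (hℓc : ¬ (ℓ : ℤ) ∣ W.c₄) {A : ValuationSubring Qb}
    (hA : A.LiesOverPrime ℓ) (hN : N.Prime) (hNℓ : N ≠ ℓ)
    {Q : ((W.map (Int.castRingHom ℚ))⁄Qb).Point} (hQ : N • Q = 0) (hQ0 : Q ≠ 0)
    (hfix : ∀ σ : Qb ≃ₐ[ℚ] Qb, σ • Q = Q) (hZ : W.InZeroComponentAt A Q) :
    N ∣ ℓ - 1 ∨ N ∣ ℓ + 1 := by
  classical
  obtain ⟨σ, hσA⟩ := Fermat.Agent.FrobExists.exists_isFrobeniusAt A hℓ hA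
  obtain ⟨-, hfr⟩ := (TWP.Place.isFrobeniusAt_iff A σ ℓ).mp hσA
  have hcop : ∀ n : ℤ, ¬ (ℓ : ℤ) ∣ n → IsCoprime n ((ℓ : ℕ) : ℤ) := fun n hn =>
    ((Nat.prime_iff_prime_int.mp hℓ).coprime_iff_not_dvd.mpr hn).symm
  have hvN : A.valuation (N : Qb) = 1 :=
    valuation_nat_eq_one A hA ((Nat.coprime_primes hN hℓ).mpr hNℓ)
  have hI := intCoeff_baseChange_int (L := Qb) W A.valuation
  rcases Q with _ | ⟨x, y, hxy⟩
  · exact absurd rfl hQ0
  obtain ⟨hx, hy⟩ := v_le_one_of_torsion hI hxy hvN hQ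
  have hns : NonsingAt A.valuation (EQ W) x y := by
    rw [inZeroComponentAt_iff, some_mem_E0_iff_valuation] at hZ
    rcases hZ with h1 | h1
    · exact absurd hx (not_le.mpr h1)
    · exact h1
  have key := dvd_of_fixed (W := EQ W) (v := A.valuation) two_ne_zero three_ne_zero hI
    (by rw [baseChange_int_c₄]; exact valuation_int_eq_one A hA (hcop _ hℓc))
    (by rw [baseChange_int_Δ]; exact valuation_int_lt_one A hA hℓΔ)
    (by rw [baseChange_int_Δ]; exact_mod_cast hΔ) hN hvN (ℓ := ℓ)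
    (σ : Qb →+* Qb) (decomposition_valuation A hσA.mem_decompositionSubgroup)
    (fun z hz => A.mem_nonunits_iff.mp (hfr z ((A.valuation_le_one_iff z).mp hz)))
    (by rw [baseChange_int_a₁]; exact map_intCast σ _)
    (by rw [baseChange_int_a₂]; exact map_intCast σ _)
    (by rw [baseChange_int_a₃]; exact map_intCast σ _)
    (by rw [baseChange_int_a₄]; exact map_intCast σ _)
    (by rw [baseChange_int_a₆]; exact map_intCast σ _)
    (DistribSMul.toAddMonoidHom ((W.map (Int.castRingHom ℚ)).toAffine.baseChange Qb).Point σ)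
    (fun x y h => ⟨_, rfl⟩) hQ (hfix σ) hns
  have h1 := hℓ.one_lt
  rcases key with h | h
  · left
    have : ((ℓ - 1 : ℕ) : ℤ) = ℓ - 1 := by omega
    rw [← this] at h
    exact_mod_cast h
  · right
    exact_mod_cast h

/-- `ℓ` does not divide `N - 1`. -/
theorem not_dvd_sub_one {ℓ N : ℕ} (hℓ : ℓ.Prime) (hℓ5 : 5 ≤ ℓ) (hN : N.Prime) (hN2 : N ≠ 2)
    (h : N ∣ ℓ - 1 ∨ N ∣ ℓ + 1) : ¬ ℓ ∣ N - 1 := by
  intro hd
  have hN3 : 3 ≤ N := by
    have := hN.two_le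
    omega
  have h1 := Nat.le_of_dvd (by omega) hd
  have h2 : N ≤ ℓ + 1 := by
    rcases h with h | h
    · have := Nat.le_of_dvd (by omega) h
      omega
    · exact Nat.le_of_dvd (by omega) h
  -- `N = ℓ + 1` is even
  have h3 : N = ℓ + 1 := by omega
  have h4 := hN.odd_of_ne_two hN2
  have h5 := hℓ.odd_of_ne_two (by omega)
  rw [h3] at h4
  obtain ⟨a, ha⟩ := h4
  obtain ⟨b, hb⟩ := h5
  omega

end Fermat.Agent.Mazur.ZeroComp
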