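import Mathlib
import Fermat.Agent.Mazur.RedKer
import Fermat.Agent.Mazur.Moduli.FixedPlace
import Fermat.Agent.Mazur.ZeroComp
import Fermat.Agent.Mazur.CuspFinal
import Fermat.Agent.S28.ModPolySpecProof

/-!
# The endgame of S15

From Theorem A (`e J(ℚ)` is torsion for some `e ∉ P`) to Mazur's key step.
-/

set_option autoImplicit false
set_option linter.unusedSectionVars false
set_option linter.style.haveILetI false

noncomputable section

open AlgebraicCurve ModularCurve WeierstrassCurve WeierstrassCurve.Affine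
open Fermat.Agent.RR Fermat.Agent.JRED
open Fermat.Agent.Mazur.Cusp Fermat.Agent.Mazur.RedKer Fermat.Agent.Mazur.Moduli

namespace Fermat.Agent.Mazur.Endgame

local notation "Qb" => AlgebraicClosure ℚ
local notation "GQ" => AlgebraicClosure ℚ ≃ₐ[ℚ] AlgebraicClosure ℚ

/-- Theorem A for `J₀(N)` and the prime `r`. -/
def TheoremA (N r : ℕ) [NeZero N] : Prop :=
  letI := ES.modRN N
  ∃ c : ES.RN N, c ∉ ES.P N r ∧
    ∀ x : JZero N, (∀ σ : GQ, σ • x = x) → ∃ n : ℕ, 0 < n ∧ n • (c • x) = 0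

/-- the integral Eisenstein character -/
def eisInt (N : ℕ) : ES.RN N →ₐ[ℤ] ℤ :=
  MvPolynomial.aeval fun ℓ : {ℓ : Nat.Primes // (ℓ : ℕ) ≠ N} => (1 + (((ℓ.1 : Nat.Primes) : ℕ) : ℤ))

theorem eisHom_eq (N r : ℕ) (x : ES.RN N) : ES.eisHom N r x = ((eisInt N x : ℤ) : ZMod r) := by
  have h : ES.eisHom N r = (Int.castRingHom (ZMod r)).comp (eisInt N).toRingHom := by
    refine MvPolynomial.ringHom_ext (fun n => ?_) (fun ℓ => ?_)
    · rw [ES.eisHom, MvPolynomial.coe_eval₂Hom, MvPolynomial.eval₂_C]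
      change _ = ((eisInt N (MvPolynomial.C n) : ℤ) : ZMod r)
      rw [eisInt, MvPolynomial.aeval_C]
      simp
    · rw [ES.eisHom_X]
      change _ = ((eisInt N (MvPolynomial.X ℓ) : ℤ) : ZMod r)
      rw [eisInt, MvPolynomial.aeval_X]
      push_cast
      rfl
  rw [h]
  rfl

theorem smul_cuspClass (N : ℕ) [NeZero N] (hN : N.Prime) (a : ES.RN N) :
    (letI := ES.modRN N; a • cuspClass N) = eisInt N a • cuspClass N := by
  have h := JAN.Degree.heckeOperatorsCommuteBar N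
  rw [eisInt, ← heckeEvalBar_cuspClass N hN h a]
  exact heckeModuleBar_smul_def h _ _

theorem galois_smul_diffClass (N : ℕ) [NeZero N] (hN : N.Prime)
    (x : Place Qb (modularFunctionFieldBar N))
    (hx : ∀ σ : GQ, arithmeticGalois (modularFunctionFieldFull N) σ • x = x) (σ : GQ) :
    σ • (diffClass x (cuspZero N) : JZero N) = diffClass x (cuspZero N) := by
  rw [galois_smul_pic0_def, semilinear_smul_diffClass, arithmeticGalois_smul_cuspZero N hN, hx]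

theorem result {p : ℕ} (hp : p.Prime) (hp' : p ∉ ({2, 3, 5, 7, 13} : Finset ℕ))
    (hA : ∀ [NeZero p] (r : ℕ), r.Prime → r ≠ p → TheoremA p r)
    (W : WeierstrassCurve ℤ) (hΔ : W.Δ ≠ 0)
    (Q : ((W.map (Int.castRingHom ℚ))⁄(AlgebraicClosure ℚ)).Point)
    (hQfix : ∀ σ : AlgebraicClosure ℚ ≃ₐ[ℚ] AlgebraicClosure ℚ, σ • Q = Q)
    (hQord : addOrderOf Q = p)
    (h2Δ : (2 : ℤ) ∣ W.Δ) (h2c₄ : ¬ (2 : ℤ) ∣ W.c₄)
    (h2 : ∀ A : ValuationSubring (AlgebraicClosure ℚ), A.LiesOverPrime 2 → ¬ W.InZeroComponentAt A Q)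
    (h3Δ : (3 : ℤ) ∣ W.Δ) (h3c₄ : ¬ (3 : ℤ) ∣ W.c₄)
    (h3 : ∀ A : ValuationSubring (AlgebraicClosure ℚ), A.LiesOverPrime 3 → ¬ W.InZeroComponentAt A Q)
    {ℓ : ℕ} (hℓ : ℓ.Prime) (hℓp : ℓ ≠ p) (hℓΔ : (ℓ : ℤ) ∣ W.Δ) (hℓc₄ : ¬ (ℓ : ℤ) ∣ W.c₄)
    (A : ValuationSubring (AlgebraicClosure ℚ)) (hAℓ : A.LiesOverPrime ℓ) :
    ¬ W.InZeroComponentAt A Q := by
  classical
  intro hZ
  have hp2 : p ≠ 2 := by rintro rfl; simp at hp'
  have hp3 : p ≠ 3 := by rintro rfl; simp at hp'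
  have hℓ2 : ℓ ≠ 2 := by rintro rfl; exact h2 A hAℓ hZ
  have hℓ3 : ℓ ≠ 3 := by rintro rfl; exact h3 A hAℓ hZ
  have hℓ5 : 5 ≤ ℓ := by
    by_contra h
    have h2 := hℓ.two_le
    interval_cases ℓ
    · exact hℓ2 rfl
    · exact hℓ3 rfl
    · exact absurd hℓ (by norm_num)
  have : Fact p.Prime := ⟨hp⟩
  have hne : NeZero p := ⟨hp.ne_zero⟩
  obtain ⟨Φ, hΦ⟩ := S28.exists_modPolySpec p
  obtain ⟨b, x, hxj, hxjN, hxfix, -, hval⟩ := exists_fixed_place W hΔ hp2 hΦ Q hQfix hQord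
    Nat.prime_two hp2 h2Δ h2c₄ h2
  have hxj' := hxj (jBar p) (coe_jBar p)
  have hxjN' := hxjN (jNBar p) (coe_jNBar p)
  set a := jq (EQ W) with ha
  have haA : ∀ {q : ℕ}, q.Prime → (q : ℤ) ∣ W.Δ → ¬ (q : ℤ) ∣ W.c₄ → ∀ B : ValuationSubring Qb,
      B.LiesOverPrime q → a ∉ B := by
    intro q hq hqΔ hqc B hB haB
    have h1 := one_lt_v_jq W hΔ hq hqΔ hqc hB
    exact absurd ((B.valuation_le_one_iff _).mpr haB) (not_le_of_gt h1)
  letI := ES.modRN p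
  -- the Galois-fixed class
  set y : JZero p := diffClass x (cuspZero p) with hy
  have hyfix : ∀ σ : GQ, σ • y = y := fun σ => galois_smul_diffClass p hp x hxfix σ
  -- its reductions at `2` and `3`
  obtain ⟨A2, hA2⟩ := FrobExists.exists_liesOverPrime Qb Nat.prime_two
  obtain ⟨A3, hA3⟩ := FrobExists.exists_liesOverPrime Qb Nat.prime_three
  obtain ⟨K2, hK2a, hK2b, hK2c⟩ := exists_red hp Nat.prime_two (Ne.symm hp2) A2 hA2
  obtain ⟨K3, hK3a, hK3b, hK3c⟩ := exists_red hp Nat.prime_three (Ne.symm hp3) A3 hA3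
  obtain ⟨K, hKa, hKb, hKc⟩ := exists_red hp hℓ hℓp A hAℓ
  have hy2 : y ∈ K2 := (hK2c x a b hxj' hxjN' (haA Nat.prime_two h2Δ h2c₄ A2 hA2)).2
    ((hval Nat.prime_two hp2 h2Δ h2c₄ A2 hA2).1 (h2 A2 hA2))
  have hy3 : y ∈ K3 := (hK3c x a b hxj' hxjN' (haA Nat.prime_three h3Δ h3c₄ A3 hA3)).2
    ((hval Nat.prime_three hp3 h3Δ h3c₄ A3 hA3).1 (h3 A3 hA3))
  have hyℓ : (diffClass x (cuspPlace p) : JZero p) ∈ K :=
    (hKc x a b hxj' hxjN' (haA hℓ hℓΔ hℓc₄ A hAℓ)).1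
      ((hval hℓ (Ne.symm hℓp) hℓΔ hℓc₄ A hAℓ).2 hZ)
  -- the cuspidal class
  set c := cuspClass p with hc
  have hyc : (diffClass x (cuspPlace p) : JZero p) = y + c := by
    rw [hy, hc, cuspClass]
    exact (diffClass_add _ _ _).symm
  have hc0 : c ≠ 0 := cuspClass_ne_zero p hp hp'
  have hcN : (p - 1) • c = 0 := nsmul_cuspClass p hp
  have hord : addOrderOf c ∣ p - 1 := addOrderOf_dvd_of_nsmul_eq_zero hcN
  have hord1 : addOrderOf c ≠ 1 := fun h => hc0 (AddMonoid.addOrderOf_eq_one_iff.mp h)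
  set r := (addOrderOf c).minFac with hr
  have hrp : r.Prime := Nat.minFac_prime hord1
  have hrdvd : r ∣ addOrderOf c := Nat.minFac_dvd _
  have hp1 : 0 < p - 1 := by have := hp.two_le; omega
  have hrne : r ≠ p := by
    have := Nat.le_of_dvd hp1 (hrdvd.trans hord)
    omega
  obtain ⟨e, heP, he⟩ := hA r hrp hrne
  obtain ⟨n, hn, hne'⟩ := he y hyfix
  -- `e y = 0`
  have hey : e • y = 0 := by
    obtain ⟨k, m, hm, hnm⟩ := Nat.exists_eq_two_pow_mul_odd hn.ne'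
    have h1 : 2 ^ k • (e • y) = 0 := by
      refine hK2a m _ (fun h => ?_) ?_ (K2.nsmul_mem (hK2b e y hy2) _)
      · exact (Nat.not_even_iff_odd.mpr hm) (even_iff_two_dvd.mpr h)
      · rw [smul_smul, mul_comm, ← hnm]
        exact hne'
    refine hK3a (2 ^ k) _ (fun h => ?_) h1 (hK3b e y hy3)
    have := Nat.prime_three.dvd_of_dvd_pow h
    omega
  -- `e c = 0`
  have hec : e • c = 0 := by
    have h1 : e • (y + c) ∈ K := by
      rw [← hyc]
      exact hKb e _ hyℓ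
    have h2 : e • (y + c) = e • c := by rw [smul_add, hey, zero_add]
    rw [h2] at h1
    refine hKa (p - 1) _ ?_ ?_ h1
    · exact ZeroComp.not_dvd_sub_one hℓ hℓ5 hp hp2
        (ZeroComp.dvd_sub_or_dvd_add W hΔ hℓ hℓΔ hℓc₄ hAℓ hp (Ne.symm hℓp)
          (by rw [← hQord]; exact addOrderOf_nsmul_eq_zero Q)
          (fun h0 => by rw [h0, addOrderOf_zero] at hQord; exact hp.one_lt.ne hQord) hQfix hZ)
    · rw [smul_comm, hcN, smul_zero]
  have hec' : eisInt p e • c = 0 := by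
    rw [← smul_cuspClass p hp e]
    exact hec
  apply heP
  rw [ES.mem_P, eisHom_eq, ZMod.intCast_zmod_eq_zero_iff_dvd]
  have h1 : (addOrderOf c : ℤ) ∣ eisInt p e := addOrderOf_dvd_iff_zsmul_eq_zero.mpr hec'
  exact (Int.natCast_dvd_natCast.mpr hrdvd).trans h1

end Fermat.Agent.Mazur.Endgame
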