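import Mathlib

/-!
# MAZ [L]: lagrangian linear algebra over a principal ideal domain

`E : T → T^*` perfect and skew-symmetric.

* `lagrangian` : if `W` is saturated, `(τ - 1) T ⊆ W`, `E (τ x) (τ y) = χ E x y`, `χ ≠ 1`, and
  `E (W, W) ⊆ ϖ R`, then `W = W^⊥`, `τ = χ` on `W`, and `2 rank W = rank T`.
* `two_mul_finrank_of_similitude` : piece (b).
* `bijective_of_orthogonal` : piece (c).
-/

set_option autoImplicit false
set_option linter.unusedSectionVars false

namespace Fermat.Agent.Mazur.Lagrange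

variable {R T : Type*} [CommRing R] [IsDomain R] [IsPrincipalIdealRing R] [AddCommGroup T]
  [Module R T] [Module.Free R T] [Module.Finite R T]

/-- saturated submodules -/
def Saturated (W : Submodule R T) : Prop := ∀ (a : R) (x : T), a ≠ 0 → a • x ∈ W → x ∈ W

omit [IsDomain R] [IsPrincipalIdealRing R] [Module.Free R T] [Module.Finite R T] in
theorem Saturated.isTorsionFree [IsDomain R] {W : Submodule R T} (hW : Saturated W) :
    Module.IsTorsionFree R (T ⧸ W) := by
  rw [Module.isTorsionFree_iff_smul_eq_zero]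
  intro a x h
  obtain ⟨x, rfl⟩ := Submodule.Quotient.mk_surjective W x
  rw [← Submodule.Quotient.mk_smul, Submodule.Quotient.mk_eq_zero] at h
  rw [Submodule.Quotient.mk_eq_zero]
  by_cases ha : a = 0
  · exact Or.inl ha
  · exact Or.inr (hW a x ha h)

omit [Module.Free R T] in
theorem Saturated.free {W : Submodule R T} (hW : Saturated W) : Module.Free R (T ⧸ W) := by
  have := hW.isTorsionFree
  infer_instance

omit [Module.Free R T] in
/-- the projection onto a saturated submodule -/
theorem Saturated.exists_proj {W : Submodule R T} (hW : Saturated W) :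
    ∃ p : T →ₗ[R] W, ∀ w : W, p w = w := by
  have := hW.free
  obtain ⟨s, hs⟩ := Module.projective_lifting_property W.mkQ LinearMap.id
    (Submodule.mkQ_surjective W)
  have hs' : ∀ x, W.mkQ (s x) = x := fun x => congr($hs x)
  let q : T →ₗ[R] T := LinearMap.id - s.comp W.mkQ
  have hq : ∀ x, q x ∈ W := by
    intro x
    rw [← Submodule.Quotient.mk_eq_zero, ← Submodule.mkQ_apply]
    show W.mkQ (x - s (W.mkQ x)) = 0
    rw [map_sub, hs', sub_self]
  refine ⟨q.codRestrict W hq, fun w => Subtype.ext ?_⟩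
  show (w : T) - s (W.mkQ w) = w
  have : W.mkQ (w : T) = 0 := by
    rw [Submodule.mkQ_apply, Submodule.Quotient.mk_eq_zero]
    exact w.2
  rw [this, map_zero, sub_zero]

omit [IsDomain R] [IsPrincipalIdealRing R] [Module.Finite R T] in
theorem exists_functional_ne_zero {x : T} (hx : x ≠ 0) : ∃ f : T →ₗ[R] R, f x ≠ 0 := by
  let b := Module.Free.chooseBasis R T
  by_contra h
  push Not at h
  apply hx
  apply b.repr.injective
  rw [map_zero]
  ext i
  exact h (b.coord i)

omit [Module.Free R T] in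
theorem Saturated.exists_functional {W : Submodule R T} (hW : Saturated W) {z : T} (hz : z ∉ W) :
    ∃ f : T →ₗ[R] R, (∀ w ∈ W, f w = 0) ∧ f z ≠ 0 := by
  have := hW.free
  obtain ⟨f, hf⟩ := exists_functional_ne_zero (R := R) (x := W.mkQ z) (fun h => hz (by
    rwa [Submodule.mkQ_apply, Submodule.Quotient.mk_eq_zero] at h))
  refine ⟨f.comp W.mkQ, fun w hw => ?_, hf⟩
  show f (W.mkQ w) = 0
  have : W.mkQ w = 0 := by rwa [Submodule.mkQ_apply, Submodule.Quotient.mk_eq_zero]
  rw [this, map_zero]

omit [Module.Free R T] in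
/-- functionals with value `1` -/
theorem Saturated.exists_functional_one {W W' : Submodule R T} (hW : Saturated W)
    (hW' : Saturated W') (hle : W' ≤ W) (hne : ∃ w ∈ W, w ∉ W') :
    ∃ f : T →ₗ[R] R, (∀ w ∈ W', f w = 0) ∧ ∃ w ∈ W, f w = 1 := by
  obtain ⟨p, hp⟩ := hW.exists_proj
  let V : Submodule R W := W'.comap W.subtype
  have hV : Saturated V := fun a x ha h => hW' a (x : T) ha h
  have hfree : Module.Free R (W ⧸ V) := hV.free
  have hnt : Nontrivial (W ⧸ V) := by
    obtain ⟨w, hw, hw'⟩ := hne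
    refine ⟨⟨V.mkQ ⟨w, hw⟩, 0, fun h => hw' ?_⟩⟩
    rwa [Submodule.mkQ_apply, Submodule.Quotient.mk_eq_zero] at h
  let b := Module.Free.chooseBasis R (W ⧸ V)
  obtain ⟨i⟩ : Nonempty (Module.Free.ChooseBasisIndex R (W ⧸ V)) := b.index_nonempty
  obtain ⟨w₀, hw₀⟩ := Submodule.mkQ_surjective V (b i)
  refine ⟨((b.coord i).comp V.mkQ).comp p, fun w hw => ?_, w₀, w₀.2, ?_⟩
  · show b.coord i (V.mkQ (p w)) = 0
    have h1 := hp ⟨w, hle hw⟩
    have h2 : V.mkQ (p w) = 0 := by
      rw [h1, Submodule.mkQ_apply, Submodule.Quotient.mk_eq_zero]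
      exact hw
    rw [h2, map_zero]
  · show b.coord i (V.mkQ (p w₀)) = 1
    rw [hp, hw₀, Module.Basis.coord_apply, Module.Basis.repr_self, Finsupp.single_eq_same]

section pairing

variable (E : T →ₗ[R] T →ₗ[R] R)

/-- the orthogonal -/
def perp (W : Submodule R T) : Submodule R T where
  carrier := {x | ∀ w ∈ W, E x w = 0}
  zero_mem' := fun w _ => by rw [map_zero, LinearMap.zero_apply]
  add_mem' := fun {a b} ha hb w hw => by
    rw [map_add, LinearMap.add_apply, ha w hw, hb w hw, add_zero]
  smul_mem' := fun c x hx w hw => by rw [map_smul, LinearMap.smul_apply, hx w hw, smul_zero]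

omit [IsDomain R] [IsPrincipalIdealRing R] [Module.Free R T] [Module.Finite R T] in
theorem mem_perp {W : Submodule R T} {x : T} : x ∈ perp E W ↔ ∀ w ∈ W, E x w = 0 := Iff.rfl

omit [IsPrincipalIdealRing R] [Module.Free R T] [Module.Finite R T] in
theorem saturated_perp (W : Submodule R T) : Saturated (perp E W) := fun a x ha h w hw => by
  have := h w hw
  rw [map_smul, LinearMap.smul_apply, smul_eq_mul] at this
  exact (mul_eq_zero.mp this).resolve_left ha

variable {E} (hE : Function.Surjective E) (hskew : ∀ x y, E x y = -E y x)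

include hE in
/-- rank formula -/
theorem finrank_perp {W : Submodule R T} (hW : Saturated W) :
    Module.finrank R (perp E W) + Module.finrank R W = Module.finrank R T := by
  obtain ⟨p, hp⟩ := hW.exists_proj
  let ρ : T →ₗ[R] (W →ₗ[R] R) := (LinearMap.lcomp R R W.subtype).comp E
  have hρ : ∀ x (w : W), ρ x w = E x w := fun _ _ => rfl
  have hsurj : Function.Surjective ρ := by
    intro g
    obtain ⟨x, hx⟩ := hE (g.comp p)
    refine ⟨x, LinearMap.ext fun w => ?_⟩
    rw [hρ, hx, LinearMap.comp_apply, hp]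
  have hker : LinearMap.ker ρ = perp E W := by
    ext x
    rw [LinearMap.mem_ker, mem_perp]
    constructor
    · intro h w hw
      exact congr($h ⟨w, hw⟩)
    · intro h
      exact LinearMap.ext fun w => h w w.2
  have h1 := Submodule.finrank_quotient_add_finrank (LinearMap.ker ρ)
  rw [(ρ.quotKerEquivOfSurjective hsurj).finrank_eq, hker] at h1
  have hfree : Module.Free R W := inferInstance
  have h2 : Module.finrank R (W →ₗ[R] R) = Module.finrank R W :=
    ((Module.Free.chooseBasis R W).toDualEquiv).finrank_eq.symm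
  rw [h2] at h1
  omega

omit [Module.Free R T] in
include hE hskew in
theorem perp_perp {W : Submodule R T} (hW : Saturated W) : perp E (perp E W) = W := by
  apply le_antisymm
  · intro z hz
    by_contra hzW
    obtain ⟨f, hf, hfz⟩ := hW.exists_functional hzW
    obtain ⟨y, rfl⟩ := hE f
    have h1 := hz y hf
    rw [hskew, h1, neg_zero] at hfz
    exact hfz rfl
  · intro w hw y hy
    rw [hskew, hy w hw, neg_zero]

include hE hskew in
/-- an isotropic modulo `ϖ` coisotropic saturated submodule is lagrangian. -/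
theorem le_perp {W : Submodule R T} (hW : Saturated W) (hle : perp E W ≤ W) {ϖ : R}
    (hϖ : ¬ IsUnit ϖ) (hdvd : ∀ x ∈ W, ∀ y ∈ W, ϖ ∣ E x y) : W ≤ perp E W := by
  by_contra hcon
  have hne : ∃ w ∈ W, w ∉ perp E W := by
    rw [SetLike.le_def] at hcon
    push Not at hcon
    exact hcon
  obtain ⟨f, hf, w, hw, hw1⟩ := hW.exists_functional_one (saturated_perp E W) hle hne
  obtain ⟨z, rfl⟩ := hE f
  have hz : z ∈ W := by
    rw [← perp_perp hE hskew hW]
    exact hf
  have := hdvd z hz w hw
  rw [hw1] at this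
  exact hϖ (isUnit_of_dvd_one this)

include hE hskew in
/-- **(a)** -/
theorem lagrangian {W : Submodule R T} (hW : Saturated W) (τ : T →ₗ[R] T) {χ : R} (hχ : χ ≠ 1)
    (hτsurj : Function.Surjective τ)
    (hτ : ∀ x y, E (τ x) (τ y) = χ * E x y) (hτW : ∀ x, τ x - x ∈ W) {ϖ : R} (hϖ : ¬ IsUnit ϖ)
    (hdvd : ∀ x ∈ W, ∀ y ∈ W, ϖ ∣ E x y) (hinj : Function.Injective E) :
    perp E W = W ∧ (∀ w ∈ W, τ w = χ • w) ∧ 2 * Module.finrank R W = Module.finrank R T := by
  have h1 : ∀ x ∈ perp E W, τ x = χ • x := by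
    intro x hx
    apply hinj
    refine LinearMap.ext fun y => ?_
    obtain ⟨y, rfl⟩ := hτsurj y
    rw [hτ, map_smul, LinearMap.smul_apply, smul_eq_mul]
    have h2 := hx _ (hτW y)
    rw [map_sub, sub_eq_zero] at h2
    rw [h2]
  have h2 : perp E W ≤ W := by
    intro x hx
    have h3 := hτW x
    rw [h1 x hx] at h3
    have h4 : χ • x - x = (χ - 1) • x := by rw [sub_smul, one_smul]
    rw [h4] at h3
    exact hW _ x (sub_ne_zero.mpr hχ) h3
  have h3 := le_perp hE hskew hW h2 hϖ hdvd
  have h4 : perp E W = W := le_antisymm h2 h3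
  refine ⟨h4, fun w hw => h1 w (h3 hw), ?_⟩
  have h5 := finrank_perp hE hW
  rw [h4] at h5
  omega

include hE in
/-- isotropic submodules have rank at most half -/
theorem two_mul_finrank_le {A : Submodule R T} (hA : Saturated A)
    (hiso : ∀ x ∈ A, ∀ y ∈ A, E x y = 0) : 2 * Module.finrank R A ≤ Module.finrank R T := by
  have h1 : A ≤ perp E A := fun x hx y hy => hiso x hx y hy
  have h2 := finrank_perp hE hA
  have h3 := Submodule.finrank_mono h1
  omega

include hE in
/-- **(b)** -/
theorem two_mul_finrank_of_similitude (φ : T →ₗ[R] T) {N : R} (hN0 : N ≠ 0) (hN1 : N ^ 2 ≠ 1)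
    (hφ : ∀ x y, E (φ x) (φ y) = N * E x y) {A : Submodule R T} (hA : Saturated A)
    (h1 : ∀ x ∈ A, φ (φ x) = N ^ 2 • x) (h2 : ∀ x, φ (φ x) - x ∈ A) :
    2 * Module.finrank R A = Module.finrank R T := by
  have hφ2 : ∀ x y, E (φ (φ x)) (φ (φ y)) = N ^ 2 * E x y := fun x y => by
    rw [hφ, hφ]; ring
  have hN1' : N ^ 2 - 1 ≠ 0 := sub_ne_zero.mpr hN1
  have hN2 : N ^ 2 ≠ 0 := pow_ne_zero 2 hN0
  -- `A` is isotropic
  have hisoA : ∀ x ∈ A, ∀ y ∈ A, E x y = 0 := by
    intro x hx y hy
    have h3 := hφ2 x y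
    rw [h1 x hx, h1 y hy, map_smul, map_smul, LinearMap.smul_apply, smul_eq_mul,
      smul_eq_mul] at h3
    have h4 : (N ^ 2 * (N ^ 2 - 1)) * E x y = 0 := by linear_combination h3
    exact (mul_eq_zero.mp h4).resolve_left (mul_ne_zero hN2 hN1')
  -- the fixed part
  let B : Submodule R T := LinearMap.ker (φ.comp φ - LinearMap.id)
  have hB : ∀ x, x ∈ B ↔ φ (φ x) = x := fun x => by
    rw [LinearMap.mem_ker, LinearMap.sub_apply, sub_eq_zero]; rfl
  have hBsat : Saturated B := by
    intro a x ha hx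
    rw [hB, map_smul, map_smul] at hx
    rw [hB]
    exact smul_right_injective T ha hx
  have hisoB : ∀ x ∈ B, ∀ y ∈ B, E x y = 0 := by
    intro x hx y hy
    have h3 := hφ2 x y
    rw [(hB x).mp hx, (hB y).mp hy] at h3
    have h4 : (N ^ 2 - 1) * E x y = 0 := by linear_combination -h3
    exact (mul_eq_zero.mp h4).resolve_left hN1'
  -- `T / (A + B)` is torsion
  have hsum : ∀ x : T, (N ^ 2 - 1) • x ∈ A ⊔ B := by
    intro x
    have h3 : φ (φ x) - x ∈ A := h2 x
    have h4 : N ^ 2 • x - φ (φ x) ∈ B := by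
      rw [hB, map_sub, map_sub, map_smul, map_smul]
      have h5 := h1 _ h3
      rw [map_sub, map_sub, smul_sub] at h5
      -- `φ⁴ x - φ² x = N² φ² x - N² x`
      have h6 : φ (φ (φ (φ x))) = N ^ 2 • φ (φ x) - N ^ 2 • x + φ (φ x) := by
        rw [← h5]; abel
      rw [h6]; abel
    have h5 : (N ^ 2 - 1) • x = (φ (φ x) - x) + (N ^ 2 • x - φ (φ x)) := by
      rw [sub_smul, one_smul]; abel
    rw [h5]
    exact Submodule.add_mem_sup h3 h4
  have hrank : Module.finrank R T ≤ Module.finrank R A + Module.finrank R B := by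
    have h3 := LinearMap.finrank_range_le (A.subtype.coprod B.subtype)
    rw [LinearMap.range_coprod, Submodule.range_subtype, Submodule.range_subtype,
      Module.finrank_prod] at h3
    refine le_trans ?_ h3
    let m : T →ₗ[R] ↥(A ⊔ B) := ((N ^ 2 - 1) • LinearMap.id).codRestrict _ hsum
    have hm : Function.Injective m := by
      intro x y hxy
      have h4 : (N ^ 2 - 1) • x = (N ^ 2 - 1) • y := congrArg Subtype.val hxy
      exact smul_right_injective T hN1' h4
    exact LinearMap.finrank_le_finrank_of_injective hm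
  have h3 := two_mul_finrank_le hE hA hisoA
  have h4 := two_mul_finrank_le hE hBsat hisoB
  omega

end pairing

section orth

variable {S M : Type*} [CommRing S] [AddCommGroup M] [Module S M]

/-- **(c)** a perfect pairing restricts to a perfect pairing on an orthogonal summand. -/
theorem bijective_of_orthogonal (E : M →ₗ[S] M →ₗ[S] S) (hE : Function.Bijective E)
    (P Q : Submodule S M) (hPQ : IsCompl P Q) (horth : ∀ x ∈ P, ∀ y ∈ Q, E x y = 0)
    (horth' : ∀ x ∈ Q, ∀ y ∈ P, E x y = 0) :
    Function.Bijective (((LinearMap.lcomp S S P.subtype).comp E).comp P.subtype :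
      P →ₗ[S] (P →ₗ[S] S)) := by
  have hval : ∀ x y : P, (((LinearMap.lcomp S S P.subtype).comp E).comp P.subtype) x y =
    E (x : M) (y : M) := fun _ _ => rfl
  constructor
  · rw [← LinearMap.ker_eq_bot, LinearMap.ker_eq_bot']
    intro x hx
    apply Subtype.ext
    apply hE.1
    rw [Submodule.coe_zero, map_zero]
    refine LinearMap.ext fun y => ?_
    obtain ⟨a, b, hab⟩ : ∃ (a : P) (b : Q), (a : M) + b = y := by
      have : y ∈ P ⊔ Q := by rw [hPQ.sup_eq_top]; trivial
      obtain ⟨a, ha, b, hb, hab⟩ := Submodule.mem_sup.mp this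
      exact ⟨⟨a, ha⟩, ⟨b, hb⟩, hab⟩
    rw [← hab, map_add, horth x x.2 b b.2, add_zero]
    exact congr($hx a)
  · intro g
    let p : M →ₗ[S] P := P.projectionOnto Q hPQ
    obtain ⟨z, hz⟩ := hE.2 (g.comp p)
    refine ⟨p z, LinearMap.ext fun y => ?_⟩
    rw [hval]
    have h1 : z - p z ∈ Q := by
      have := Submodule.ker_projectionOnto hPQ
      rw [← this, LinearMap.mem_ker, map_sub, sub_eq_zero]
      exact (Submodule.projectionOnto_apply_left hPQ (p z)).symm
    have h2 := horth' _ h1 y y.2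
    rw [map_sub, LinearMap.sub_apply, sub_eq_zero] at h2
    rw [← h2, hz, LinearMap.comp_apply]
    congr 1
    exact Submodule.projectionOnto_apply_left hPQ y

end orth

end Fermat.Agent.Mazur.Lagrange
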