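import Fermat.Agent.Mazur.PairTAbs
import Fermat.Agent.Mazur.Weil.Nondeg
import Fermat.Agent.Mazur.Weil.HeckeAdj
import Fermat.Agent.JAN.AnnFinal
import Fermat.Agent.GAL.FiniteXN

/-!
# The Weil pairing on the Tate module of `J₀(N)` (piece PAIR-T of S15)
-/

set_option autoImplicit false
set_option linter.unusedSectionVars false
set_option linter.style.haveILetI false

noncomputable section

open AlgebraicCurve ModularCurve

namespace Fermat.Agent.Mazur.PairT

open Fermat.Agent.Tate Fermat.Agent.Mazur.Unit Fermat.Agent.Mazur.Weil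

local notation "Qb" => AlgebraicClosure ℚ
local notation "GQ" => AlgebraicClosure ℚ ≃ₐ[ℚ] AlgebraicClosure ℚ

/-- The Weil pairings on `Pic⁰` form a system in the sense of `IsWeil`. -/
theorem isWeil_weil (r : ℕ) (F : Type*) [Field F] [Algebra Qb F] [RR.FunctionField Qb F] :
    IsWeil r (fun (k : ℕ) (x y : Pic0 Qb F) => weil (r ^ k) x y) where
  add_right k x y z hx hy hz := weil_add_right hx hy hz
  swap k x y := weil_swap _ x y
  ne_zero k x y := weil_ne_zero _ x y
  pow k x y := weil_pow _ x y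
  compat k x y hx hy := by
    have hx' : (r * r ^ k) • x = 0 := by rw [← pow_succ']; exact hx
    rw [pow_succ']
    exact weil_mul r hx' hy

section Modular

variable (N : ℕ) [NeZero N] {r : ℕ} [hr : Fact r.Prime] {ζ : ℕ → Qb} (hζ : IsSys r ζ)

/-- The system of Weil pairings on `J₀(N)[r^k]`. -/
theorem isWeil_jZero (r : ℕ) :
    IsWeil r (J := JZero N) (fun (k : ℕ) (x y : JZero N) =>
      haveI := Weil.functionField_bar N; weil (r ^ k) x y) := by
  haveI := Weil.functionField_bar N
  exact isWeil_weil r (modularFunctionFieldBar N)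

/-- **The Weil pairing on `T_r J₀(N)`.** -/
def weilT : TateModule r (JZero N) →ₗ[ℤ_[r]] TateModule r (JZero N) →ₗ[ℤ_[r]] ℤ_[r] :=
  pairT (isWeil_jZero N r) hζ

/-- The relation with the Weil pairings at finite level. -/
theorem zp_weilT (x y : TateModule r (JZero N)) (k : ℕ) :
    zp ζ k (weilT N hζ x y) =
      (haveI := Weil.functionField_bar N; weil (r ^ k) (ev k x) (ev k y)) :=
  zp_pairT (isWeil_jZero N r) hζ x y k

theorem weilT_swap (x y : TateModule r (JZero N)) : weilT N hζ x y = -weilT N hζ y x :=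
  pairT_swap (isWeil_jZero N r) hζ x y

/-- Galois equivariance. -/
theorem weilT_gal {χ : GQ → ℤ_[r]} (hχ : IsCyc ζ χ) (σ : GQ) (x y : TateModule r (JZero N)) :
    weilT N hζ (gT σ x) (gT σ y) = χ σ * weilT N hζ x y := by
  haveI := Weil.functionField_bar N
  exact pairT_gal (isWeil_jZero N r) hζ hχ (fun k x y _ _ => weil_galois (r ^ k) σ x y) x y

theorem jZero_torsion_finite {n : ℕ} (hn : 0 < n) : {x : JZero N | n • x = 0}.Finite :=
  GAL.JanMain.finite (JAN.janMain N) hn

/-- **Perfectness.** -/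
theorem weilT_perfect (f : TateModule r (JZero N) →ₗ[ℤ_[r]] ℤ_[r]) :
    ∃ z, ∀ x, weilT N hζ x z = f x := by
  haveI := Weil.functionField_bar N
  refine pairT_perfect (isWeil_jZero N r) hζ ?_ ?_ ?_ f
  · exact (jZero_torsion_finite N hr.out.pos).to_subtype
  · exact fun x => JAN.AnnFinal.jZero_divisible N hr.out.ne_zero x
  · intro x hx h
    refine eq_zero_of_weil hr.out.ne_zero hx fun y hy => ?_
    have h1 := h y hy
    have h2 : weil (r ^ 1) x y = 1 := h1
    rwa [pow_one] at h2

theorem weilT_nondeg {z : TateModule r (JZero N)} (hz : ∀ x, weilT N hζ x z = 0) : z = 0 := by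
  haveI := Weil.functionField_bar N
  refine pairT_nondeg (isWeil_jZero N r) hζ ?_ ?_ hz
  · exact fun x => JAN.AnnFinal.jZero_divisible N hr.out.ne_zero x
  · intro x hx h
    refine eq_zero_of_weil hr.out.ne_zero hx fun y hy => ?_
    have h1 := h y hy
    have h2 : weil (r ^ 1) x y = 1 := h1
    rwa [pow_one] at h2

/-- `weilT` induces an isomorphism of `T` with its dual. -/
theorem weilT_bijective : Function.Bijective (weilT N hζ) := by
  constructor
  · rw [injective_iff_map_eq_zero]
    intro z hz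
    refine weilT_nondeg N hζ fun x => ?_
    rw [weilT_swap N hζ x z, hz, LinearMap.zero_apply, neg_zero]
  · intro f
    obtain ⟨z, hz⟩ := weilT_perfect N hζ f
    refine ⟨-z, LinearMap.ext fun x => ?_⟩
    rw [map_neg, LinearMap.neg_apply, weilT_swap N hζ z x, neg_neg, hz]

/-- `T_ℓ`, `ℓ ∤ N`, is self-adjoint. -/
theorem weilT_hecke (ℓ : Nat.Primes) (hℓN : ¬ (ℓ : ℕ) ∣ N) (x y : TateModule r (JZero N)) :
    weilT N hζ (Tate.map (heckeOperatorBar N ℓ).toAddMonoidHom x) y =
      weilT N hζ x (Tate.map (heckeOperatorBar N ℓ).toAddMonoidHom y) := by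
  haveI := Weil.functionField_bar N
  exact pairT_adj (isWeil_jZero N r) hζ (fun k x y hx hy => weil_hecke N ℓ hℓN hx hy) x y

/-- Self-adjointness for a ring `R` acting on `J₀(N)` and generated by elements acting as
operators `T_ℓ`, `ℓ ∤ N`. -/
theorem weilT_selfadj {R : Type*} [CommRing R] [Module R (JZero N)] {s : Set R}
    (hs : Algebra.adjoin ℤ s = ⊤)
    (h : ∀ c ∈ s, ∃ ℓ : Nat.Primes, ¬ (ℓ : ℕ) ∣ N ∧ ∀ x : JZero N,
      c • x = heckeOperatorBar N ℓ x) (c : R) (x y : TateModule r (JZero N)) :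
    weilT N hζ (Tate.map (DistribSMul.toAddMonoidHom (JZero N) c) x) y =
      weilT N hζ x (Tate.map (DistribSMul.toAddMonoidHom (JZero N) c) y) := by
  haveI := Weil.functionField_bar N
  refine pairT_selfadj (isWeil_jZero N r) hζ hs (fun c hc k x y hx hy => ?_) c x y
  obtain ⟨ℓ, hℓ, hc⟩ := h c hc
  rw [hc, hc]
  exact weil_hecke N ℓ hℓ hx hy

/-- Self-adjointness for a polynomial ring acting through the `T_ℓ`, `ℓ ∤ N`. -/
theorem weilT_selfadj_mvPolynomial {ι : Type*} [Module (MvPolynomial ι ℤ) (JZero N)]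
    (g : ι → Nat.Primes) (hg : ∀ i, ¬ (g i : ℕ) ∣ N)
    (h : ∀ (i : ι) (x : JZero N), (MvPolynomial.X i : MvPolynomial ι ℤ) • x =
      heckeOperatorBar N (g i) x) (c : MvPolynomial ι ℤ) (x y : TateModule r (JZero N)) :
    weilT N hζ (Tate.map (DistribSMul.toAddMonoidHom (JZero N) c) x) y =
      weilT N hζ x (Tate.map (DistribSMul.toAddMonoidHom (JZero N) c) y) := by
  refine weilT_selfadj N hζ (s := Set.range MvPolynomial.X) (MvPolynomial.adjoin_range_X) ?_ c x y
  rintro c ⟨i, rfl⟩
  exact ⟨g i, hg i, h i⟩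

end Modular

end Fermat.Agent.Mazur.PairT
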