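import Fermat.Agent.Mazur.TheoremA
import Fermat.Agent.Mazur.Unit.AtR
import Fermat.Agent.DR.NInput
import Fermat.Agent.MW.Assembly

/-!
# Theorem A for `J₀(N)`: an element outside the Eisenstein ideal maps `J₀(N)(ℚ)` to torsion
-/

set_option autoImplicit false
set_option linter.unusedSectionVars false
set_option linter.style.haveILetI false

open PadicInt ModularCurve AlgebraicCurve

namespace Fermat.Agent.Mazur.Modular

open Fermat.Agent.Tate Fermat.Agent.Mazur.Unit Fermat.Agent.Mazur.PairT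
open Fermat.Agent.Mazur.TheoremA

local notation "Qb" => AlgebraicClosure ℚ
local notation "GQ" => AlgebraicClosure ℚ ≃ₐ[ℚ] AlgebraicClosure ℚ

variable {N : ℕ} [NeZero N] {r : ℕ} [hr : Fact r.Prime]

theorem quad (hN : N.Prime) (m : ℕ) (σ : GQ) :
    letI := ES.modRN N
    ∃ c : ℕ, (c : ZMod r) = Cyclotomic.cyc r σ ∧ ∃ a ∈ ES.P N r,
      ∀ v : JZero N, r ^ m • v = 0 →
        σ • σ • v + c • v = (1 + c) • (σ • v) + a • (σ • v) := by
  letI := ES.modRN N
  haveI : NeZero (r ^ m) := ⟨pow_ne_zero _ hr.out.ne_zero⟩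
  obtain ⟨ℓ, -, -, h1, h2⟩ := ES.es_density N hN r m σ
  refine ⟨(ℓ : ℕ), h1, (MvPolynomial.X ℓ : ES.RN N) - 1 - ((ℓ : ℕ) : ES.RN N),
    ES.X_sub_mem_P N r ℓ, fun v hv => ?_⟩
  have h3 : σ • σ • v + (ℓ : ℕ) • v = (MvPolynomial.X ℓ : ES.RN N) • (σ • v) := h2 v hv
  rw [h3, sub_smul, sub_smul, one_smul, Nat.cast_smul_eq_nsmul, add_smul, one_smul]
  abel

theorem unram (hN : N.Prime) (q : ℕ) (hq : q.Prime) (hqN : q ≠ N) (hqr : q ≠ r) :
    ∃ Q : ValuationSubring Qb, Q.LiesOverPrime q ∧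
      ∀ τ ∈ Q.inertiaSubgroupIn ℚ, ∀ (y : JZero N) (k : ℕ),
        r ^ k • (τ • y - y) = 0 → τ • y = y := by
  letI := heckeModuleBar N
  have I := (GAL.Final.galInputs DR.allInputs N r hr.out).inputs hr.out ({r} : Finset ℕ)
  haveI : SMulCommClass GQ HeckeAlg (JZero N) := I.galois_hecke
  have hspec : SpecializationExists (K := ℚ) (L := Qb) N r (JZero N) :=
    I.specialization I.galois_hecke
  obtain ⟨Q, hQ⟩ := FrobExists.exists_liesOverPrime Qb hq
  have hnd : ¬ q ∣ N * r := by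
    intro h
    rcases (Nat.Prime.dvd_mul hq).mp h with h | h
    · exact hqN ((Nat.prime_dvd_prime_iff_eq hq hN).mp h)
    · exact hqr ((Nat.prime_dvd_prime_iff_eq hq hr.out).mp h)
  obtain ⟨J', _, _, sp, F, hsp, -⟩ := hspec q hq hnd Q hQ
  refine ⟨Q, hQ, fun τ hτ y k h => ?_⟩
  rw [← sub_eq_zero]
  refine hsp.injective_torsion _ ⟨k, h⟩ ?_
  rw [map_sub, hsp.inertia_comm τ hτ, sub_self]

/-- **Theorem A.** -/
theorem theoremA (hN : N.Prime) (hrN : r ≠ N) :
    letI := ES.modRN N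
    ∃ c : ES.RN N, c ∉ ES.P N r ∧
      ∀ x : JZero N, (∀ σ : GQ, σ • x = x) → ∃ n : ℕ, 0 < n ∧ n • (c • x) = 0 := by
  letI := ES.modRN N
  haveI := ES.smulComm N
  obtain ⟨ζ, hζ⟩ := exists_isSys r
  have hχ := isCyc_cyclo hζ
  obtain ⟨A, hA⟩ := FrobExists.exists_liesOverPrime Qb hr.out
  obtain ⟨B, hB⟩ := FrobExists.exists_liesOverPrime Qb hN
  obtain ⟨φ, hφ⟩ := FrobExists.exists_isFrobeniusAt B hN hB
  obtain ⟨Tor, hTor, hTorF⟩ := DR.NInput.nInput (r := r) hN hrN.symm hB hφ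
  obtain ⟨Tc, TP, e, h1, h2, h3, h4, h5, h6, h7, h8⟩ := inputs_at_r hN hrN hA hζ hχ
  have H : Inputs N (ES.P N r) (MvPolynomial.X ⟨⟨r, hr.out⟩, hrN⟩ : ES.RN N) ζ (cyclo r)
      (weilT N hζ) B φ Tor A Tc TP e :=
    { primeN := hN
      rN := hrN
      fin := (jZero_torsion_finite N hr.out.pos).to_subtype
      div := fun x => JAN.AnnFinal.jZero_divisible N hr.out.ne_zero x
      smooth := fun y => GAL.Smooth.smooth_JZero N y
      fg := MW.Assembly.fg_JZero N
      Pint := ES.Pint N r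
      rP := ES.natCast_mem_P N r
      ne_top := ES.P_ne_top N r
      UP := by
        have h := (ES.P N r).add_mem (ES.X_sub_mem_P N r ⟨⟨r, hr.out⟩, hrN⟩)
          (ES.natCast_mem_P N r)
        rwa [sub_add_cancel] at h
      sys := hζ
      cyc := hχ
      quad := quad hN
      unram := unram hN
      perf := weilT_perfect N hζ
      gal := weilT_gal N hζ hχ
      selfadj := fun c x y => weilT_selfadj_mvPolynomial N hζ
        (fun ℓ : {ℓ : Nat.Primes // (ℓ : ℕ) ≠ N} => ℓ.1)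
        (fun ℓ h => ℓ.2 ((Nat.prime_dvd_prime_iff_eq ℓ.1.2 hN).mp h))
        (fun ℓ x => X_smul N ℓ x) c x y
      liesN := hB
      frob := hφ
      tor := hTor
      torF := hTorF
      liesr := hA
      inertia := h1
      e_mem := h2
      e_id := h3
      e_c := h4
      e_pow := h5
      iso := h6
      actW := h7
      unit := h8 }
  exact H.exists_not_mem

end Fermat.Agent.Mazur.Modular
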