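import Fermat.Agent.Mazur.Unit.Pair

/-!
# From Weil pairings on `J[r^k]` to a pairing on the Tate module (piece PAIR-T of S15)

`IsWeil r w`: `w k : J × J → ℚ̄` is bimultiplicative on `J[r^k]`, antisymmetric, compatible in `k`
and with values in roots of unity.  With a compatible system `ζ` of roots of unity we get
`pairT : T_r J × T_r J → ℤ_r` with `ζ_k ^ pairT x y = w k x_k y_k`.
-/

set_option autoImplicit false

open PadicInt

namespace Fermat.Agent.Mazur.PairT

open Fermat.Agent.Tate Fermat.Agent.Mazur.Unit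

local notation "Qb" => AlgebraicClosure ℚ
local notation "GQ" => AlgebraicClosure ℚ ≃ₐ[ℚ] AlgebraicClosure ℚ

/-- Abstract Weil pairings of level `r^k`. -/
structure IsWeil (r : ℕ) {J : Type*} [AddCommGroup J] (w : ℕ → J → J → Qb) : Prop where
  add_right : ∀ (k : ℕ) (x y z : J), r ^ k • x = 0 → r ^ k • y = 0 → r ^ k • z = 0 →
    w k x (y + z) = w k x y * w k x z
  swap : ∀ (k : ℕ) (x y : J), w k y x = (w k x y)⁻¹
  ne_zero : ∀ (k : ℕ) (x y : J), w k x y ≠ 0
  pow : ∀ (k : ℕ) (x y : J), w k x y ^ r ^ k = 1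
  compat : ∀ (k : ℕ) (x y : J), r ^ (k + 1) • x = 0 → r ^ k • y = 0 →
    w (k + 1) x y = w k (r • x) y

section zp

variable {r : ℕ} [hr : Fact r.Prime] {ζ : ℕ → Qb} (hζ : IsSys r ζ)

include hζ

theorem zp_mul_appr (k : ℕ) (c a : ℤ_[r]) : zp ζ k (c * a) = zp ζ k a ^ c.appr k := by
  rw [← zp_nat_mul hζ]
  apply zp_congr hζ
  rw [map_mul, map_mul, map_natCast]
  rfl

theorem dvd_iff_zp_one {a : ℤ_[r]} : (r : ℤ_[r]) ∣ a ↔ zp ζ 1 a = 1 := by
  rw [zp_eq_one_iff hζ, ← RingHom.mem_ker, ker_toZModPow, pow_one, Ideal.mem_span_singleton]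

theorem zp_ext {a b : ℤ_[r]} (h : ∀ k, zp ζ k a = zp ζ k b) : a = b :=
  ext_of_toZModPow.mp fun k => zp_inj hζ (h k)

/-- A compatible system of `r`-power roots of unity is `ζ ^ a`. -/
theorem exists_zp {u : ℕ → Qb} (h1 : ∀ k, u k ^ r ^ k = 1) (h2 : ∀ k, u (k + 1) ^ r = u k) :
    ∃ a : ℤ_[r], ∀ k, zp ζ k a = u k := by
  have hn : ∀ k, ∃ n : ℕ, ζ k ^ n = u k := by
    intro k
    have : NeZero (r ^ k) := ⟨pow_ne_zero k hr.out.ne_zero⟩
    obtain ⟨i, -, hi⟩ := (hζ.prim k).eq_pow_of_pow_eq_one (h1 k)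
    exact ⟨i, hi⟩
  choose n hn using hn
  have h3 : ∀ k, ((n (k + 1) : ℕ) : ZMod (r ^ k)) = (n k : ZMod (r ^ k)) := by
    intro k
    rw [← pow_eq_pow_iff' hζ, hn k, ← h2 k, ← hn (k + 1), ← pow_mul, mul_comm, pow_mul,
      hζ.pow_succ]
  have h4 : ∀ k l, k ≤ l → ((n l : ℕ) : ZMod (r ^ k)) = (n k : ZMod (r ^ k)) := by
    intro k l hkl
    induction l, hkl using Nat.le_induction with
    | base => rfl
    | succ l hkl ih =>
      rw [← ih]
      have h5 := congrArg (ZMod.castHom (pow_dvd_pow r hkl) (ZMod (r ^ k))) (h3 l)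
      rwa [map_natCast, map_natCast] at h5
  have h5 : ∀ {k l : ℕ}, k ≤ l → ((n k : ℕ) : ℤ_[r]) ≡ ((n l : ℕ) : ℤ_[r])
      [SMOD (IsLocalRing.maximalIdeal ℤ_[r] ^ k • ⊤ : Submodule ℤ_[r] ℤ_[r])] := by
    intro k l hkl
    rw [SModEq.sub_mem, smul_eq_mul, Ideal.mul_top, PadicInt.maximalIdeal_eq_span_p,
      Ideal.span_singleton_pow, ← ker_toZModPow, RingHom.mem_ker, map_sub, map_natCast,
      map_natCast, h4 k l hkl, sub_self]
  obtain ⟨v, hv⟩ := IsPrecomplete.prec (I := IsLocalRing.maximalIdeal ℤ_[r])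
    (M := ℤ_[r]) inferInstance (f := fun k => ((n k : ℕ) : ℤ_[r])) h5
  refine ⟨v, fun k => ?_⟩
  have h6 := hv k
  rw [SModEq.sub_mem, smul_eq_mul, Ideal.mul_top, PadicInt.maximalIdeal_eq_span_p,
      Ideal.span_singleton_pow, ← ker_toZModPow, RingHom.mem_ker, map_sub, map_natCast,
      sub_eq_zero] at h6
  rw [zp_eq_pow hζ h6.symm, hn]

end zp

namespace IsWeil

variable {r : ℕ} {J : Type*} [AddCommGroup J] {w : ℕ → J → J → Qb} (W : IsWeil r w)

include W

theorem add_left (k : ℕ) (x y z : J) (hx : r ^ k • x = 0) (hy : r ^ k • y = 0)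
    (hz : r ^ k • z = 0) : w k (x + y) z = w k x z * w k y z := by
  rw [W.swap k z (x + y), W.add_right k z x y hz hx hy, _root_.mul_inv, ← W.swap, ← W.swap]

theorem zero_right (k : ℕ) (x : J) (hx : r ^ k • x = 0) : w k x 0 = 1 := by
  have h := W.add_right k x 0 0 hx (smul_zero _) (smul_zero _)
  rw [add_zero] at h
  exact (mul_eq_left₀ (W.ne_zero k x 0)).mp h.symm

theorem zero_left (k : ℕ) (x : J) (hx : r ^ k • x = 0) : w k 0 x = 1 := by
  rw [W.swap k x 0, W.zero_right k x hx, inv_one]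

theorem nsmul_right (k : ℕ) (x y : J) (hx : r ^ k • x = 0) (hy : r ^ k • y = 0) (m : ℕ) :
    w k x (m • y) = w k x y ^ m := by
  induction m with
  | zero => rw [zero_nsmul, W.zero_right k x hx, pow_zero]
  | succ m ih =>
    rw [succ_nsmul, W.add_right k x _ y hx (by rw [smul_comm, hy, smul_zero]) hy, ih, pow_succ]

theorem nsmul_left (k : ℕ) (x y : J) (hx : r ^ k • x = 0) (hy : r ^ k • y = 0) (m : ℕ) :
    w k (m • x) y = w k x y ^ m := by
  rw [W.swap k y (m • x), W.nsmul_right k y x hy hx, W.swap k x y, inv_pow, inv_inv]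

variable [hr : Fact r.Prime] {ζ : ℕ → Qb} (hζ : IsSys r ζ)

omit hr in
theorem ev_succ_pow (x y : TateModule r J) (k : ℕ) :
    w (k + 1) (ev (k + 1) x) (ev (k + 1) y) ^ r = w k (ev k x) (ev k y) := by
  rw [← W.nsmul_right (k + 1) _ _ (pow_smul_ev _ _) (pow_smul_ev _ _), smul_ev_succ,
    W.compat k _ _ (pow_smul_ev _ _) (pow_smul_ev _ _), smul_ev_succ]

include hζ

theorem exists_pair (x y : TateModule r J) :
    ∃ a : ℤ_[r], ∀ k, zp ζ k a = w k (ev k x) (ev k y) :=
  exists_zp hζ (fun k => W.pow k _ _) (W.ev_succ_pow x y)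

end IsWeil

section pair

variable {r : ℕ} [hr : Fact r.Prime] {J : Type*} [AddCommGroup J] {w : ℕ → J → J → Qb}
  (W : IsWeil r w) {ζ : ℕ → Qb} (hζ : IsSys r ζ)

/-- the value of the pairing -/
noncomputable def pval (x y : TateModule r J) : ℤ_[r] := (W.exists_pair hζ x y).choose

theorem zp_pval (x y : TateModule r J) (k : ℕ) :
    zp ζ k (pval W hζ x y) = w k (ev k x) (ev k y) := (W.exists_pair hζ x y).choose_spec k

theorem pval_add_right (x y z : TateModule r J) :
    pval W hζ x (y + z) = pval W hζ x y + pval W hζ x z :=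
  zp_ext hζ fun k => by
    rw [zp_add hζ, zp_pval, zp_pval, zp_pval, map_add,
      W.add_right k _ _ _ (pow_smul_ev _ _) (pow_smul_ev _ _) (pow_smul_ev _ _)]

theorem pval_add_left (x y z : TateModule r J) :
    pval W hζ (x + y) z = pval W hζ x z + pval W hζ y z :=
  zp_ext hζ fun k => by
    rw [zp_add hζ, zp_pval, zp_pval, zp_pval, map_add,
      W.add_left k _ _ _ (pow_smul_ev _ _) (pow_smul_ev _ _) (pow_smul_ev _ _)]

theorem pval_smul_right (c : ℤ_[r]) (x y : TateModule r J) :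
    pval W hζ x (c • y) = c * pval W hζ x y :=
  zp_ext hζ fun k => by
    rw [zp_mul_appr hζ, zp_pval, zp_pval, ev_smul',
      W.nsmul_right k _ _ (pow_smul_ev _ _) (pow_smul_ev _ _)]

theorem pval_smul_left (c : ℤ_[r]) (x y : TateModule r J) :
    pval W hζ (c • x) y = c * pval W hζ x y :=
  zp_ext hζ fun k => by
    rw [zp_mul_appr hζ, zp_pval, zp_pval, ev_smul',
      W.nsmul_left k _ _ (pow_smul_ev _ _) (pow_smul_ev _ _)]

/-- **The pairing on the Tate module.** -/
noncomputable def pairT : TateModule r J →ₗ[ℤ_[r]] TateModule r J →ₗ[ℤ_[r]] ℤ_[r] :=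
  LinearMap.mk₂ ℤ_[r] (pval W hζ) (pval_add_left W hζ) (pval_smul_left W hζ)
    (pval_add_right W hζ) (pval_smul_right W hζ)

theorem zp_pairT (x y : TateModule r J) (k : ℕ) :
    zp ζ k (pairT W hζ x y) = w k (ev k x) (ev k y) := zp_pval W hζ x y k

/-- characterisation -/
theorem eq_pairT {a : ℤ_[r]} {x y : TateModule r J}
    (h : ∀ k, zp ζ k a = w k (ev k x) (ev k y)) : a = pairT W hζ x y :=
  zp_ext hζ fun k => by rw [h, zp_pairT]

/-- antisymmetry -/
theorem pairT_swap (x y : TateModule r J) : pairT W hζ x y = -pairT W hζ y x := by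
  rw [eq_neg_iff_add_eq_zero]
  refine zp_ext hζ fun k => ?_
  rw [zp_add hζ, zp_pairT, zp_pairT, W.swap k (ev k x) (ev k y), zp_zero hζ,
    mul_inv_cancel₀ (W.ne_zero k _ _)]

/-- adjoint endomorphisms -/
theorem pairT_adj {f g : J →+ J}
    (h : ∀ (k : ℕ) (x y : J), r ^ k • x = 0 → r ^ k • y = 0 → w k (f x) y = w k x (g y))
    (x y : TateModule r J) :
    pairT W hζ (Tate.map f x) y = pairT W hζ x (Tate.map g y) :=
  zp_ext hζ fun k => by
    rw [zp_pairT, zp_pairT, ev_map, ev_map, h k _ _ (pow_smul_ev _ _) (pow_smul_ev _ _)]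

/-- Galois equivariance -/
theorem pairT_gal [DistribMulAction GQ J] {χ : GQ → ℤ_[r]} (hχ : IsCyc ζ χ) {σ : GQ}
    (h : ∀ (k : ℕ) (x y : J), r ^ k • x = 0 → r ^ k • y = 0 →
      w k (σ • x) (σ • y) = σ (w k x y)) (x y : TateModule r J) :
    pairT W hζ (gT σ x) (gT σ y) = χ σ * pairT W hζ x y :=
  zp_ext hζ fun k => by
    rw [zp_pairT, ev_gT, ev_gT, h k _ _ (pow_smul_ev _ _) (pow_smul_ev _ _), ← zp_pairT W hζ,
      zp_galois hζ hχ]

/-- self-adjointness passes to the subring generated. -/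
theorem pairT_selfadj {R : Type*} [CommRing R] [Module R J] {s : Set R}
    (hs : Algebra.adjoin ℤ s = ⊤)
    (h : ∀ c ∈ s, ∀ (k : ℕ) (x y : J), r ^ k • x = 0 → r ^ k • y = 0 →
      w k (c • x) y = w k x (c • y)) (c : R) (x y : TateModule r J) :
    pairT W hζ (Tate.map (DistribSMul.toAddMonoidHom J c) x) y =
      pairT W hζ x (Tate.map (DistribSMul.toAddMonoidHom J c) y) := by
  have hc : c ∈ Algebra.adjoin ℤ s := hs ▸ Algebra.mem_top
  induction hc using Algebra.adjoin_induction generalizing x y with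
  | mem c hc =>
    refine pairT_adj W hζ (fun k x y hx hy => ?_) x y
    exact h c hc k x y hx hy
  | algebraMap n =>
    have e : ∀ z : TateModule r J,
        Tate.map (DistribSMul.toAddMonoidHom J (algebraMap ℤ R n)) z = n • z := by
      intro z
      refine ext fun k => ?_
      rw [ev_map, map_zsmul]
      exact algebraMap_smul R n (ev k z)
    rw [e, e, map_zsmul, map_zsmul, LinearMap.smul_apply]
  | add a b _ _ ha hb =>
    have e : ∀ z : TateModule r J, Tate.map (DistribSMul.toAddMonoidHom J (a + b)) z =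
        Tate.map (DistribSMul.toAddMonoidHom J a) z +
          Tate.map (DistribSMul.toAddMonoidHom J b) z := by
      intro z
      refine ext fun k => ?_
      rw [ev_map, map_add]
      exact add_smul a b (ev k z)
    rw [e, e, map_add, map_add, LinearMap.add_apply, ha, hb]
  | mul a b _ _ ha hb =>
    have e : ∀ z : TateModule r J, Tate.map (DistribSMul.toAddMonoidHom J (a * b)) z =
        Tate.map (DistribSMul.toAddMonoidHom J a)
          (Tate.map (DistribSMul.toAddMonoidHom J b) z) := by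
      intro z
      refine ext fun k => ?_
      exact mul_smul a b (ev k z)
    have e' : ∀ z : TateModule r J, Tate.map (DistribSMul.toAddMonoidHom J (a * b)) z =
        Tate.map (DistribSMul.toAddMonoidHom J b)
          (Tate.map (DistribSMul.toAddMonoidHom J a) z) := by
      intro z
      refine ext fun k => ?_
      rw [mul_comm]
      exact mul_smul b a (ev k z)
    rw [e, e' y, ha, hb]

end pair

section perf

variable {r : ℕ} [hr : Fact r.Prime] {T : Type*} [AddCommGroup T] [Module ℤ_[r] T]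
  [Module.Finite ℤ_[r] T] [Module.Free ℤ_[r] T]

/-- A bilinear form on a free module over `ℤ_r` whose reduction mod `r` is nondegenerate is
perfect. -/
theorem perfect_of_mod (E : T →ₗ[ℤ_[r]] T →ₗ[ℤ_[r]] ℤ_[r])
    (h : ∀ z : T, (∀ x, (r : ℤ_[r]) ∣ E x z) → ∃ z', z = (r : ℤ_[r]) • z')
    (f : T →ₗ[ℤ_[r]] ℤ_[r]) : ∃ z, ∀ x, E x z = f x := by
  classical
  let ι := Module.Free.ChooseBasisIndex ℤ_[r] T
  let b : Module.Basis ι ℤ_[r] T := Module.Free.chooseBasis ℤ_[r] T
  let G : Matrix ι ι ℤ_[r] := fun i j => E (b i) (b j)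
  have hG : ∀ (c : ι → ℤ_[r]) (i : ι), E (b i) (∑ j, c j • b j) = (G.mulVec c) i := by
    intro c i
    rw [map_sum, Matrix.mulVec, dotProduct]
    refine Finset.sum_congr rfl fun j _ => ?_
    rw [map_smul, smul_eq_mul, mul_comm]
  have hr1 : ∀ a : ℤ_[r], (r : ℤ_[r]) ∣ a ↔ toZMod a = 0 := by
    intro a
    rw [← RingHom.mem_ker, PadicInt.ker_toZMod, PadicInt.maximalIdeal_eq_span_p,
      Ideal.mem_span_singleton]
  have hdet : IsUnit G.det := by
    by_contra hnu
    have h1 : toZMod G.det = 0 := by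
      rw [← RingHom.mem_ker, PadicInt.ker_toZMod]
      exact (IsLocalRing.mem_maximalIdeal _).mpr hnu
    rw [RingHom.map_det] at h1
    obtain ⟨v, hv0, hv⟩ := Matrix.exists_mulVec_eq_zero_iff.mpr h1
    -- lift
    have hsurj : ∀ t : ZMod r, ∃ c : ℤ_[r], toZMod c = t := fun t =>
      ⟨(t.val : ℤ_[r]), by rw [map_natCast, ZMod.natCast_zmod_val]⟩
    choose g hg using hsurj
    let c : ι → ℤ_[r] := fun i => g (v i)
    have hc : ∀ i, toZMod (c i) = v i := fun i => hg (v i)
    have h2 : ∀ i, (r : ℤ_[r]) ∣ E (b i) (∑ j, c j • b j) := by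
      intro i
      rw [hG, hr1]
      have h3 := congrFun hv i
      rw [Pi.zero_apply] at h3
      rw [← h3, Matrix.mulVec, Matrix.mulVec, dotProduct, dotProduct, map_sum]
      refine Finset.sum_congr rfl fun j _ => ?_
      rw [map_mul, hc]
      rfl
    have h4 : ∀ x, (r : ℤ_[r]) ∣ E x (∑ j, c j • b j) := by
      intro x
      have e : E x (∑ j, c j • b j) = ∑ i, b.repr x i * E (b i) (∑ j, c j • b j) := by
        conv_lhs => rw [← b.sum_repr x]
        rw [map_sum E, LinearMap.sum_apply]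
        exact Finset.sum_congr rfl fun i _ => by
          rw [map_smul, LinearMap.smul_apply, smul_eq_mul]
      rw [e]
      exact Finset.dvd_sum fun i _ => (h2 i).mul_left _
    obtain ⟨z', hz'⟩ := h _ h4
    apply hv0
    funext j
    have h5 : b.repr (∑ j, c j • b j) j = c j := by
      rw [b.repr_sum_self]
    rw [hz', map_smul, Finsupp.smul_apply, smul_eq_mul] at h5
    rw [← hc j, ← h5, map_mul, map_natCast, ZMod.natCast_self, zero_mul]
    rfl
  let c : ι → ℤ_[r] := (G⁻¹).mulVec fun i => f (b i)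
  refine ⟨∑ j, c j • b j, fun x => ?_⟩
  have h1 : ∀ i, E (b i) (∑ j, c j • b j) = f (b i) := by
    intro i
    rw [hG, Matrix.mulVec_mulVec, Matrix.mul_nonsing_inv G hdet, Matrix.one_mulVec]
  have e : E x (∑ j, c j • b j) = ∑ i, b.repr x i * E (b i) (∑ j, c j • b j) := by
    conv_lhs => rw [← b.sum_repr x]
    rw [map_sum E, LinearMap.sum_apply]
    exact Finset.sum_congr rfl fun i _ => by
      rw [map_smul, LinearMap.smul_apply, smul_eq_mul]
  rw [e]
  conv_rhs => rw [← b.sum_repr x, map_sum]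
  refine Finset.sum_congr rfl fun i _ => ?_
  rw [map_smul, h1, smul_eq_mul]

end perf

section final

variable {r : ℕ} [hr : Fact r.Prime] {J : Type*} [AddCommGroup J] {w : ℕ → J → J → Qb}
  (W : IsWeil r w) {ζ : ℕ → Qb} (hζ : IsSys r ζ)

/-- **Perfectness** from nondegeneracy at level one. -/
theorem pairT_perfect (hfin : Finite {x : J // r • x = 0}) (hdiv : ∀ x : J, ∃ y, r • y = x)
    (hnd : ∀ x : J, r • x = 0 → (∀ y : J, r • y = 0 → w 1 x y = 1) → x = 0)
    (f : TateModule r J →ₗ[ℤ_[r]] ℤ_[r]) : ∃ z, ∀ x, pairT W hζ x z = f x := by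
  have := finite_of_finite hfin
  have := free_of_finite hfin
  refine perfect_of_mod _ (fun z hz => ?_) f
  have h1 : ev 1 z = 0 := by
    refine hnd _ (by have := pow_smul_ev z 1; rwa [pow_one] at this) fun y hy => ?_
    obtain ⟨x, hx⟩ := exists_ev_eq (p := r) (fun _ u _ => hdiv u) (n := 1) (x := y)
      (by rw [pow_one]; exact hy)
    have h2 := (dvd_iff_zp_one hζ).mp (hz x)
    rw [zp_pairT, hx] at h2
    rw [W.swap 1 y (ev 1 z), h2, inv_one]
  rw [ev_eq_zero_iff, pow_one] at h1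
  obtain ⟨z', hz'⟩ := h1
  exact ⟨z', hz'.symm⟩

/-- nondegeneracy: `E x z = 0` for all `x` implies `z = 0`. -/
theorem pairT_nondeg (hdiv : ∀ x : J, ∃ y, r • y = x)
    (hnd : ∀ x : J, r • x = 0 → (∀ y : J, r • y = 0 → w 1 x y = 1) → x = 0)
    {z : TateModule r J} (hz : ∀ x, pairT W hζ x z = 0) : z = 0 := by
  have key : ∀ (k : ℕ) (z : TateModule r J), (∀ x, pairT W hζ x z = 0) → ev k z = 0 := by
    intro k
    induction k with
    | zero => intro z _; exact ev_zero z
    | succ k ih =>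
      intro z hz
      have h1 : ev 1 z = 0 := by
        refine hnd _ (by have := pow_smul_ev z 1; rwa [pow_one] at this) fun y hy => ?_
        obtain ⟨x, hx⟩ := exists_ev_eq (p := r) (fun _ u _ => hdiv u) (n := 1) (x := y)
          (by rw [pow_one]; exact hy)
        have h2 := zp_pairT W hζ x z 1
        rw [hz, zp_zero hζ, hx] at h2
        rw [W.swap 1 y (ev 1 z), ← h2, inv_one]
      rw [ev_eq_zero_iff, pow_one] at h1
      obtain ⟨z', rfl⟩ := h1
      have h3 : ∀ x, pairT W hζ x z' = 0 := by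
        intro x
        have h4 := hz x
        rw [map_smul, smul_eq_mul] at h4
        rcases mul_eq_zero.mp h4 with h | h
        · exact absurd h (by exact_mod_cast hr.out.ne_zero)
        · exact h
      have h5 := ih z' h3
      have h6 := ev_pow_smul 1 (k + 1) z'
      rw [pow_one, pow_one, smul_ev_succ, h5] at h6
      exact h6
  exact ext fun k => by rw [key k z hz, map_zero]

end final

end Fermat.Agent.Mazur.PairT
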