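import Mathlib
import Fermat.Agent.Mazur.Kummer

/-!
# Global Kummer classes over `ℚ` with integral valuations

`exists_rat`: if `θ^r ∈ ℚ` and `θ` has integral valuation at every prime, then `θ` is, up to a
rational factor, a root of `± 1`.
-/

set_option autoImplicit false

noncomputable section

namespace Fermat.Agent.Mazur.RatRoot

local notation "Qbar" => AlgebraicClosure ℚ
local notation "Γℚ" => (AlgebraicClosure ℚ ≃ₐ[ℚ] AlgebraicClosure ℚ)

theorem nat_eq_pow {a r : ℕ} (ha : a ≠ 0) (h : ∀ p : ℕ, p.Prime → r ∣ a.factorization p) :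
    ∃ b : ℕ, a = b ^ r := by
  refine ⟨a.factorization.prod fun p e => p ^ (e / r), ?_⟩
  conv_lhs => rw [← Nat.prod_factorization_pow_eq_self ha]
  rw [Finsupp.prod, Finsupp.prod, ← Finset.prod_pow]
  refine Finset.prod_congr rfl fun p hp => ?_
  have hp' : p.Prime := Nat.prime_of_mem_primeFactors (by simpa using hp)
  rw [← pow_mul, Nat.div_mul_cancel (h p hp')]

theorem rat_eq_pow {b : ℚ} (hb : b ≠ 0) {r : ℕ} (hr : r ≠ 0)
    (h : ∀ p : ℕ, p.Prime → ∃ k : ℤ, padicValRat p b = r * k) :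
    ∃ c : ℚ, c ≠ 0 ∧ (b = c ^ r ∨ b = -c ^ r) := by
  have hnum : b.num.natAbs ≠ 0 := Int.natAbs_ne_zero.mpr (Rat.num_ne_zero.mpr hb)
  have hval : ∀ p : ℕ, p.Prime → r ∣ b.num.natAbs.factorization p ∧ r ∣ b.den.factorization p := by
    intro p hp
    have : Fact p.Prime := ⟨hp⟩
    obtain ⟨k, hk⟩ := h p hp
    have h1 : padicValRat p b = (b.num.natAbs.factorization p : ℤ) - (b.den.factorization p : ℤ) := by
      rw [padicValRat_def, padicValInt, Nat.factorization_def _ hp,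
        Nat.factorization_def _ hp]
    rw [h1] at hk
    by_cases hd : p ∣ b.den
    · have hn : ¬ p ∣ b.num.natAbs := fun hn =>
        hp.one_lt.ne' (Nat.dvd_one.mp (b.reduced ▸ Nat.dvd_gcd hn hd))
      have h2 : b.num.natAbs.factorization p = 0 := Nat.factorization_eq_zero_of_not_dvd hn
      rw [h2] at hk ⊢
      refine ⟨dvd_zero _, ?_⟩
      have h3 : (b.den.factorization p : ℤ) = r * (-k) := by
        push_cast at hk
        linarith
      exact Int.natCast_dvd_natCast.mp ⟨_, h3⟩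
    · have h2 : b.den.factorization p = 0 := Nat.factorization_eq_zero_of_not_dvd hd
      rw [h2] at hk ⊢
      refine ⟨?_, dvd_zero _⟩
      have h3 : (b.num.natAbs.factorization p : ℤ) = r * k := by
        push_cast at hk
        linarith
      exact Int.natCast_dvd_natCast.mp ⟨_, h3⟩
  obtain ⟨x, hx⟩ := nat_eq_pow hnum fun p hp => (hval p hp).1
  obtain ⟨y, hy⟩ := nat_eq_pow b.den_ne_zero fun p hp => (hval p hp).2
  have hc : |b| = ((x : ℚ) / y) ^ r := by
    rw [div_pow, ← Nat.cast_pow, ← Nat.cast_pow, ← hx, ← hy]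
    conv_lhs => rw [← Rat.num_div_den b, abs_div]
    simp [Nat.cast_natAbs]
  refine ⟨(x : ℚ) / y, ?_, ?_⟩
  · intro h0
    rw [h0, zero_pow hr, abs_eq_zero] at hc
    exact hb hc
  · rcases abs_choice b with h1 | h1
    · left; rw [← hc, h1]
    · right; rw [← hc, h1, neg_neg]

/-- A rational number which is a unit at a place over `ℓ` is an `ℓ`-adic unit. -/
theorem padicValRat_eq_zero {A : ValuationSubring (AlgebraicClosure ℚ)} {ℓ : ℕ} (hℓ : ℓ.Prime)
    (hA : A.LiesOverPrime ℓ) {c : ℚ} (hc : c ≠ 0)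
    (h : A.valuation (algebraMap ℚ Qbar c) = 1) : padicValRat ℓ c = 0 := by
  have : Fact ℓ.Prime := ⟨hℓ⟩
  have hℓ1 : A.valuation (ℓ : Qbar) < 1 := (ValuationSubring.mem_nonunits_iff A).mp hA
  have hunit : ∀ m : ℕ, ¬ ℓ ∣ m → A.valuation (m : Qbar) = 1 := by
    intro m hm
    have h1 := Fermat.Agent.Cyclotomic.natCast_notMem_nonunits hℓ hA hm
    rw [ValuationSubring.mem_nonunits_iff] at h1
    refine le_antisymm ?_ (not_lt.mp h1)
    exact (A.valuation_le_one_iff _).mpr (natCast_mem A m)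
  -- write `c = ± ℓ^v a / d`
  have key : ∀ c : ℚ, c ≠ 0 → A.valuation (algebraMap ℚ Qbar c) = 1 → 0 ≤ padicValRat ℓ c := by
    intro c hc h
    by_contra hneg
    push Not at hneg
    have hd : ℓ ∣ c.den := by
      by_contra hd
      have h1 : padicValNat ℓ c.den = 0 := padicValNat.eq_zero_of_not_dvd hd
      rw [padicValRat_def, h1] at hneg
      have := Int.natCast_nonneg (padicValInt ℓ c.num)
      push_cast at hneg
      linarith
    have hn : ¬ ℓ ∣ c.num.natAbs := fun hn =>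
      hℓ.one_lt.ne' (Nat.dvd_one.mp (c.reduced ▸ Nat.dvd_gcd hn hd))
    have h2 : c * (c.den : ℚ) = (c.num : ℚ) := Rat.mul_den_eq_num c
    have h3 := congrArg (fun z => A.valuation (algebraMap ℚ Qbar z)) h2
    simp only [map_mul, map_natCast, h, one_mul, map_intCast] at h3
    have h4 : A.valuation ((c.num : ℤ) : Qbar) = 1 := by
      rcases Int.natAbs_eq c.num with h5 | h5
      · rw [h5, Int.cast_natCast]; exact hunit _ hn
      · rw [h5, Int.cast_neg, Int.cast_natCast, Valuation.map_neg]; exact hunit _ hn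
    rw [h4] at h3
    obtain ⟨e, he⟩ := hd
    rw [he, Nat.cast_mul, map_mul] at h3
    have h5 : A.valuation (e : Qbar) ≤ 1 := (A.valuation_le_one_iff _).mpr (natCast_mem A e)
    have h6 : A.valuation (ℓ : Qbar) * A.valuation (e : Qbar) < 1 :=
      lt_of_le_of_lt (mul_le_of_le_one_right zero_le h5) hℓ1
    exact absurd h3 h6.ne
  refine le_antisymm ?_ (key c hc h)
  have h1 := key c⁻¹ (inv_ne_zero hc) (by rw [map_inv₀, map_inv₀, h, inv_one])
  rw [padicValRat.inv] at h1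
  linarith

/-- **Global Kummer generators with integral valuations.** -/
theorem exists_rat {r : ℕ} (hr : r.Prime) {θ : Qbar} (hθ : θ ≠ 0)
    (hfix : ∀ σ : Γℚ, σ (θ ^ r) = θ ^ r)
    (hval : ∀ ℓ : ℕ, ℓ.Prime → ∃ A : ValuationSubring (AlgebraicClosure ℚ), A.LiesOverPrime ℓ ∧
      ∃ k : ℤ, A.valuation (θ * (ℓ : Qbar) ^ k) = 1) :
    ∃ c : ℚ, c ≠ 0 ∧ ((θ * algebraMap ℚ Qbar c) ^ r = 1 ∨ (θ * algebraMap ℚ Qbar c) ^ r = -1) := by
  obtain ⟨b, hb⟩ : ∃ b : ℚ, algebraMap ℚ Qbar b = θ ^ r := by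
    have h1 : θ ^ r ∈ (⊥ : IntermediateField ℚ Qbar) :=
      (InfiniteGalois.mem_bot_iff_fixed (θ ^ r)).mpr hfix
    obtain ⟨b, hb⟩ := IntermediateField.mem_bot.mp h1
    exact ⟨b, hb⟩
  have hb0 : b ≠ 0 := by
    rintro rfl
    rw [map_zero] at hb
    exact pow_ne_zero r hθ hb.symm
  have hdvd : ∀ p : ℕ, p.Prime → ∃ k : ℤ, padicValRat p b = r * k := by
    intro ℓ hℓ
    have : Fact ℓ.Prime := ⟨hℓ⟩
    obtain ⟨A, hA, k, hk⟩ := hval ℓ hℓ
    have hℓ0 : (ℓ : ℚ) ≠ 0 := Nat.cast_ne_zero.mpr hℓ.ne_zero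
    have h1 : A.valuation (algebraMap ℚ Qbar (b * (ℓ : ℚ) ^ (k * r))) = 1 := by
      have h2 : algebraMap ℚ Qbar (b * (ℓ : ℚ) ^ (k * r)) = (θ * (ℓ : Qbar) ^ k) ^ r := by
        rw [map_mul, map_zpow₀, map_natCast, hb, mul_pow, zpow_mul, zpow_natCast]
      rw [h2, map_pow, hk, one_pow]
    have h2 := padicValRat_eq_zero hℓ hA (mul_ne_zero hb0 (zpow_ne_zero _ hℓ0)) h1
    rw [padicValRat.mul hb0 (zpow_ne_zero _ hℓ0), padicValRat.zpow, padicValRat.self hℓ.one_lt,
      mul_one] at h2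
    exact ⟨-k, by linarith⟩
  obtain ⟨c, hc0, hc⟩ := rat_eq_pow hb0 hr.ne_zero hdvd
  refine ⟨c⁻¹, inv_ne_zero hc0, ?_⟩
  rw [mul_pow, ← hb, ← map_pow, ← map_mul, inv_pow]
  rcases hc with hc | hc
  · left
    rw [hc, mul_inv_cancel₀ (pow_ne_zero r hc0), map_one]
  · right
    rw [hc, neg_mul, mul_inv_cancel₀ (pow_ne_zero r hc0), map_neg, map_one]

end Fermat.Agent.Mazur.RatRoot
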