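import Mathlib
import Fermat.Agent.Mazur.Global
import Fermat.Agent.Mazur.TameTate
import Fermat.Agent.Mazur.Unit.Output
import Fermat.Agent.Mazur.Beta
import Fermat.Agent.DefCond.InertiaCyc

/-!
# Theorem A (piece of S15): assembly of the Eisenstein descent

`Inputs` collects everything which is used about `J = JZero N` at the primes `r` and `N`;
`Inputs.exists_not_mem` is the conclusion: there is `e ∉ P` such that `e J(ℚ)` is torsion.
-/

set_option autoImplicit false
set_option linter.unusedSectionVars false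

open PadicInt
open Fermat.Agent.Tate Fermat.Agent.Mazur.Descent Fermat.Agent.Mazur.Unit
open Fermat.Agent.Mazur.Tame Fermat.Agent.Mazur.Beta

namespace Fermat.Agent.Mazur.TheoremA

local notation "Qb" => AlgebraicClosure ℚ
local notation "GQ" => AlgebraicClosure ℚ ≃ₐ[ℚ] AlgebraicClosure ℚ

section Counting

/-- The dual of a finite group has at most as many elements. -/
theorem card_hom_le {C : Type*} [AddCommGroup C] [Finite C] (n : ℕ) [NeZero n] :
    Nat.card (C →+ ZMod n) ≤ Nat.card C := by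
  classical
  have := Fintype.ofFinite C
  have hinj : Function.Injective (fun f : C →+ ZMod n =>
      (ZMod.stdAddChar (N := n)).compAddMonoidHom f) := by
    intro f g h
    ext x
    have h1 := DFunLike.congr_fun h x
    exact ZMod.injective_stdAddChar h1
  have h1 := Nat.card_le_card_of_injective _ hinj
  refine h1.trans ?_
  rw [Nat.card_eq_fintype_card, Nat.card_eq_fintype_card]
  exact AddChar.card_addChar_le C ℂ

/-- An isotropic subgroup `A` on which the pairing is nondegenerate satisfies `|A|² ≤ |V|`. -/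
theorem card_mul_card_le {V : Type*} [AddCommGroup V] [Finite V] (n : ℕ) [NeZero n]
    (B : V →+ V →+ ZMod n) (A : AddSubgroup V) (hiso : ∀ a ∈ A, ∀ b ∈ A, B a b = 0)
    (hnd : ∀ a ∈ A, (∀ v, B a v = 0) → a = 0) : Nat.card A * Nat.card A ≤ Nat.card V := by
  classical
  let Φ : V →+ (A →+ ZMod n) :=
    { toFun := fun v => (B.flip v).comp A.subtype
      map_zero' := by ext a; simp
      map_add' := fun x y => by ext a; simp }
  have hΦ : ∀ v (a : A), Φ v a = B a v := fun v a => rfl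
  have hker : A ≤ Φ.ker := by
    intro a ha
    rw [AddMonoidHom.mem_ker]
    ext b
    rw [hΦ]
    exact hiso _ b.2 _ ha
  have hfin1 : Finite Φ.range := Finite.of_surjective _ Φ.rangeRestrict_surjective
  let Ψ : A → (Φ.range →+ ZMod n) := fun a =>
    (AddMonoidHom.eval a).comp Φ.range.subtype
  have hΨ : Function.Injective Ψ := by
    intro a b h
    have h1 : ∀ v, B (a - b : A) v = 0 := by
      intro v
      have h2 := DFunLike.congr_fun h ⟨Φ v, v, rfl⟩
      have h3 : B a v = B b v := h2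
      rw [AddSubgroup.coe_sub, map_sub, AddMonoidHom.sub_apply, h3, sub_self]
    have h4 := hnd _ (a - b : A).2 h1
    exact sub_eq_zero.mp (Subtype.ext h4)
  have hfin2 : Finite (Φ.range →+ ZMod n) := by
    exact Finite.of_injective (fun f => (f : Φ.range → ZMod n)) DFunLike.coe_injective
  have h1 : Nat.card A ≤ Nat.card Φ.range :=
    (Nat.card_le_card_of_injective _ hΨ).trans (card_hom_le n)
  have h2 : Nat.card A ≤ Nat.card Φ.ker :=
    Nat.card_le_card_of_injective _ (AddSubgroup.inclusion_injective hker)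
  have h3 : Nat.card V = Nat.card Φ.range * Nat.card Φ.ker := by
    rw [AddSubgroup.card_eq_card_quotient_mul_card_addSubgroup Φ.ker]
    congr 1
    exact Nat.card_congr (QuotientAddGroup.quotientKerEquivRange Φ).toEquiv
  rw [h3]
  exact Nat.mul_le_mul h1 h2

end Counting

section Primary

variable {G J R : Type*} [Group G] [AddCommGroup J] [DistribMulAction G J] [CommRing R]
  [Module R J] [SMulCommClass G R J]

/-- The `P`-primary part of the `n`-torsion. -/
def Vp (J : Type*) [AddCommGroup J] {R : Type*} [CommRing R] [Module R J] (P : Ideal R) (n : ℕ) :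
    AddSubgroup J where
  carrier := {x | n • x = 0 ∧ ∀ p ∈ P, ∃ k : ℕ, p ^ k • x = 0}
  zero_mem' := ⟨smul_zero _, fun p _ => ⟨0, smul_zero _⟩⟩
  add_mem' := by
    rintro x y ⟨hx, hx'⟩ ⟨hy, hy'⟩
    refine ⟨by rw [smul_add, hx, hy, add_zero], fun p hp => ?_⟩
    obtain ⟨k, hk⟩ := hx' p hp
    obtain ⟨l, hl⟩ := hy' p hp
    refine ⟨k + l, ?_⟩
    rw [smul_add, pow_add, mul_smul, mul_smul, hl, smul_zero, add_zero, smul_comm, hk, smul_zero]
  neg_mem' := by
    rintro x ⟨hx, hx'⟩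
    refine ⟨by rw [smul_neg, hx, neg_zero], fun p hp => ?_⟩
    obtain ⟨k, hk⟩ := hx' p hp
    exact ⟨k, by rw [smul_neg, hk, neg_zero]⟩

theorem mem_Vp {P : Ideal R} {n : ℕ} {x : J} :
    x ∈ Vp J P n ↔ n • x = 0 ∧ ∀ p ∈ P, ∃ k : ℕ, p ^ k • x = 0 := Iff.rfl

theorem stable_Vp (P : Ideal R) (n : ℕ) : Stable G R (Vp J P n) := by
  constructor
  · rintro σ x ⟨hx, hx'⟩
    refine ⟨by rw [smul_comm, hx, smul_zero], fun p hp => ?_⟩
    obtain ⟨k, hk⟩ := hx' p hp
    exact ⟨k, by rw [← smul_comm, hk, smul_zero]⟩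
  · rintro c x ⟨hx, hx'⟩
    refine ⟨by rw [smul_comm, hx, smul_zero], fun p hp => ?_⟩
    obtain ⟨k, hk⟩ := hx' p hp
    exact ⟨k, by rw [smul_comm, hk, smul_zero]⟩

/-- in a finite module powers are eventually periodic. -/
theorem exists_pow_idem {M : Type*} [AddCommGroup M] [Module R M] [Finite M] (p : R) :
    ∃ n : ℕ, 0 < n ∧ ∀ x : M, p ^ n • p ^ n • x = p ^ n • x := by
  classical
  have : Finite (M → M) := inferInstance
  obtain ⟨a, b, hab, h⟩ := Finite.exists_ne_map_eq_of_infinite (fun (k : ℕ) (x : M) => p ^ k • x)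
  wlog hlt : a < b generalizing a b
  · exact this b a hab.symm h.symm (lt_of_le_of_ne (not_lt.mp hlt) hab.symm)
  obtain ⟨d, hd⟩ := Nat.exists_eq_add_of_lt hlt
  have hper : ∀ k x, p ^ (a + k * (d + 1)) • x = p ^ a • (x : M) := by
    intro k
    induction k with
    | zero => intro x; rw [zero_mul, add_zero]
    | succ k ih =>
      intro x
      have e1 : a + (k + 1) * (d + 1) = (a + k * (d + 1)) + (d + 1) := by ring
      rw [e1, pow_add, mul_smul, ih, ← mul_smul, ← pow_add]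
      have h1 : p ^ a • x = p ^ b • x := congrFun h x
      rw [h1, hd, add_assoc]
  refine ⟨(a + 1) * (d + 1), by positivity, fun x => ?_⟩
  have e2 : (a + 1) * (d + 1) = a + ((a + 1) * (d + 1) - a) := by
    have : a ≤ (a + 1) * (d + 1) := by nlinarith
    omega
  have e3 : p ^ ((a + 1) * (d + 1)) • x = p ^ ((a + 1) * (d + 1) - a) • p ^ a • x := by
    rw [← mul_smul, ← pow_add]
    congr 2
    omega
  rw [e3]
  have e4 : p ^ ((a + 1) * (d + 1)) • p ^ ((a + 1) * (d + 1) - a) • p ^ a • x =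
      p ^ ((a + 1) * (d + 1) - a) • p ^ (a + (a + 1) * (d + 1)) • x := by
    rw [← mul_smul, ← mul_smul, ← mul_smul, ← pow_add, ← pow_add, ← pow_add]
    congr 2
    ring
  rw [e4, hper]

/-- There is `t ∉ P` with `t J[n] ⊆ V`. -/
theorem exists_t (P : Ideal R) [hP : P.IsPrime] (n : ℕ) (hfin : Finite {x : J // n • x = 0}) :
    ∃ t : R, t ∉ P ∧ ∀ x : J, n • x = 0 → t • x ∈ Vp J P n := by
  classical
  -- the torsion as a module
  let M : Submodule R J :=
    { carrier := {x | n • x = 0}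
      zero_mem' := smul_zero _
      add_mem' := fun {a b} ha hb => by
        change n • (a + b) = 0
        rw [smul_add, ha, hb, add_zero]
      smul_mem' := fun c x hx => by
        change n • c • x = 0
        rw [smul_comm, hx, smul_zero] }
  have hM : Finite M := hfin
  choose! ν hν hνi using fun p : R => exists_pow_idem (M := M) p
  let F : P → (M → M) := fun p x => (p : R) • x
  have hFfin : (Set.range F).Finite := Set.toFinite _
  let S := hFfin.toFinset
  have hrep : ∀ f ∈ S, ∃ p : P, F p = f := fun f hf => hFfin.mem_toFinset.mp hf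
  choose! g hg using hrep
  let t : R := ∏ f ∈ S, (1 - ((g f : P) : R) ^ ν (g f))
  refine ⟨t, ?_, fun x hx => ⟨by rw [smul_comm, hx, smul_zero], fun p hp => ?_⟩⟩
  · intro ht
    obtain ⟨f, -, hf⟩ := (hP.prod_mem_iff).mp ht
    apply hP.ne_top
    rw [Ideal.eq_top_iff_one]
    have h1 : ((g f : P) : R) ^ ν (g f) ∈ P := P.pow_mem_of_mem (g f).2 _ (hν _)
    have := P.add_mem hf h1
    rwa [sub_add_cancel] at this
  · set f := F ⟨p, hp⟩ with hf
    have hfS : f ∈ S := hFfin.mem_toFinset.mpr ⟨_, rfl⟩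
    refine ⟨ν (g f), ?_⟩
    have h1 : ∀ (k : ℕ) (y : M), p ^ k • y = ((g f : P) : R) ^ k • y := by
      intro k
      induction k with
      | zero => intro y; rw [pow_zero, pow_zero]
      | succ k ih =>
        intro y
        have h2 : p • y = ((g f : P) : R) • y := (congrFun (hg f hfS) y).symm
        rw [pow_succ, mul_smul, h2, ih, pow_succ, mul_smul]
    have h2 : ∀ y : M, p ^ ν (g f) • (1 - ((g f : P) : R) ^ ν (g f)) • y = 0 := by
      intro y
      rw [h1, sub_smul, one_smul, smul_sub, hνi, sub_self]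
    have h3 : t = (1 - ((g f : P) : R) ^ ν (g f)) *
        ∏ f' ∈ S.erase f, (1 - ((g f' : P) : R) ^ ν (g f')) := (Finset.mul_prod_erase S _ hfS).symm
    have h4 := h2 ((∏ f' ∈ S.erase f, (1 - ((g f' : P) : R) ^ ν (g f'))) • ⟨x, hx⟩)
    have h5 := congrArg (fun z : M => (z : J)) h4
    simp only [Submodule.coe_smul, Submodule.coe_zero] at h5
    rw [h3, mul_smul]
    exact h5

end Primary

section Main

variable {r : ℕ} [hr : Fact r.Prime] {J : Type} [AddCommGroup J] [DistribMulAction GQ J]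
  {R : Type*} [CommRing R] [Module R J]

/-- The action of `R` on the Tate module. -/
noncomputable def ract (c : R) : TateModule r J →ₗ[ℤ_[r]] TateModule r J :=
  Tate.map (DistribSMul.toAddMonoidHom J c)

@[simp] theorem ev_ract (c : R) (t : TateModule r J) (k : ℕ) : ev k (ract c t) = c • ev k t := rfl

/-- The inputs of the descent. `A` is a place over `r`, `B` a place over `N`. -/
structure Inputs (N : ℕ) (P : Ideal R) (U : R) (ζ : ℕ → Qb) (χ : GQ → ℤ_[r])
    (E : TateModule r J →ₗ[ℤ_[r]] TateModule r J →ₗ[ℤ_[r]] ℤ_[r])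
    (B : ValuationSubring Qb) (φ : GQ) (Tor : Submodule ℤ_[r] (TateModule r J))
    (A : ValuationSubring Qb) (Tc TP : Submodule ℤ_[r] (TateModule r J))
    (e : TateModule r J →ₗ[ℤ_[r]] TateModule r J) : Prop where
  primeN : N.Prime
  rN : r ≠ N
  fin : Finite {x : J // r • x = 0}
  div : ∀ x : J, ∃ y : J, r • y = x
  smooth : ∀ y : J, ∃ L : IntermediateField ℚ Qb, FiniteDimensional ℚ L ∧
    ∀ g : GQ, (∀ x ∈ L, g x = x) → g • y = y
  fg : AddGroup.FG (FixedPoints.addSubgroup GQ J)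
  Pint : ∀ x : R, ∃ n : ℤ, x - (n : R) ∈ P
  rP : (r : R) ∈ P
  ne_top : P ≠ ⊤
  UP : U - 1 ∈ P
  sys : IsSys r ζ
  cyc : IsCyc ζ χ
  quad : ∀ (m : ℕ) (σ : GQ), ∃ c : ℕ, (c : ZMod r) = Cyclotomic.cyc r σ ∧ ∃ a ∈ P,
    ∀ v : J, r ^ m • v = 0 → σ • σ • v + c • v = (1 + c) • (σ • v) + a • (σ • v)
  unram : ∀ q : ℕ, q.Prime → q ≠ N → q ≠ r → ∃ Q : ValuationSubring Qb, Q.LiesOverPrime q ∧
    ∀ τ ∈ Q.inertiaSubgroupIn ℚ, ∀ (y : J) (k : ℕ), r ^ k • (τ • y - y) = 0 → τ • y = y
  perf : ∀ f : TateModule r J →ₗ[ℤ_[r]] ℤ_[r], ∃ z, ∀ x, E x z = f x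
  gal : ∀ (σ : GQ) (x y : TateModule r J), E (gT σ x) (gT σ y) = χ σ * E x y
  selfadj : ∀ (c : R) (x y : TateModule r J), E (ract c x) y = E x (ract c y)
  liesN : B.LiesOverPrime N
  frob : B.IsFrobeniusAt φ N
  tor : IsTor B φ Tor
  torF : ∀ t ∈ Tor, gT φ (gT φ t) = N ^ 2 • t
  liesr : A.LiesOverPrime r
  inertia : ∀ τ ∈ A.inertiaSubgroupIn ℚ, ∀ y : Hat r J, dl τ y ∈ Tc
  e_mem : ∀ x, e x ∈ TP
  e_id : ∀ x ∈ TP, e x = x
  e_c : ∀ x ∈ Tc, e x ∈ Tc
  e_pow : ∀ m : ℕ, ∃ s : ℕ, ∀ t, ev m (e t) = U ^ s • ev m t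
  iso : ∀ x ∈ Tc ⊓ TP, ∀ y ∈ Tc ⊓ TP, E x y = 0
  actW : ∀ τ ∈ A.inertiaSubgroupIn ℚ, ∀ x ∈ Tc ⊓ TP, gT τ x = χ τ • x
  unit : ∀ (m : ℕ) (y : J), (∀ σ : GQ, σ • (r ^ m • y) = r ^ m • y) →
    ∀ (B : AddSubgroup J), (∀ b ∈ B, ∃ x ∈ TP, ev m x = b) →
    ∀ (β : B →+ Additive Qbˣ), (∀ b, r • β b = 0) →
    ∀ (hyB : ∀ τ ∈ A.inertiaSubgroupIn ℚ, τ • y - y ∈ B) (θ : Qb), θ ≠ 0 →
    (∀ τ (hτ : τ ∈ A.inertiaSubgroupIn ℚ), τ θ = vl (β ⟨τ • y - y, hyB τ hτ⟩) * θ) →
    ∀ b : ℚ, θ ^ r = (b : Qb) → (r : ℤ) ∣ padicValRat r b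

namespace Inputs

variable {N : ℕ} {P : Ideal R} {U : R} {ζ : ℕ → Qb} {χ : GQ → ℤ_[r]}
    {E : TateModule r J →ₗ[ℤ_[r]] TateModule r J →ₗ[ℤ_[r]] ℤ_[r]}
    {B : ValuationSubring Qb} {φ : GQ} {Tor : Submodule ℤ_[r] (TateModule r J)}
    {A : ValuationSubring Qb} {Tc TP : Submodule ℤ_[r] (TateModule r J)}
    {e : TateModule r J →ₗ[ℤ_[r]] TateModule r J}
    (H : Inputs N P U ζ χ E B φ Tor A Tc TP e)

include H

theorem div_pow (m : ℕ) : ∀ x : J, ∃ y : J, r ^ m • y = x := by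
  induction m with
  | zero => intro x; exact ⟨x, by rw [pow_zero, one_smul]⟩
  | succ m ih =>
    intro x
    obtain ⟨y, hy⟩ := ih x
    obtain ⟨z, hz⟩ := H.div y
    exact ⟨z, by rw [pow_succ, mul_smul, hz, hy]⟩

theorem exists_lift {m : ℕ} {x : J} (hx : r ^ m • x = 0) : ∃ t : TateModule r J, ev m t = x :=
  exists_ev_eq (fun _ x _ => H.div x) hx

theorem finite_V (m : ℕ) : Finite (Vp J P (r ^ m)) := by
  have := finite_torsion_pow H.fin m
  exact Finite.of_injective (fun v : Vp J P (r ^ m) => (⟨v.1, v.2.1⟩ : {x : J // r ^ m • x = 0}))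
    fun a b h => Subtype.ext (congrArg (fun z => z.1) h)

/-- `V ⊆ ev_m(TP)`. -/
theorem mem_TP {m : ℕ} {x : J} (hx : x ∈ Vp J P (r ^ m)) : ∃ t ∈ TP, ev m t = x := by
  obtain ⟨t, ht⟩ := H.exists_lift hx.1
  obtain ⟨s, hs⟩ := H.e_pow m
  refine ⟨e t, H.e_mem t, ?_⟩
  rw [hs, ht]
  have h1 : U ^ s • (U ^ s • x - x) = 0 := by
    have h2 := hs (e t)
    rw [H.e_id _ (H.e_mem t), hs, ht] at h2
    rw [smul_sub, ← h2, sub_self]
  obtain ⟨k, hk⟩ := hx.2 _ H.UP
  have h3 : IsCoprime (U ^ s) ((U - 1) ^ k) := by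
    refine IsCoprime.pow ⟨1, -1, by ring⟩
  obtain ⟨a, b, hab⟩ := h3
  have h4 : U ^ s • x - x = 0 := by
    calc U ^ s • x - x = (a * U ^ s + b * (U - 1) ^ k) • (U ^ s • x - x) := by
          rw [hab, one_smul]
      _ = a • (U ^ s • (U ^ s • x - x)) + b • ((U - 1) ^ k • (U ^ s • x - x)) := by
          rw [add_smul, mul_smul, mul_smul]
      _ = 0 := by
          rw [h1, smul_zero, zero_add, smul_sub, smul_comm ((U - 1) ^ k), hk, smul_zero, sub_zero,
            smul_zero]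
  exact sub_eq_zero.mp h4

/-- `evW m`: the connected part at level `m`. -/
theorem sub_mem_W {m : ℕ} {y : J} (hy : ∀ σ : GQ, r ^ m • (σ • y - y) = 0)
    {τ : GQ} (hτ : τ ∈ A.inertiaSubgroupIn ℚ) (hyV : τ • y - y ∈ Vp J P (r ^ m)) :
    τ • y - y ∈ (Tc ⊓ TP).toAddSubgroup.map (ev m) := by
  obtain ⟨y', hy'⟩ := exists_hat (r := r) H.div m (y := y) (fun σ => by
    rw [smul_comm, ← sub_eq_zero, ← smul_sub, hy])
  obtain ⟨x', hx', hx'e⟩ := H.mem_TP hyV
  have h4 : ev m (dl τ y') = τ • y - y := by rw [ev_dl, hy']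
  have h6 : ev m (dl τ y' - x') = 0 := by rw [map_sub, h4, hx'e, sub_self]
  rw [ev_eq_zero_iff] at h6
  obtain ⟨t, ht⟩ := h6
  have h7 : e (dl τ y') = x' + (r : ℤ_[r]) ^ m • e t := by
    rw [← map_smul, ht, map_sub, H.e_id x' hx']
    abel
  refine ⟨e (dl τ y'), ⟨H.e_c _ (H.inertia τ hτ y'), H.e_mem _⟩, ?_⟩
  rw [h7, map_add, ev_pow_smul, pow_smul_ev, add_zero, hx'e]

theorem exists_inertia (u : (ZMod r)ˣ) : ∃ τ ∈ A.inertiaSubgroupIn ℚ, Cyclotomic.cyc r τ = u := by
  have key : ∀ (k : ℕ) (_ : r ^ 1 = k) [NeZero k] (u : (ZMod k)ˣ),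
      ∃ τ ∈ A.inertiaSubgroupIn ℚ, Cyclotomic.cyc k τ = u := by
    intro k hk
    subst hk
    intro _ u
    exact DefCond.exists_inertia_cyc hr.out 1 A H.liesr u
  exact key r (pow_one r) u

theorem cyc_eq {m : ℕ} (hm : m ≠ 0) (σ : GQ) :
    (((χ σ).appr m : ℕ) : ZMod r) = Cyclotomic.cyc r σ := by
  have hz : ζ 1 ^ r = 1 := by
    have := (H.sys.prim 1).pow_eq_one
    rwa [pow_one] at this
  have h1 := H.cyc σ 1
  rw [Cyclotomic.cyc_spec r σ hz, zp, pow_eq_pow_iff' H.sys, ZMod.natCast_eq_natCast_iff] at h1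
  have h2 : ((χ σ).appr 1) ≡ (χ σ).appr m [MOD r ^ 1] :=
    (Nat.modEq_iff_dvd' (PadicInt.appr_mono _ (Nat.one_le_iff_ne_zero.mpr hm))).mpr
      (PadicInt.dvd_appr_sub_appr _ 1 m (Nat.one_le_iff_ne_zero.mpr hm))
  have h3 := (h1.trans h2).symm
  rw [pow_one, ← ZMod.natCast_eq_natCast_iff, ZMod.natCast_zmod_val] at h3
  exact h3

omit H in
/-- values of the character `β'`. -/
noncomputable def mu (r : ℕ) [Fact r.Prime] (u : Qbˣ) (hu : u ^ r = 1) :
    ZMod r →+ Additive Qbˣ :=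
  ZMod.lift r ⟨zmultiplesHom (Additive Qbˣ) (Additive.ofMul u), by
    rw [zmultiplesHom_apply, natCast_zsmul]
    exact congrArg Additive.ofMul hu⟩

omit H in
theorem vl_mu {u : Qbˣ} (hu : u ^ r = 1) (n : ℕ) : vl (mu r u hu (n : ZMod r)) = (u : Qb) ^ n := by
  have h1 : mu r u hu (n : ZMod r) = n • Additive.ofMul u := by
    have := ZMod.lift_coe r (A := Additive Qbˣ) ⟨zmultiplesHom (Additive Qbˣ) (Additive.ofMul u), by
      rw [zmultiplesHom_apply, natCast_zsmul]
      exact congrArg Additive.ofMul hu⟩ (n : ℤ)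
    rw [Int.cast_natCast] at this
    rw [mu, this]
    change zmultiplesHom (Additive Qbˣ) (Additive.ofMul u) (n : ℤ) = _
    rw [zmultiplesHom_apply, natCast_zsmul]
  rw [h1, vl_nsmul]
  rfl

/-- **The simple steps.** -/
theorem hstep [SMulCommClass GQ R J] (m : ℕ) (A' B' : AddSubgroup J) (hA : Stable GQ R A')
    (hB : Stable GQ R B') (hAB : A' < B') (hBV : B' ≤ Vp J P (r ^ m))
    (hmax : ∀ C, Stable GQ R C → A' < C → C ≤ B' → C = B') :
    (Y GQ A').relIndex (Z (B.inertiaSubgroupIn ℚ) A' B') ≠ 0 ∧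
      (Y GQ A').relIndex (Z (B.inertiaSubgroupIn ℚ) A' B') *
        Nat.card ↥(A' ⊓ (Tc ⊓ TP).toAddSubgroup.map (ev m)) ≤
        Nat.card ↥(B' ⊓ (Tc ⊓ TP).toAddSubgroup.map (ev m)) := by
  classical
  set W : AddSubgroup J := (Tc ⊓ TP).toAddSubgroup.map (ev m) with hW
  have hVfin := H.finite_V m
  have hBfin : Finite B' := Finite.of_injective _ (AddSubgroup.inclusion_injective hBV)
  have hBWfin : Finite ↥(B' ⊓ W) :=
    Finite.of_injective _ (AddSubgroup.inclusion_injective (inf_le_left : B' ⊓ W ≤ B'))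
  have hrm : ∀ b ∈ B', r ^ m • b = 0 := fun b hb => (hBV hb).1
  have hm : m ≠ 0 := by
    rintro rfl
    obtain ⟨b, hb, hbA⟩ := SetLike.exists_of_lt hAB
    have := hrm b hb
    rw [pow_zero, one_smul] at this
    rw [this] at hbA
    exact hbA A'.zero_mem
  obtain ⟨β, hβA, hβs, hβG⟩ := exists_beta (V := Vp J P (r ^ m)) H.Pint H.rP
    (fun v hv p hp => hv.2 p hp) (Cyclotomic.cyc r)
    (fun σ => by
      obtain ⟨c, hc, a, ha, h⟩ := H.quad m σ
      exact ⟨c, hc, a, ha, fun v hv => h v hv.1⟩) hA hB hAB hBV hmax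
  -- consequences at `r`
  have hZr : ∀ y ∈ Y GQ B', ∀ τ ∈ A.inertiaSubgroupIn ℚ, τ • y - y ∈ B' ⊓ W := fun y hy τ hτ =>
    ⟨hy τ, H.sub_mem_W (fun σ => hrm _ (hy σ)) hτ (hBV (hy τ))⟩
  have hBY : B' ≤ Y GQ B' := fun b hb σ => B'.sub_mem (hB.1 σ b hb) hb
  -- trivial on inertia implies trivial
  have hcyc1 : (∀ τ ∈ A.inertiaSubgroupIn ℚ, Cyclotomic.cyc r τ = 1) →
      ∀ σ : GQ, Cyclotomic.cyc r σ = 1 := by
    intro h σ
    obtain ⟨τ, hτ, h1⟩ := H.exists_inertia (Cyclotomic.cyc r σ)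
    rw [← h1, h τ hτ]
  -- inertia outside `r`
  have hIq : ∀ q : ℕ, q.Prime → q ≠ r → ∃ Q : ValuationSubring Qb, Q.LiesOverPrime q ∧
      ∀ y ∈ Z (B.inertiaSubgroupIn ℚ) A' B', ∀ σ ∈ Q.inertiaSubgroupIn ℚ, σ • y - y ∈ A' := by
    intro q hq hqr
    by_cases hqN : q = N
    · subst hqN
      exact ⟨B, H.liesN, fun y hy σ hσ => hy.2 σ hσ⟩
    · obtain ⟨Q, hQ, hQ'⟩ := H.unram q hq hqN hqr
      refine ⟨Q, hQ, fun y hy σ hσ => ?_⟩
      rw [hQ' σ hσ y m (hrm _ (hy.1 σ)), sub_self]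
      exact A'.zero_mem
  by_cases hcase : B' ⊓ W ≤ A'
  · -- étale case
    have htriv : ∀ (σ : GQ) (b b' : B'), (b' : J) = σ • (b : J) → β b' = β b := by
      rcases hβG with h | h
      · exact h
      · have h1 : ∀ τ ∈ A.inertiaSubgroupIn ℚ, Cyclotomic.cyc r τ = 1 := by
          intro τ hτ
          obtain ⟨b, hb⟩ := hβs 1
          have h2 := hcase (hZr b (hBY b.2) τ hτ)
          have h3 := h τ b ⟨τ • (b : J), hB.1 τ b b.2⟩ rfl
          have h4 : β (⟨τ • (b : J), hB.1 τ b b.2⟩ - b) = 0 := (hβA _).mpr h2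
          rw [map_sub, h3, hb, mul_one, sub_eq_zero] at h4
          exact Units.ext h4
        intro σ b b' hbb
        rw [h σ b b' hbb, hcyc1 h1 σ, Units.val_one, one_mul]
    have hconst : ∀ b ∈ B', ∀ σ : GQ, σ • b - b ∈ A' := by
      intro b hb σ
      have h1 := htriv σ ⟨b, hb⟩ ⟨σ • b, hB.1 σ b hb⟩ rfl
      have h2 : β (⟨σ • b, hB.1 σ b hb⟩ - ⟨b, hb⟩) = 0 := by rw [map_sub, h1, sub_self]
      exact (hβA _).mp h2
    have h1 := Global.relIndex_of_const (I := B.inertiaSubgroupIn ℚ) H.smooth hconst (fun q hq => by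
      by_cases hqr : q = r
      · subst hqr
        exact ⟨A, H.liesr, fun y hy σ hσ => hcase (hZr y hy.1 σ hσ)⟩
      · exact hIq q hq hqr)
    rw [h1, one_mul]
    refine ⟨one_ne_zero, ?_⟩
    exact Nat.card_le_card_of_injective _
      (AddSubgroup.inclusion_injective (inf_le_inf_right W hAB.le))
  · -- multiplicative case
    obtain ⟨b₀, hb₀, hb₀A⟩ := SetLike.not_le_iff_exists.mp hcase
    have hβb₀ : β ⟨b₀, hb₀.1⟩ ≠ 0 := fun h => hb₀A ((hβA _).mp h)
    have hchi : ∀ (σ : GQ) (b b' : B'), (b' : J) = σ • (b : J) →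
        β b' = (Cyclotomic.cyc r σ : ZMod r) * β b := by
      rcases hβG with h | h
      · have h1 : ∀ τ ∈ A.inertiaSubgroupIn ℚ, Cyclotomic.cyc r τ = 1 := by
          intro τ hτ
          obtain ⟨w, hw, hwb⟩ := hb₀.2
          have h2 : τ • b₀ = (χ τ).appr m • b₀ := by
            rw [← hwb, ← ev_gT, H.actW τ hτ w hw, ev_smul']
          have h3 := h τ ⟨b₀, hb₀.1⟩ ((χ τ).appr m • ⟨b₀, hb₀.1⟩) (by
            rw [AddSubgroup.coe_nsmul]; exact h2.symm)
          rw [map_nsmul, nsmul_eq_mul, H.cyc_eq hm] at h3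
          have h4 : ((Cyclotomic.cyc r τ : ZMod r) - 1) * β ⟨b₀, hb₀.1⟩ = 0 := by
            rw [sub_mul, h3, one_mul, sub_self]
          rcases mul_eq_zero.mp h4 with h5 | h5
          · exact Units.ext (sub_eq_zero.mp h5)
          · exact absurd h5 hβb₀
        intro σ b b' hbb
        rw [h σ b b' hbb, hcyc1 h1 σ, Units.val_one, one_mul]
      · exact h
    -- the index of the connected parts
    have hidx : r * Nat.card ↥(A' ⊓ W) ≤ Nat.card ↥(B' ⊓ W) := by
      let g : ↥(B' ⊓ W) →+ ZMod r := β.comp (AddSubgroup.inclusion inf_le_left)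
      have hg : g.range = ⊤ := by
        have : Fact (Nat.card (ZMod r)).Prime := ⟨by rw [Nat.card_zmod]; exact hr.out⟩
        rcases AddSubgroup.eq_bot_or_eq_top_of_prime_card g.range with h | h
        · exfalso
          have h1 : g ⟨b₀, hb₀⟩ ∈ g.range := ⟨_, rfl⟩
          rw [h, AddSubgroup.mem_bot] at h1
          exact hβb₀ h1
        · exact h
      have h1 : Nat.card ↥(B' ⊓ W) = Nat.card g.range * Nat.card g.ker := by
        rw [AddSubgroup.card_eq_card_quotient_mul_card_addSubgroup g.ker]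
        congr 1
        exact Nat.card_congr (QuotientAddGroup.quotientKerEquivRange g).toEquiv
      have h2 : Nat.card g.range = r := by
        rw [hg, AddSubgroup.card_top, Nat.card_zmod]
      rw [h1, h2]
      refine Nat.mul_le_mul_left _ ?_
      have hfk : Finite g.ker := inferInstance
      refine Nat.card_le_card_of_injective
        (fun x : ↥(A' ⊓ W) => (⟨⟨x.1, hAB.le x.2.1, x.2.2⟩, ?_⟩ : g.ker)) ?_
      · exact (hβA _).mpr x.2.1
      · intro x y h
        exact Subtype.ext (congrArg (fun z : g.ker => ((z : ↥(B' ⊓ W)) : J)) h)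
    -- the function `β'`
    have hz : ζ 1 ^ r = 1 := by
      have := (H.sys.prim 1).pow_eq_one
      rwa [pow_one] at this
    have hz0 : ζ 1 ≠ 0 := fun h => by
      rw [h, zero_pow hr.out.ne_zero] at hz
      exact zero_ne_one hz
    let u : Qbˣ := Units.mk0 (ζ 1) hz0
    have hu : u ^ r = 1 := Units.ext hz
    let β2 : B' →+ Additive Qbˣ := (mu r u hu).comp β
    have hβ2 : ∀ b : B', vl (β2 b) = ζ 1 ^ (β b).val := by
      intro b
      have h1 : β2 b = mu r u hu (((β b).val : ℕ) : ZMod r) := by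
        rw [ZMod.natCast_zmod_val]; rfl
      rw [h1, vl_mu]
      rfl
    have hβ2r : ∀ b : B', r • β2 b = 0 := by
      intro b
      rw [← map_nsmul]
      change mu r u hu (β (r • b)) = 0
      rw [map_nsmul, nsmul_eq_mul, CharP.cast_eq_zero, zero_mul, map_zero]
    let β' : J → Qb := fun x => if h : x ∈ B' then vl (β2 ⟨x, h⟩) else 1
    have hβ' : ∀ x (hx : x ∈ B'), β' x = vl (β2 ⟨x, hx⟩) := fun x hx => dif_pos hx
    have h1 := Global.relIndex_of_mu (I := B.inertiaSubgroupIn ℚ) (A := A') (B := B') hr.out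
      H.smooth hB.1 β'
      (fun x hx y hy => by
        rw [hβ' x hx, hβ' y hy, hβ' _ (B'.add_mem hx hy), ← vl_add, ← map_add]
        rfl)
      (fun x hx => by
        rw [hβ' x hx, ← vl_nsmul, hβ2r]
        rfl)
      (fun x hx σ => by
        rw [hβ' x hx, hβ' _ (hB.1 σ x hx), hβ2, hβ2, map_pow, Cyclotomic.cyc_spec r σ hz,
          hchi σ ⟨x, hx⟩ ⟨σ • x, hB.1 σ x hx⟩ rfl, ← pow_mul]
        rw [← Cyclotomic.pow_val_natCast r hz ((Cyclotomic.cyc r σ : ZMod r).val * _),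
          Nat.cast_mul, ZMod.natCast_zmod_val, ZMod.natCast_zmod_val])
      (fun x hx => by
        rw [hβ' x hx, hβ2]
        constructor
        · intro h
          refine (hβA ⟨x, hx⟩).mp ?_
          have h2 : IsPrimitiveRoot (ζ 1) r := by
            have := H.sys.prim 1
            rwa [pow_one] at this
          have h3 := (h2.pow_eq_one_iff_dvd _).mp h
          rw [← ZMod.natCast_eq_zero_iff, ZMod.natCast_zmod_val] at h3
          exact h3
        · intro h
          rw [(hβA ⟨x, hx⟩).mpr h, ZMod.val_zero, pow_zero])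
      hIq
      (fun y hy δ b hδ hb hσδ hδb => by
        have hy1 := hy.1
        refine H.unit m y (fun σ => ?_) B' (fun b hb => H.mem_TP (hBV hb)) β2 hβ2r
          (fun τ _ => hy1 τ) δ hδ (fun τ hτ => ?_) b hδb
        · rw [smul_comm, ← sub_eq_zero, ← smul_sub, hrm _ (hy1 σ)]
        · rw [hσδ τ, hβ' _ (hy1 τ)])
    refine ⟨h1.1, ?_⟩
    exact (Nat.mul_le_mul_right _ h1.2).trans hidx

theorem isMaximal : P.IsMaximal := by
  refine Ideal.isMaximal_iff.mpr ⟨fun h => H.ne_top ((Ideal.eq_top_iff_one _).mpr h),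
    fun I x hPI hxP hxI => ?_⟩
  obtain ⟨n, hn⟩ := H.Pint x
  have hrn : ¬ (r : ℤ) ∣ n := by
    rintro ⟨k, rfl⟩
    apply hxP
    have : x = (x - ((r * k : ℤ) : R)) + (k : R) * (r : R) := by push_cast; ring
    rw [this]
    exact P.add_mem hn (P.mul_mem_left _ H.rP)
  obtain ⟨a, b, hab⟩ := (Nat.prime_iff_prime_int.mp hr.out).coprime_iff_not_dvd.mpr hrn
  have h1 : (n : R) ∈ I := by
    have := I.sub_mem hxI (hPI hn)
    rwa [sub_sub_cancel] at this
  have h2 : (1 : R) = (a : R) * (r : R) + (b : R) * (n : R) := by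
    have := congrArg (fun z : ℤ => (z : R)) hab
    push_cast at this
    exact this.symm
  rw [h2]
  exact I.add_mem (I.mul_mem_left _ (hPI H.rP)) (I.mul_mem_left _ h1)

/-- the Frobenius at `N` acts on the roots of unity through `N`. -/
theorem chi_frob : χ φ = (N : ℤ_[r]) := by
  refine ext_of_toZModPow.mp fun k => ?_
  have hr0 : NeZero (r ^ k) := ⟨pow_ne_zero _ hr.out.ne_zero⟩
  have hNr : ¬ N ∣ r ^ k := fun h =>
    H.rN ((Nat.prime_dvd_prime_iff_eq H.primeN hr.out).mp (H.primeN.dvd_of_dvd_pow h)).symm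
  have h1 := Cyclotomic.cyc_frobenius H.primeN hNr B H.liesN H.frob
  have h2 := Cyclotomic.cyc_spec (r ^ k) φ (H.sys.prim k).pow_eq_one
  rw [h1, Cyclotomic.pow_val_natCast (r ^ k) (H.sys.prim k).pow_eq_one, H.cyc φ k, zp,
    pow_eq_pow_iff' H.sys] at h2
  rw [map_natCast]
  exact h2

theorem iso_tor : ∀ x ∈ Tor, ∀ y ∈ Tor, E x y = 0 := by
  intro x hx y hy
  let E' : TateModule r J →+ TateModule r J →+ ℤ_[r] :=
    AddMonoidHom.mk' (fun x => (E x).toAddMonoidHom) fun x x' => by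
      ext y
      change E (x + x') y = E x y + E x' y
      rw [map_add, LinearMap.add_apply]
  have hE' : ∀ x y, E' x y = E x y := fun _ _ => rfl
  rw [← hE']
  refine isotropy (fun n hn x hx => ?_) E' (fun t => gT φ t) (N := N) H.primeN.two_le
    (fun x y => ?_) (H.torF x hx) (H.torF y hy)
  · rw [zsmul_eq_mul] at hx
    exact (mul_eq_zero.mp hx).resolve_left (by exact_mod_cast hn)
  · rw [hE', hE', H.gal, H.chi_frob, nsmul_eq_mul]

theorem pairing_congr {m : ℕ} {x x' y y' : TateModule r J} (hx : ev m x = ev m x')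
    (hy : ev m y = ev m y') : toZModPow m (E x y) = toZModPow m (E x' y') := by
  have key : ∀ z : TateModule r J, ev m z = 0 → ∀ w, toZModPow m (E z w) = 0 ∧
      toZModPow m (E w z) = 0 := by
    intro z hz w
    obtain ⟨z', rfl⟩ := (ev_eq_zero_iff z m).mp hz
    have h0 : toZModPow m ((r : ℤ_[r]) ^ m) = 0 := by
      rw [map_pow, map_natCast, ← Nat.cast_pow, ZMod.natCast_self]
    constructor
    · rw [map_smul, LinearMap.smul_apply, smul_eq_mul, map_mul, h0, zero_mul]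
    · rw [map_smul, smul_eq_mul, map_mul, h0, zero_mul]
  have h1 := (key (x - x') (by rw [map_sub, hx, sub_self]) y).1
  have h2 := (key (y - y') (by rw [map_sub, hy, sub_self]) x').2
  rw [map_sub, LinearMap.sub_apply, map_sub, sub_eq_zero] at h1
  rw [map_sub, map_sub, sub_eq_zero] at h2
  rw [h1, h2]

/-- nondegeneracy at finite level -/
theorem ev_eq_zero_of_forall {m : ℕ} {x : TateModule r J}
    (h : ∀ y, toZModPow m (E x y) = 0) : ev m x = 0 := by
  have hfin := finite_of_finite H.fin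
  have hfree := free_of_finite H.fin
  let b := Module.Free.chooseBasis ℤ_[r] (TateModule r J)
  have h1 : ∀ i, ∃ c : ℤ_[r], b.coord i x = (r : ℤ_[r]) ^ m * c := by
    intro i
    obtain ⟨z, hz⟩ := H.perf (b.coord i)
    have h2 := h z
    rw [hz, ← RingHom.mem_ker, ker_toZModPow, Ideal.mem_span_singleton] at h2
    exact h2
  choose c hc using h1
  rw [ev_eq_zero_iff]
  refine ⟨∑ i, c i • b i, ?_⟩
  rw [Finset.smul_sum]
  conv_rhs => rw [← b.sum_repr x]
  refine Finset.sum_congr rfl fun i _ => ?_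
  rw [smul_smul, ← hc]
  rfl

/-- **The pairing bound.** -/
theorem card_mul_card_le (m : ℕ) (S : Submodule ℤ_[r] (TateModule r J))
    (hS : ∀ x ∈ S, ∀ y ∈ S, E x y = 0) :
    Nat.card ↥(Vp J P (r ^ m) ⊓ S.toAddSubgroup.map (ev m)) *
      Nat.card ↥(Vp J P (r ^ m) ⊓ S.toAddSubgroup.map (ev m)) ≤ Nat.card (Vp J P (r ^ m)) := by
  classical
  have hmax := H.isMaximal
  have hVfin := H.finite_V m
  set V := Vp J P (r ^ m) with hV
  choose s hs using fun v : V => H.exists_lift v.2.1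
  have hr0 : NeZero (r ^ m) := ⟨pow_ne_zero _ hr.out.ne_zero⟩
  let Bp : V →+ V →+ ZMod (r ^ m) := AddMonoidHom.mk' (fun v => AddMonoidHom.mk'
      (fun w => toZModPow m (E (s v) (s w))) fun w w' => by
        rw [← map_add, ← map_add]
        refine H.pairing_congr rfl ?_
        rw [hs, map_add, hs, hs, AddSubgroup.coe_add]) fun v v' => by
      ext w
      change toZModPow m (E (s (v + v')) (s w)) = toZModPow m (E (s v) (s w)) +
        toZModPow m (E (s v') (s w))
      rw [← map_add, ← LinearMap.add_apply, ← map_add]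
      refine H.pairing_congr ?_ rfl
      rw [hs, map_add, hs, hs, AddSubgroup.coe_add]
  have hBp : ∀ v w, Bp v w = toZModPow m (E (s v) (s w)) := fun _ _ => rfl
  let A' : AddSubgroup V := (S.toAddSubgroup.map (ev m)).addSubgroupOf V
  have h1 := TheoremA.card_mul_card_le (r ^ m) Bp A'
    (fun a ha b hb => by
      obtain ⟨x, hx, hxa⟩ := AddSubgroup.mem_addSubgroupOf.mp ha
      obtain ⟨y, hy, hyb⟩ := AddSubgroup.mem_addSubgroupOf.mp hb
      rw [hBp, H.pairing_congr (x' := x) (y' := y) (by rw [hs, hxa]) (by rw [hs, hyb]),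
        hS x hx y hy, map_zero])
    (fun a ha h => by
      obtain ⟨t, ht, htV⟩ := exists_t (J := J) P (r ^ m) (finite_torsion_pow H.fin m)
      have h2 : t • (a : J) = 0 := by
        rw [← hs a, ← ev_ract]
        refine H.ev_eq_zero_of_forall fun y => ?_
        rw [H.selfadj]
        have h3 := h ⟨t • ev m y, htV _ (pow_smul_ev y m)⟩
        rw [hBp] at h3
        rw [← h3]
        refine H.pairing_congr rfl ?_
        rw [hs, ev_ract]
      obtain ⟨c, p, hp, hcp⟩ := hmax.exists_inv ht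
      have h3 : ∀ k : ℕ, (a : J) = p ^ k • (a : J) := by
        intro k
        induction k with
        | zero => rw [pow_zero, one_smul]
        | succ k ih =>
          rw [pow_succ, mul_smul]
          have h4 : p • (a : J) = a := by
            conv_rhs => rw [← one_smul R (a : J), ← hcp, add_smul, mul_smul, h2, smul_zero,
              zero_add]
          rw [h4]
          exact ih
      obtain ⟨k, hk⟩ := a.2.2 p hp
      have h4 := h3 k
      rw [hk] at h4
      exact Subtype.ext h4)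
  have h2 : Nat.card ↥(V ⊓ S.toAddSubgroup.map (ev m)) ≤ Nat.card A' :=
    Nat.card_le_card_of_injective
      (fun x : ↥(V ⊓ S.toAddSubgroup.map (ev m)) => (⟨⟨x.1, x.2.1⟩, x.2.2⟩ : A'))
      fun x y h => Subtype.ext (congrArg (fun z : A' => ((z : V) : J)) h)
  exact (Nat.mul_le_mul h2 h2).trans h1

/-- **Theorem A.** -/
theorem exists_not_mem [SMulCommClass GQ R J] :
    ∃ c : R, c ∉ P ∧ ∀ x : J, (∀ σ : GQ, σ • x = x) → ∃ n : ℕ, 0 < n ∧ n • (c • x) = 0 := by
  have hmax := H.isMaximal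
  refine descent P r hr.out.pos H.rP H.fg H.div fun m => ?_
  obtain ⟨t, ht, htV⟩ := exists_t (J := J) P (r ^ m) (finite_torsion_pow H.fin m)
  refine ⟨t, ht, Vp J P (r ^ m), htV, fun hM => ?_⟩
  have hVfin := H.finite_V m
  have hst := stable_Vp (G := GQ) (J := J) P (r ^ m)
  obtain ⟨w, hw1, hw2, hw3⟩ := nside (V := Vp J P (r ^ m)) H.primeN H.liesN H.rN H.frob H.fin
    H.smooth H.div H.tor (m := m) (fun v hv => hv.1) hst.1
  refine relIndex_nY_le (B.inertiaSubgroupIn ℚ) (r ^ m) (Vp J P (r ^ m))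
    ((Tc ⊓ TP).toAddSubgroup.map (ev m)) (fun v hv => hv.1) hst.1
    (relIndex_X_bot_le (B.inertiaSubgroupIn ℚ) (fun A => Stable GQ R A) stable_bot
      (fun A hA => hA.1) (Vp J P (r ^ m)) ((Tc ⊓ TP).toAddSubgroup.map (ev m))
      (fun A' B' hA hB hAB hBV hmax => H.hstep m A' B' hA hB hAB hBV hmax) _ hst le_rfl)
    hM w _ hw1 ⟨hw2, hw3⟩ ?_
  have h1 := H.card_mul_card_le m Tor H.iso_tor
  have h2 := H.card_mul_card_le m (Tc ⊓ TP) H.iso
  have h3 := Nat.mul_le_mul h1 h2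
  rw [torPart]
  refine (Nat.mul_self_le_mul_self_iff).mp ?_
  refine le_trans (le_of_eq ?_) h3
  ring

end Inputs

end Main

end Fermat.Agent.Mazur.TheoremA
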